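import Fermat.Agent.LT.DihedralTheta.Instance.ThreeUnits
import Fermat.Agent.LT.DihedralTheta.Target.Type

/-!
# The local data over three

Where inertia of `L` fixes `M` the generator has trace zero and norm congruent to one, the residue
field above has nine elements and the character has a square root of `-1` at `1 + i`: the
unramified model. Where inertia of `L` moves `M` the generator is a square root of a uniformiser
and the character is the sign of the residue: the tame model.
-/

set_option autoImplicit false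

noncomputable section

open IsDedekindDomain NumberField WithZero
open Fermat.Agent.GaloisBasics
open Fermat.Agent.LT.Final (GF3)
open Fermat.Agent.LT.GaloisData
open Fermat.Agent.LT.Places

namespace Fermat.Agent.LT.DihedralTheta

variable {ρ : GalQ →* GF3} [NumberField (cubicField ρ)] [NumberField (quarticField ρ)]
  {hρ : IsSupersingularRep ρ} {v : FinPlace (cubicField ρ)} {α β : cubicField ρ}

omit [NumberField (quarticField ρ)] in
theorem GenAt.n_cmp (G : GenAt hρ v α β) (x y : cubicField ρ) :
    G.form.n (cmp v x, cmp v y) = cmp v (normForm (2 * α + thetaS hρ * β)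
      (normForm (thetaS hρ) (thetaP hρ) (α, β)) (x, y)) := by
  simp only [LocalForm.n, GenAt.form, placeForm, ← map_pow, ← map_mul, ← map_add]
  rfl

omit [NumberField (quarticField ρ)] in
theorem GenAt.unitPt_of_res (G : GenAt hρ v α β) (hq : G.form.q = 3)
    (hs : G.form.res G.form.s = 0) (hp : G.form.res G.form.p = 1)
    {c : v.adicCompletion (cubicField ρ) × v.adicCompletion (cubicField ρ)}
    (hc : c ∈ G.form.box 0 0) (h : normU (G.form.res c.1, G.form.res c.2) ≠ 0) :
    G.form.UnitPt c := by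
  rw [← G.form.res_n hq hs hp hc, LocalBase.res_ne_zero_iff hq (G.form.torus_n_mem hc)] at h
  exact ⟨hc, h⟩

variable (X : IdeleCharData hρ)

omit [NumberField (cubicField ρ)] [NumberField (quarticField ρ)] in
/-- Inertia of `L` moving `M` makes the automorphism trivial on residues. -/
theorem quartAut_sub_mem (hρ : IsSupersingularRep ρ) {A : ValuationSubring Qbar}
    {w : FinPlace (quarticField ρ)}
    (hw : intIdeal (quarticField ρ) A = w.asIdeal) {h : GalQ}
    (hI : h ∈ A.inertiaSubgroupIn ℚ) (hL : h ∈ (cubicField ρ).fixingSubgroup)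
    (hM : h ∉ (quarticField ρ).fixingSubgroup) (o : 𝓞 (quarticField ρ)) :
    RingOfIntegers.mapRingHom (quartAut hρ : quarticField ρ →+* quarticField ρ) o - o ∈
      w.asIdeal := by
  rw [mem_fixingSubgroup_fixH hρ.continuous] at hL hM
  obtain ⟨hd, -⟩ := (quatGroup_cases hL).resolve_left hM
  have hm : h * (quartLift hρ)⁻¹ ∈ (quarticField ρ).fixingSubgroup := by
    rw [mem_fixingSubgroup_fixH hρ.continuous, map_mul, map_inv, rho_quartLift]
    exact hd
  have hx : h ((o : quarticField ρ) : Qbar) = quartLift hρ ((o : quarticField ρ) : Qbar) := by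
    have := (IntermediateField.mem_fixingSubgroup_iff _ _).mp hm _
      (apply_mem_quartic hρ (quartLift_mem hρ) (o : quarticField ρ))
    rwa [← AlgEquiv.mul_apply (h * (quartLift hρ)⁻¹), inv_mul_cancel_right] at this
  rw [← hw, intIdeal, Ideal.mem_comap, map_sub, mem_zbarIdeal]
  have := (mem_inertiaSubgroupIn_iff.mp hI).2 _ (coe_mem A (intIncl (quarticField ρ) o))
  rw [coe_intIncl, hx] at this
  exact this

/-- Inert at three: the units take a square root of `-1`. -/
theorem exists_unit_sq {A : ValuationSubring Qbar} (hA : A.LiesOverPrime 3)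
    (hv : intIdeal (cubicField ρ) A = v.asIdeal) (hno : NoInertia v)
    {w : FinPlace (quarticField ρ)} (hw : intIdeal (quarticField ρ) A = w.asIdeal) :
    ∃ u : (FinAdele (quarticField ρ))ˣ,
      (∀ w', w' ≠ w → toPlace w' (u : FinAdele (quarticField ρ)) = 1) ∧
      placeVal w (u : FinAdele (quarticField ρ)) = 1 ∧
      (X.ξ u : ℂ) * (X.ξ u : ℂ) = -1 := by
  obtain ⟨τ, hτ, hL, h4, hψ⟩ := exists_inertia_neg_one hρ hA
  have hM := hno 3 A Nat.prime_three hA hv _ (mul_mem hτ hτ) hL
  obtain ⟨u, h1, h2, hξ⟩ := X.unit_surj A hA w hw ⟨τ * τ, hM⟩ (mul_mem hτ hτ)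
  refine ⟨u, h1, h2, ?_⟩
  rw [hξ, ← Units.val_mul, ← map_mul,
    show psi hρ (⟨τ * τ, hM⟩ * ⟨τ * τ, hM⟩) = psi hρ ⟨τ * τ * (τ * τ), h4⟩ from rfl, hψ]
  simp

/-- At every place over three some unit has value `-1`. -/
theorem exists_unit_neg_one {A : ValuationSubring Qbar} (hA : A.LiesOverPrime 3)
    {w : FinPlace (quarticField ρ)} (hw : intIdeal (quarticField ρ) A = w.asIdeal) :
    ∃ u : (FinAdele (quarticField ρ))ˣ,
      (∀ w', w' ≠ w → toPlace w' (u : FinAdele (quarticField ρ)) = 1) ∧
      placeVal w (u : FinAdele (quarticField ρ)) = 1 ∧ X.ξ u = -1 := by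
  obtain ⟨τ, hτ, -, h4, hψ⟩ := exists_inertia_neg_one hρ hA
  obtain ⟨u, h1, h2, hξ⟩ := X.unit_surj A hA w hw ⟨_, h4⟩ (mul_mem (mul_mem hτ hτ) (mul_mem hτ hτ))
  exact ⟨u, h1, h2, hξ.trans hψ⟩

/-! ### Inert at three -/

section inert

variable (hρ) in
/-- A generator of trace zero and unit norm. -/
theorem exists_gen_zero (h3 : (3 : 𝓞 (cubicField ρ)) ∈ v.asIdeal) (hno : NoInertia v) :
    ∃ (α β : cubicField ρ) (G : GenAt hρ v α β), G.HasUnitDisc ∧
      2 * α + thetaS hρ * β = 0 ∧
      v.valuation (cubicField ρ) (normForm (thetaS hρ) (thetaP hρ) (α, β)) = 1 := by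
  obtain ⟨a, ha⟩ := exists_unit_sub hρ hno
  set b : 𝓞 (quarticField ρ) :=
    a - RingOfIntegers.mapRingHom (quartAut hρ : quarticField ρ →+* quarticField ρ) a
  have hb0 : (b : quarticField ρ) = (a : quarticField ρ) - quartAut hρ a := by
    rw [← quartAut_coe_int hρ a]
    exact map_sub (algebraMap (𝓞 (quarticField ρ)) (quarticField ρ)) _ _
  have hconj : quartAut hρ (b : quarticField ρ) = -(b : quarticField ρ) := by
    rw [hb0, map_sub, quartAut_quartAut, neg_sub]
  obtain ⟨α, β, hβ, hab, htr, hnm, hdisc⟩ := exists_gen hρ b fun w hw => by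
    rw [hconj, sub_neg_eq_add, ← two_mul, map_mul, hb0, ha w hw, mul_one,
      ← map_ofNat (inclM ρ), valuation_inclM_eq_one_iff hw]
    exact valuation_two h3
  have hS : 2 * α + thetaS hρ * β = 0 := by
    have h := quartAut_gen hρ α β
    rw [← hab, hconj, eq_sub_iff_add_eq, neg_add_cancel] at h
    exact (map_eq_zero (inclM ρ)).mp h.symm
  refine ⟨α, β, ⟨hβ, (torus_valued_cmp v _).trans_le htr, (torus_valued_cmp v _).trans_le hnm⟩,
    (torus_valued_cmp v _).trans hdisc, hS, ?_⟩
  rwa [hS, zero_pow two_ne_zero, zero_sub, Valuation.map_neg, map_mul,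
    show v.valuation (cubicField ρ) 4 = 1 by
      rw [show (4 : cubicField ρ) = 2 * 2 by norm_num, map_mul, valuation_two h3, one_mul],
    one_mul] at hdisc

variable {G : GenAt hρ v α β}
  (hD : G.HasUnitDisc) (hS : 2 * α + thetaS hρ * β = 0)
  (h3 : (3 : 𝓞 (cubicField ρ)) ∈ v.asIdeal) (hno : NoInertia v)

include X hD hS h3 hno

/-- The norm of the generator is congruent to one. -/
theorem GenAt.HasUnitDisc.res_p_three
    (hP : v.valuation (cubicField ρ) (normForm (thetaS hρ) (thetaP hρ) (α, β)) = 1) :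
    G.form.res G.form.p = 1 := by
  have hq : G.form.q = 3 := qThree hρ h3
  have hpu : G.form.p ≠ 0 ∧ G.form.ord G.form.p = 0 := by
    have h1 : Valued.v G.form.p = 1 := (torus_valued_cmp v _).trans hP
    exact ⟨fun h => by simp [h] at h1, show placeOrd v _ = 0 by rw [placeOrd, h1, log_one, neg_zero]⟩
  rcases (show G.form.res G.form.p = 1 ∨ G.form.res G.form.p = 2 by
    have := LocalBase.res_unit hq hpu.2 hpu.1
    generalize G.form.res G.form.p = r at this ⊢
    revert r; decide) with h | h
  · exact h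
  exfalso
  have hP1 : v.valuation (cubicField ρ) (normForm (thetaS hρ) (thetaP hρ) (α, β) + 1) < 1 := by
    rw [← torus_valued_cmp]
    refine lt_one_of_mem_ball_one ?_
    rw [map_add, map_one]
    show G.form.p + 1 ∈ G.form.ball 1
    rw [← LocalBase.res_eq_zero_iff hq (add_mem G.form.p_mem G.form.one_mem_ball),
      LocalBase.res_add hq G.form.p_mem G.form.one_mem_ball, LocalBase.res_one hq]
    rw [h]
    decide
  obtain ⟨p, A, w, hp, hA, hvA, hwA, hw⟩ := exists_above v
  obtain rfl := eq_three hp hA hvA h3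
  have hsq : genElt hρ α β ^ 2 =
      -inclM ρ (normForm (thetaS hρ) (thetaP hρ) (α, β)) := by
    rw [genElt_sq, hS, map_zero, zero_mul, zero_sub]
  have hσ : ∃ σ : ℤ, w.valuation (quarticField ρ) (genElt hρ α β - σ) < 1 := by
    have hlt : w.valuation (quarticField ρ) (genElt hρ α β - 1) *
        w.valuation (quarticField ρ) (genElt hρ α β + 1) < 1 := by
      rw [← map_mul, show (genElt hρ α β - 1) * (genElt hρ α β + 1) =
        -inclM ρ (normForm (thetaS hρ) (thetaP hρ) (α, β) + 1) by
          rw [map_add, map_one]; linear_combination hsq,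
        Valuation.map_neg, valuation_inclM_lt_one_iff hw]
      exact hP1
    by_contra hall
    push Not at hall
    exact absurd hlt (not_lt.mpr (one_le_mul (by simpa using hall 1)
      (by simpa [sub_neg_eq_add] using hall (-1))))
  obtain ⟨σ, hσ⟩ := hσ
  obtain ⟨u, hu1, hu2, hu⟩ := exists_unit_sq X hA hvA hno hwA
  have hwint : ∀ n : ℤ, w.valuation (quarticField ρ) (n : quarticField ρ) ≤ 1 := fun n => by
    rw [← map_intCast (algebraMap (𝓞 (quarticField ρ)) (quarticField ρ))]
    exact w.valuation_le_one _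
  have hres : ∀ o : 𝓞 (quarticField ρ), ∃ n : ℤ,
      w.valuation (quarticField ρ) ((o : quarticField ρ) - n) < 1 := fun o => by
    obtain ⟨x, y, hxy, hx, hy⟩ := hD.exists_coords o
    obtain ⟨n, hn⟩ := exists_int_sub_lt hρ h3 hx
    obtain ⟨m, hm⟩ := exists_int_sub_lt hρ h3 hy
    refine ⟨n + m * σ, ?_⟩
    rw [hxy, show inclM ρ x + inclM ρ y * genElt hρ α β - ((n + m * σ : ℤ) : quarticField ρ) =
      inclM ρ (x - n) + inclM ρ (y - m) * genElt hρ α β +
        (m : quarticField ρ) * (genElt hρ α β - σ) by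
          simp only [map_sub, map_intCast]; push_cast; ring]
    refine (Valuation.map_add _ _ _).trans_lt (max_lt ((Valuation.map_add _ _ _).trans_lt
      (max_lt ((valuation_inclM_lt_one_iff hw _).mpr hn) ?_)) ?_)
    · rw [map_mul]
      exact mul_lt_one_of_nonneg_of_lt_one_left zero_le ((valuation_inclM_lt_one_iff hw _).mpr hm)
        (G.valuation_genElt_le hw)
    · rw [map_mul]
      exact mul_lt_one_of_nonneg_of_lt_one_right (hwint m) zero_le hσ
  rw [← Units.val_mul, xi_sq_eq_one X ((comapPlace_three hw).mpr h3) hres hu1 hu2,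
    Units.val_one] at hu
  norm_num at hu

variable (hp : G.form.res G.form.p = 1)

include hp

omit X hno hD hp [NumberField ↥(quarticField ρ)] in
theorem GenAt.res_s_zero : G.form.res G.form.s = 0 := by
  show G.form.res (cmp v (2 * α + thetaS hρ * β)) = 0
  rw [hS, map_zero]
  exact LocalBase.res_zero (qThree hρ h3)

omit X hno hD [NumberField ↥(quarticField ρ)] in
theorem GenAt.not_hasRoot_three : ¬ G.HasRoot := by
  have hq : G.form.q = 3 := qThree hρ h3
  rintro ⟨r, hr0, hr⟩
  have h2 : r ^ 2 ∈ G.form.ball 0 := by rw [sq]; exact G.form.mul_mem_ball' hr0 hr0 (by norm_num)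
  have h1 : G.form.s * r ∈ G.form.ball 0 := G.form.mul_mem_ball' G.form.s_mem hr0 (by norm_num)
  rw [← LocalBase.res_eq_zero_iff hq (add_mem (add_mem h2 h1) G.form.p_mem),
    LocalBase.res_add hq (add_mem h2 h1) G.form.p_mem, LocalBase.res_add hq h2 h1, sq,
    LocalBase.res_mul hq hr0 hr0, LocalBase.res_mul hq G.form.s_mem hr0,
    GenAt.res_s_zero (G := G) hS h3, hp] at hr
  revert hr
  generalize G.form.res r = x
  revert x; decide

omit X hno in
theorem GenAt.HasUnitDisc.unique_three {w w' : FinPlace (quarticField ρ)}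
    (hw : comapPlace (inclM ρ) w = v) (hw' : comapPlace (inclM ρ) w' = v) : w' = w := by
  have hle : w.asIdeal ≤ w'.asIdeal := fun b hb => by
    obtain ⟨x, y, hxy, hx, hy⟩ := hD.small_coords (GenAt.not_hasRoot_three hS h3 hp) hw hb
    have hexp : exp (-1 : ℤ) < (1 : ℤᵐ⁰) := by rw [← exp_zero, exp_lt_exp]; norm_num
    rw [← HeightOneSpectrum.valuation_lt_one_iff_mem (K := quarticField ρ)]
    show w'.valuation (quarticField ρ) (b : quarticField ρ) < 1
    rw [hxy]
    refine (Valuation.map_add _ _ _).trans_lt (max_lt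
      ((valuation_inclM_lt_one_iff hw' x).mpr (hx.trans_lt hexp)) ?_)
    rw [map_mul]
    exact mul_lt_one_of_nonneg_of_lt_one_left zero_le
      ((valuation_inclM_lt_one_iff hw' y).mpr (hy.trans_lt hexp)) (G.valuation_genElt_le hw')
  exact (HeightOneSpectrum.ext (w.isMaximal.eq_of_le w'.isPrime.ne_top hle)).symm

omit hno hD in
theorem GenAt.genEta_unit_three {a : v.adicCompletion (cubicField ρ)} (ha : a ≠ 0)
    (hao : G.form.ord a = 0) : genEta v X a = 1 := by
  have hq : G.form.q = 3 := qThree hρ h3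
  have hs := GenAt.res_s_zero (G := G) hS h3
  have hb : ((1 : v.adicCompletion (cubicField ρ)), (1 : v.adicCompletion (cubicField ρ))) ∈
      G.form.box 0 0 := LocalBase.mem_box.mpr ⟨G.form.one_mem_ball, G.form.one_mem_ball⟩
  have hd : ∀ d, G.form.UnitPt d → G.form.res a = G.form.res (G.form.n d) → genEta v X a = 1 :=
    fun d hd e => by
      rw [G.genEta_res X hq ha hao hd.2.1 hd.2.2 e]
      exact G.eta_norm X hd.2.1
  have h := LocalBase.res_unit hq hao ha
  rcases (show G.form.res a = 1 ∨ G.form.res a = 2 by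
    generalize G.form.res a = r at h ⊢
    revert r; decide) with e | e
  · refine hd _ LocalForm.UnitPt.n_one ?_
    rw [e, G.form.res_n hq hs hp LocalForm.UnitPt.n_one.1, LocalBase.res_one hq,
      LocalBase.res_zero hq]
    decide
  · refine hd _ (G.unitPt_of_res hq hs hp hb ?_) ?_
    · simp only [LocalBase.res_one hq]; decide
    · rw [e, G.form.res_n hq hs hp hb, LocalBase.res_one hq]
      decide

theorem GenAt.HasUnitDisc.genPsi_sq_three :
    genPsi v α β X (1, 1) * genPsi v α β X (1, 1) = -1 := by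
  have hq : G.form.q = 3 := qThree hρ h3
  have hs := GenAt.res_s_zero (G := G) hS h3
  have h1 : ((1 : v.adicCompletion (cubicField ρ)), (1 : v.adicCompletion (cubicField ρ))) ∈
      G.form.box 0 0 := LocalBase.mem_box.mpr ⟨G.form.one_mem_ball, G.form.one_mem_ball⟩
  have hc₀ : G.form.UnitPt (1, 1) := G.unitPt_of_res hq hs hp h1 (by
    simp only [LocalBase.res_one hq]; decide)
  obtain ⟨p, A, w, hp', hA, hvA, hwA, hw⟩ := exists_above v
  obtain rfl := eq_three hp' hA hvA h3
  obtain ⟨u, hu1, hu2, hu⟩ := exists_unit_sq X hA hvA hno hwA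
  have hall := mem_integralAdele_of_units hu1 hu2
  obtain ⟨o, ho⟩ := exists_integer_sub_lt w (mem_integralAdele_iff.mpr fun w' => (hall w').le)
  obtain ⟨x, y, hxy, hx, hy⟩ := hD.exists_coords o
  set c := (cmp v x, cmp v y)
  have hcb : c ∈ G.form.box 0 0 :=
    LocalBase.mem_box.mpr ⟨cmp_mem_placeBall hx, cmp_mem_placeBall hy⟩
  have ho1 : w.valuation (quarticField ρ) (o : quarticField ρ) = 1 := by
    refine le_antisymm (w.valuation_le_one o) (le_of_not_gt fun hlt => ?_)
    refine absurd hu2 (ne_of_lt ?_)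
    rw [← sub_add_cancel (u : FinAdele (quarticField ρ))
      (finIncl (quarticField ρ) (o : quarticField ρ))]
    exact (placeVal_add_le w _ _).trans_lt (max_lt ho (by rwa [placeVal_finIncl]))
  have hN : Valued.v (G.form.n c) = 1 := by
    rw [G.n_cmp, torus_valued_cmp, ← valuation_inclM_eq_one_iff hw, inclM_normForm hρ α β, ← hxy,
      map_mul, ho1, one_mul, valuation_quartAut,
      hD.unique_three hS h3 hp hw ((comapPlace_quartAut hρ w).trans hw), ho1]
  have hc : G.form.UnitPt c := ⟨hcb, fun h => by simp [h] at hN,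
    show placeOrd v _ = 0 by rw [placeOrd, hN, log_one, neg_zero]⟩
  have hψ : genPsi v α β X c = (X.ξ u : ℂ) := by
    refine G.genPsi_eq_xi X hc hall fun w' _ => ?_
    rw [placeVal, map_sub]
    by_cases h' : comapPlace (inclM ρ) w' = v
    · rw [toPlace_aboveAdele c h', hD.unique_three hS h3 hp hw h', toPlace_aboveElt_cmp x y hw,
        ← hxy, Valuation.map_sub_swap, ← map_sub]
      exact ho
    · rw [toPlace_aboveAdele_out c h', hu1 w' (fun e => h' (e ▸ hw)), sub_self, map_zero]
      exact zero_lt_one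
  rw [← hψ] at hu
  have hc1 := (LocalBase.mem_box.mp hcb).1
  have hr : normU (G.form.res c.1, G.form.res c.2) ≠ 0 := by
    rw [← G.form.res_n hq hs hp hcb]
    exact LocalBase.res_unit hq hc.2.2 hc.2.1
  have key : ∀ r : ZMod 3 × ZMod 3, normU r ≠ 0 →
      ((mulU r r).1 ≠ 0 ∧ (mulU r r).2 = 0) ∨ (r.1 ≠ 0 ∧ r.2 = r.1) ∨
        (r.1 ≠ 0 ∧ r.2 = -r.1) := by decide
  have hscal : ∀ d, G.form.UnitPt d → G.form.res c.1 ≠ 0 →
      (G.form.res c.1, G.form.res c.2) =
        mulU (G.form.res c.1, 0) (G.form.res d.1, G.form.res d.2) →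
      genPsi v α β X c = genPsi v α β X d := fun d hd hne e => by
    obtain ⟨hne', ho'⟩ := (LocalBase.res_ne_zero_iff hq hc1).mp hne
    have hsc := unitPt_scalar G hne' ho'
    have := res_qmul_unram hq hs hp hsc.1 hd.1
    rw [LocalBase.res_zero hq, ← e] at this
    rw [G.genPsi_res X hq hc (hsc.mul hd) (congrArg Prod.fst this).symm
      (congrArg Prod.snd this).symm, G.genPsi_mul X hsc.2.1 hd.2.1, genPsi_scalar,
      GenAt.genEta_unit_three X hS h3 hp hne' ho', one_mul]
  rcases key _ hr with ⟨h1', h2'⟩ | ⟨hne, he⟩ | ⟨hne, he⟩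
  · exfalso
    have hd := hc.mul hc
    have hres := res_qmul_unram hq hs hp hcb hcb
    have hd1 := (LocalBase.mem_box.mp hd.1).1
    obtain ⟨hne', ho'⟩ := (LocalBase.res_ne_zero_iff hq hd1).mp
      ((congrArg Prod.fst hres).trans_ne h1')
    rw [← G.genPsi_mul X hc.2.1 hc.2.1, G.genPsi_res X hq hd (unitPt_scalar G hne' ho') rfl
      ((congrArg Prod.snd hres).trans (h2'.trans (LocalBase.res_zero hq).symm)), genPsi_scalar,
      GenAt.genEta_unit_three X hS h3 hp hne' ho'] at hu
    norm_num at hu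
  · rwa [hscal _ hc₀ hne (by
      simp [mulU, LocalBase.res_one hq, show G.form.res c.2 = G.form.res c.1 from he])] at hu
  · have hqc : G.form.qconj (1, 1) = ((1 : v.adicCompletion (cubicField ρ)), -1) := by
      show ((1 : v.adicCompletion (cubicField ρ)) + cmp v (2 * α + thetaS hρ * β) * 1, -1) = _
      rw [hS, map_zero, zero_mul, add_zero]
    have hcj : G.form.UnitPt (G.form.qconj (1, 1)) :=
      ⟨G.form.qconj_mem h1, by rw [G.form.torus_n_qconj]; exact hc₀.2.1,
        by rw [G.form.torus_n_qconj]; exact hc₀.2.2⟩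
    rw [hscal _ hcj hne (by
        simp [hqc, mulU, LocalBase.res_one hq, LocalBase.res_neg hq G.form.one_mem_ball,
          show G.form.res c.2 = -G.form.res c.1 from he]),
      G.genPsi_qconj X hc₀.2.1, ← mul_inv, inv_eq_iff_eq_inv, inv_neg, inv_one] at hu
    exact hu

end inert

/-! ### Ramified at three -/

section tame

variable (hρ) in
/-- A generator whose square is a uniformiser. -/
theorem exists_gen_tame (h3 : (3 : 𝓞 (cubicField ρ)) ∈ v.asIdeal)
    {w : FinPlace (quarticField ρ)} (hw : comapPlace (inclM ρ) w = v)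
    (hσw : comapPlace (quartAut hρ : quarticField ρ →+* quarticField ρ) w = w)
    (htriv : ∀ o : 𝓞 (quarticField ρ),
      RingOfIntegers.mapRingHom (quartAut hρ : quarticField ρ →+* quarticField ρ) o - o ∈
        w.asIdeal) :
    ∃ (α β : cubicField ρ) (_ : GenAt hρ v α β), 2 * α + thetaS hρ * β = 0 ∧
      v.valuation (cubicField ρ) (normForm (thetaS hρ) (thetaP hρ) (α, β)) = exp (-1 : ℤ) := by
  set D₀ := normForm (thetaS hρ) (thetaP hρ) (-thetaS hρ / 2, 1)
  have hS : ∀ β : cubicField ρ, 2 * (β * (-thetaS hρ / 2)) + thetaS hρ * β = 0 := fun β => by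
    field_simp; ring
  have hP : ∀ β : cubicField ρ,
      normForm (thetaS hρ) (thetaP hρ) (β * (-thetaS hρ / 2), β) = β ^ 2 * D₀ := fun β => by
    simp only [D₀, normForm]; ring
  have hD₀ : D₀ ≠ 0 := fun h => by simpa using congrArg Prod.snd (theta_aniso hρ _ h)
  obtain ⟨π, hπ⟩ := exists_integer_uniformizer v
  have hπ0 : (π : cubicField ρ) ≠ 0 := fun h =>
    exp_ne_zero (a := (-1 : ℤ)) (by rw [← hπ, h, map_zero])
  have hv0 : v.valuation (cubicField ρ) D₀ ≠ 0 := (Valuation.ne_zero_iff _).mpr hD₀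
  set k := -log (v.valuation (cubicField ρ) D₀)
  have hk : v.valuation (cubicField ρ) D₀ = exp (-k) := by rw [neg_neg, exp_log hv0]
  obtain ⟨m, hm⟩ : ∃ m : ℤ, k = 2 * m ∨ k = 2 * m + 1 := ⟨k / 2, by omega⟩
  have hval : v.valuation (cubicField ρ) (((π : cubicField ρ) ^ (-m)) ^ 2 * D₀) =
      exp (-(k - 2 * m)) := by
    rw [map_mul, map_pow, map_zpow₀, hπ, hk, ← exp_zsmul, ← exp_nsmul, ← exp_add]
    congr 1
    simp only [smul_eq_mul, nsmul_eq_mul, Nat.cast_ofNat]
    ring
  set β := (π : cubicField ρ) ^ (-m)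
  have hle : v.valuation (cubicField ρ) (β ^ 2 * D₀) ≤ 1 := by
    rw [hval, ← exp_zero, exp_le_exp]; omega
  have hG : GenAt hρ v (β * (-thetaS hρ / 2)) β :=
    ⟨zpow_ne_zero _ hπ0, by rw [hS, map_zero, map_zero]; exact zero_le,
      by rw [hP, torus_valued_cmp]; exact hle⟩
  rcases hm with hm | hm
  swap
  · refine ⟨_, β, hG, hS β, ?_⟩
    rw [hP, hval, hm]
    simp
  exfalso
  set g := genElt hρ (β * (-thetaS hρ / 2)) β
  have hgle := hG.valuation_genElt_le hw
  have hsq : g ^ 2 = -inclM ρ (β ^ 2 * D₀) := by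
    rw [genElt_sq, hS, hP, map_zero, zero_mul, zero_sub]
  have hconj : quartAut hρ g = -g := by
    rw [show quartAut hρ g = inclM ρ (2 * (β * (-thetaS hρ / 2)) + thetaS hρ * β) - g
      from quartAut_gen hρ _ _, hS, map_zero, zero_sub]
  have hg1 : w.valuation (quarticField ρ) g = 1 := by
    have : w.valuation (quarticField ρ) (g ^ 2) = 1 := by
      rw [hsq, Valuation.map_neg, valuation_inclM_eq_one_iff hw, hval, hm]
      simp
    rw [map_pow] at this
    exact (pow_eq_one_iff_of_nonneg zero_le two_ne_zero).mp this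
  obtain ⟨o, ho⟩ := exists_integer_near w
    (c := cmp w g) ((torus_valued_cmp w g).trans_le hgle) one_ne_zero
  rw [← map_sub, torus_valued_cmp] at ho
  have ho' : w.valuation (quarticField ρ) (quartAut hρ o + g) < 1 := by
    rw [show quartAut hρ o + g = quartAut hρ ((o : quarticField ρ) - g) by
      rw [map_sub, hconj, sub_neg_eq_add], valuation_quartAut, hσw]
    exact ho
  have ht : w.valuation (quarticField ρ) (quartAut hρ o - (o : quarticField ρ)) < 1 := by
    rw [← quartAut_coe_int hρ o, ← map_sub]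
    exact (HeightOneSpectrum.valuation_lt_one_iff_mem (K := quarticField ρ) w _).mpr (htriv o)
  have : w.valuation (quarticField ρ) ((2 : quarticField ρ) * g) < 1 := by
    rw [show (2 : quarticField ρ) * g = (quartAut hρ o + g) - (quartAut hρ o - o) -
      ((o : quarticField ρ) - g) by ring]
    exact (Valuation.map_sub _ _ _).trans_lt
      (max_lt ((Valuation.map_sub _ _ _).trans_lt (max_lt ho' ht)) ho)
  rw [map_mul, hg1, mul_one, ← map_ofNat (inclM ρ), valuation_inclM_lt_one_iff hw] at this
  exact this.ne (valuation_two h3)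

variable {G : GenAt hρ v α β} (hS : 2 * α + thetaS hρ * β = 0)
  (hP : v.valuation (cubicField ρ) (normForm (thetaS hρ) (thetaP hρ) (α, β)) = exp (-1 : ℤ))
  (h3 : (3 : 𝓞 (cubicField ρ)) ∈ v.asIdeal)

include hS hP

omit X in
theorem GenAt.valuation_genElt_lt {w : FinPlace (quarticField ρ)}
    (hw : comapPlace (inclM ρ) w = v) : w.valuation (quarticField ρ) (genElt hρ α β) < 1 := by
  refine (pow_lt_one_iff (n := 2) two_ne_zero).mp ?_
  rw [← map_pow, genElt_sq, hS, map_zero, zero_mul, zero_sub, Valuation.map_neg,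
    valuation_inclM_lt_one_iff hw, hP, ← exp_zero, exp_lt_exp]
  norm_num

include G h3

/-- Tame: the value at a unit pair is that of its first coordinate. -/
theorem GenAt.genPsi_tame
    {c : v.adicCompletion (cubicField ρ) × v.adicCompletion (cubicField ρ)}
    (hc : G.form.UnitPt c) :
    genPsi v α β X c = genEta v X c.1 ∧ c.1 ≠ 0 ∧ G.form.ord c.1 = 0 := by
  have hq : G.form.q = 3 := qThree hρ h3
  obtain ⟨h1, h2⟩ := LocalBase.mem_box.mp hc.1
  have hs : G.form.s = 0 := show cmp v (2 * α + thetaS hρ * β) = 0 by rw [hS, map_zero]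
  have hp : G.form.ord G.form.p = 1 := by
    show placeOrd v _ = 1
    rw [placeOrd, show Valued.v G.form.p = exp (-1 : ℤ) from (torus_valued_cmp v _).trans hP,
      log_exp, neg_neg]
  have hne : G.form.res c.1 ≠ 0 := by
    have := LocalBase.res_unit hq hc.2.2 hc.2.1
    rw [G.form.res_n_tame hq hs hp hc.1] at this
    exact fun h => this (by simp [normR, h])
  obtain ⟨h0, ho⟩ := (LocalBase.res_ne_zero_iff hq h1).mp hne
  refine ⟨?_, h0, ho⟩
  rw [← genPsi_scalar (α := α) (β := β)]
  refine G.genPsi_congr X hc (unitPt_scalar G h0 ho) fun w hw => ?_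
  rw [show c - (c.1, 0) = (0, c.2) by simp [Prod.ext_iff]]
  obtain ⟨e, he, hval⟩ := exists_pow_valuation (inclM ρ) w
  simp only [aboveElt, map_zero, zero_add]
  rw [placeVal_mul, placeVal_finIncl, placeVal_finExtend he hval, hw, placeVal, toPlace_single_same]
  exact mul_lt_one_of_nonneg_of_lt_one_right (pow_le_one₀ zero_le (mem_placeBall_zero.mp h2))
    zero_le (GenAt.valuation_genElt_lt hS hP hw)

omit hS hP in
/-- Tame: the scalar part at units is the sign of the residue. -/
theorem GenAt.genEta_tame {A : ValuationSubring Qbar} (hA : A.LiesOverPrime 3)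
    {w : FinPlace (quarticField ρ)} (hwA : intIdeal (quarticField ρ) A = w.asIdeal)
    (hw : comapPlace (inclM ρ) w = v)
    (huniq : ∀ w', comapPlace (inclM ρ) w' = v → w' = w)
    (htriv : ∀ o : 𝓞 (quarticField ρ),
      RingOfIntegers.mapRingHom (quartAut hρ : quarticField ρ →+* quarticField ρ) o - o ∈
        w.asIdeal)
    {a : v.adicCompletion (cubicField ρ)} (ha : a ≠ 0) (hao : G.form.ord a = 0) :
    genEta v X a = sgnThree (G.form.res a) := by
  have hq : G.form.q = 3 := qThree hρ h3
  have h1 : genEta v X 1 = 1 := by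
    rw [show (1 : v.adicCompletion (cubicField ρ)) = G.form.n (1, 0) by simp [LocalForm.n]]
    exact G.eta_norm X LocalForm.UnitPt.n_one.2.1
  have hneg0 : (-1 : v.adicCompletion (cubicField ρ)) ≠ 0 := neg_ne_zero.mpr one_ne_zero
  have hnego : G.form.ord (-1 : v.adicCompletion (cubicField ρ)) = 0 :=
    show placeOrd v _ = 0 by rw [placeOrd, Valuation.map_neg, map_one, log_one, neg_zero]
  have h2w : w.valuation (quarticField ρ) 2 = 1 := by
    rw [← map_ofNat (inclM ρ), valuation_inclM_eq_one_iff hw]; exact valuation_two h3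
  have hres : ∀ o : 𝓞 (quarticField ρ), ∃ n : ℤ,
      w.valuation (quarticField ρ) ((o : quarticField ρ) - n) < 1 := fun o => by
    obtain ⟨x, hx⟩ := exists_inclM_of_fixed hρ
      (x := ((o : quarticField ρ) + quartAut hρ o) / 2) (by
        rw [map_div₀, map_add, quartAut_quartAut, map_ofNat, add_comm])
    have hxv : v.valuation (cubicField ρ) x ≤ 1 := by
      rw [← valuation_inclM_le_one_iff hw, hx, map_div₀, h2w, div_one, ← quartAut_coe_int hρ o,
        ← map_add]
      exact w.valuation_le_one _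
    obtain ⟨n, hn⟩ := exists_int_sub_lt hρ h3 hxv
    refine ⟨n, ?_⟩
    rw [show (o : quarticField ρ) - n = ((o : quarticField ρ) - quartAut hρ o) / 2 +
      inclM ρ (x - n) by rw [map_sub, hx, map_intCast]; field_simp; ring]
    refine (Valuation.map_add _ _ _).trans_lt (max_lt ?_ ((valuation_inclM_lt_one_iff hw _).mpr hn))
    rw [map_div₀, h2w, div_one, Valuation.map_sub_swap, ← quartAut_coe_int hρ o, ← map_sub]
    exact (HeightOneSpectrum.valuation_lt_one_iff_mem (K := quarticField ρ) w _).mpr (htriv o)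
  have hm1 : genEta v X (-1) = -1 := by
    obtain ⟨u, hu1, hu2, hu⟩ := exists_unit_neg_one X hA hwA
    have hall := mem_integralAdele_of_units hu1 hu2
    obtain ⟨o, ho⟩ := exists_integer_sub_lt w (mem_integralAdele_iff.mpr fun w' => (hall w').le)
    obtain ⟨n, hn⟩ := hres o
    have hun : placeVal w ((u : FinAdele (quarticField ρ)) - n) < 1 := by
      rw [← sub_add_sub_cancel _ (finIncl (quarticField ρ) (o : quarticField ρ))]
      refine (placeVal_add_le w _ _).trans_lt (max_lt ho ?_)
      rwa [← map_intCast (finIncl (quarticField ρ)), ← map_sub, placeVal_finIncl]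
    rcases exists_sign ((comapPlace_three hw).mpr h3) hu2 hun with h | h
    · exfalso
      have h1u : X.ξ u = 1 := X.unit_trivial u hall fun w' _ => by
        by_cases e : w' = w
        · exact e ▸ h
        · rw [placeVal, map_sub, hu1 w' e, map_one, sub_self, map_zero]; exact zero_lt_one
      rw [h1u] at hu
      have h' := congrArg Units.val hu
      norm_num at h'
    rw [← genPsi_scalar (α := α) (β := β),
      G.genPsi_eq_xi X (unitPt_scalar G hneg0 hnego) hall fun w' _ => ?_, hu, Units.val_neg,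
      Units.val_one]
    rw [placeVal, map_sub]
    by_cases e : comapPlace (inclM ρ) w' = v
    · obtain rfl := huniq w' e
      rw [toPlace_aboveAdele _ e, show ((-1 : v.adicCompletion (cubicField ρ)), (0 : _)) =
        (cmp v (-1), cmp v 0) by simp, toPlace_aboveElt_cmp _ _ e]
      simp only [map_neg, map_one, map_zero, zero_mul, add_zero]
      rw [Valuation.map_sub_swap, sub_neg_eq_add, ← map_one (toPlace w'), ← map_add]
      exact h
    · rw [toPlace_aboveAdele_out _ e, hu1 w' (fun e' => e (e' ▸ hw)), sub_self, map_zero]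
      exact zero_lt_one
  have h := LocalBase.res_unit hq hao ha
  rcases (show G.form.res a = 1 ∨ G.form.res a = 2 by
    generalize G.form.res a = r at h ⊢
    revert r; decide) with e | e
  · rw [e, sgnThree_one, G.genEta_res X hq ha hao one_ne_zero G.form.ord_one
      (by rw [e, LocalBase.res_one hq]), h1]
  · rw [e, G.genEta_res X hq ha hao hneg0 hnego (by
      rw [e, LocalBase.res_neg hq G.form.one_mem_ball, LocalBase.res_one hq]; decide), hm1]
    simp +decide [sgnThree]

end tame

/-- **The local datum over three**, a residue model of the type with twist `ε`. -/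
theorem exists_datum_three (h3 : (3 : 𝓞 (cubicField ρ)) ∈ v.asIdeal) (ε : Fin 2) :
    ∃ P : PlaceDatum (thetaS hρ) (thetaP hρ) v,
      P.psi = genPsi v P.α P.β X ∧
      ∃ (η : v.adicCompletion (cubicField ρ) → ℂ) (M : ResModel P.form η),
        P.vec = M.localVec ε ∧ (∀ r, M.f r ≠ 0 → M.N r ≠ 0) ∧ M.f (1, 0) ≠ 0 ∧
          M.f (0, 0) = 0 := by
  have hq : (placeBase v).q = 3 := qThree hρ h3
  by_cases hno : NoInertia v
  · obtain ⟨α, β, G, hD, hS, hP⟩ := exists_gen_zero hρ h3 hno
    have hp := hD.res_p_three X hS h3 hno hP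
    have hq' : G.form.q = 3 := hq
    have hs := GenAt.res_s_zero (G := G) hS h3
    have hη : ∀ a, a ≠ 0 → genEta v X a = (-1 : ℂ) ^ G.form.ord a :=
      G.genEta_eq X (by norm_num) (fun a ha => GenAt.genEta_unit_three X hS h3 hp ha)
        (hD.genEta_unif (GenAt.not_hasRoot_three hS h3 hp) X)
    have hψ := G.isQuadChar (X := X)
    have h1 : ((1 : v.adicCompletion (cubicField ρ)), (1 : v.adicCompletion (cubicField ρ))) ∈
        G.form.box 0 0 := LocalBase.mem_box.mpr ⟨G.form.one_mem_ball, G.form.one_mem_ball⟩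
    have hc₀ : G.form.UnitPt (1, 1) := G.unitPt_of_res hq hs hp h1 (by
      simp only [LocalBase.res_one hq']; decide)
    set M := ResModel.unram hq hs hp hη 1 ((genPsi v α β X (1, 1))⁻¹ * (-1) ^ (ε : ℕ))
    have heq : IsEquivariant (M.localVec ε) (genPsi v α β X) :=
      equivariant_unram hq hs hp hη ε hψ hc₀ (by simp [LocalBase.res_one hq'])
        (hD.genPsi_sq_three X hS h3 hno hp)
    refine ⟨⟨α, β, G.beta_ne, G.trace_le, G.norm_le, M.localVec ε, genPsi v α β X,
      M.isGoodVec_localVec ε hψ (norm_placeChar v), fun z hz => G.eta_norm X hz,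
      fun k hk c hc h0 ho => heq k hk c ⟨hc, h0, ho⟩⟩, rfl, _, M, rfl,
      fun r (hr : tableU 1 ((genPsi v α β X (1, 1))⁻¹ * (-1) ^ (ε : ℕ)) r ≠ 0) =>
        tableU_norm_ne 1 ((genPsi v α β X (1, 1))⁻¹ * (-1) ^ (ε : ℕ)) hr, ?_, ?_⟩
    · show tableU 1 ((genPsi v α β X (1, 1))⁻¹ * (-1) ^ (ε : ℕ)) (1, 0) ≠ 0
      simp +decide [tableU]
    · show tableU 1 ((genPsi v α β X (1, 1))⁻¹ * (-1) ^ (ε : ℕ)) (0, 0) = 0
      simp [tableU]
  · simp only [NoInertia, not_forall] at hno
    obtain ⟨p, A, hp, hA, hvA, h, hI, hL, hM⟩ := hno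
    obtain rfl := eq_three hp hA hvA h3
    set w := GlobalUnits.placeBelow (quarticField ρ) hA hp
    have hwA : intIdeal (quarticField ρ) A = w.asIdeal := rfl
    have hw : comapPlace (inclM ρ) w = v :=
      HeightOneSpectrum.ext ((comapPlace_eq_of_intIdeal hwA).trans hvA)
    have htriv := quartAut_sub_mem hρ hwA hI hL hM
    have hσw : comapPlace (quartAut hρ : quarticField ρ →+* quarticField ρ) w = w := by
      refine HeightOneSpectrum.ext (Ideal.ext fun o => ?_)
      rw [mem_comapPlace]
      exact ⟨fun h' => by simpa using sub_mem h' (htriv o),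
        fun h' => by simpa using add_mem (htriv o) h'⟩
    have huniq : ∀ w', comapPlace (inclM ρ) w' = v → w' = w := fun w' hw' =>
      (above_cases hρ (hw'.trans hw.symm)).elim id fun e => e.trans hσw
    obtain ⟨α, β, G, hS, hP⟩ := exists_gen_tame hρ h3 hw hσw htriv
    have hs : G.form.s = 0 := show cmp v (2 * α + thetaS hρ * β) = 0 by rw [hS, map_zero]
    have hp0 : G.form.p ≠ 0 := by
      intro h0
      have h1 : Valued.v G.form.p = exp (-1 : ℤ) := (torus_valued_cmp v _).trans hP
      exact exp_ne_zero (a := (-1 : ℤ)) (by rw [← h1, h0, map_zero])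
    have hp1 : G.form.ord G.form.p = 1 := by
      show placeOrd v _ = 1
      rw [placeOrd, show Valued.v G.form.p = exp (-1 : ℤ) from (torus_valued_cmp v _).trans hP,
      log_exp, neg_neg]
    have hηp : genEta v X G.form.p = 1 := by
      have e : G.form.n (0, 1) = G.form.p := by simp [LocalForm.n]
      rw [← e]
      exact G.eta_norm X (by rwa [e])
    have hη : ∀ a, a ≠ 0 → G.form.ord a = 0 → genEta v X a = sgnThree (G.form.res a) :=
      fun a ha hao => GenAt.genEta_tame X h3 hA hwA hw huniq htriv ha hao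
    have hψu : ∀ c, G.form.UnitPt c → genPsi v α β X c = sgnThree (G.form.res c.1) :=
      fun c hc => by
        obtain ⟨e, h0, ho⟩ := GenAt.genPsi_tame X hS hP h3 hc
        rw [e, hη _ h0 ho]
    set M := ResModel.tame hq hs hp0 hp1 (G.genEta_mul X) (G.genEta_sq X) hηp hη 1
    have heq : IsEquivariant (M.localVec ε) (genPsi v α β X) :=
      equivariant_tame hq hs hp0 hp1 (G.genEta_mul X) (G.genEta_sq X) hηp hη ε hψu
    refine ⟨⟨α, β, G.beta_ne, G.trace_le, G.norm_le, M.localVec ε, genPsi v α β X,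
      M.isGoodVec_localVec ε (G.isQuadChar (X := X)) (norm_placeChar v),
      fun z hz => G.eta_norm X hz, fun k hk c hc h0 ho => heq k hk c ⟨hc, h0, ho⟩⟩, rfl, _, M, rfl,
      fun r hr => tableR_norm_ne _ hr, ?_, ?_⟩
    · show tableR _ (1, 0) ≠ 0
      simp [tableR, sgnThree_one]
    · show tableR _ (0, 0) = 0
      simp +decide [tableR, sgnThree]

end Fermat.Agent.LT.DihedralTheta

end
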