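import Fermat.Agent.LT.DihedralTheta.Instance.Setup
import Fermat.Agent.LT.DihedralTheta.Data

/-!
# The arithmetic of `M / L` at one place

Coordinates `1, θ`, the places of `M` above a place of `L`, and, where the inertia of `L` fixes
`M`, a generator with integral trace and norm and unit discriminant.
-/

set_option autoImplicit false

noncomputable section

open IsDedekindDomain NumberField
open Fermat.Agent.GaloisBasics
open Fermat.Agent.LT.Final (GF3)
open Fermat.Agent.LT.GaloisData
open Fermat.Agent.LT.Places
open scoped Pointwise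

namespace Fermat.Agent.LT.DihedralTheta

variable {ρ : GalQ →* GF3} (hρ : IsSupersingularRep ρ)

include hρ

/-- `L` is the fixed field of `quartAut`. -/
theorem exists_inclM_of_fixed {x : quarticField ρ} (hx : quartAut hρ x = x) :
    ∃ y, inclM ρ y = x := by
  have hx' : quartLift hρ (x : Qbar) = (x : Qbar) := congrArg Subtype.val hx
  refine ⟨⟨(x : Qbar), mem_fixH.mpr fun σ hσ => ?_⟩, Subtype.ext rfl⟩
  rcases quatGroup_cases hσ with h | ⟨h, -⟩
  · exact mem_fixH.mp x.2 σ h
  · have hm : σ * (quartLift hρ)⁻¹ ∈ (quarticField ρ).fixingSubgroup := by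
      rw [mem_fixingSubgroup_fixH hρ.continuous, map_mul, map_inv, rho_quartLift]
      exact h
    have := (IntermediateField.mem_fixingSubgroup_iff _ _).mp hm _ x.2
    rw [← hx', ← AlgEquiv.mul_apply (σ * (quartLift hρ)⁻¹), inv_mul_cancel_right] at this
    rw [this, hx']

theorem exists_quartAut_ne : ∃ x : quarticField ρ, quartAut hρ x ≠ x := by
  by_contra h
  push Not at h
  exact quartLift_notMem hρ ((IntermediateField.mem_fixingSubgroup_iff _ _).mpr fun x hx =>
    congrArg Subtype.val (h ⟨x, hx⟩))

/-- A generator of `M` over `L`. -/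
def theta : quarticField ρ := (exists_quartAut_ne hρ).choose

/-- The conjugation moves `θ`. -/
theorem quartAut_theta_ne : quartAut hρ (theta hρ) ≠ theta hρ :=
  (exists_quartAut_ne hρ).choose_spec

theorem exists_thetaS : ∃ y, inclM ρ y = theta hρ + quartAut hρ (theta hρ) :=
  exists_inclM_of_fixed hρ (by rw [map_add, quartAut_quartAut, add_comm])

theorem exists_thetaP : ∃ y, inclM ρ y = theta hρ * quartAut hρ (theta hρ) :=
  exists_inclM_of_fixed hρ (by rw [map_mul, quartAut_quartAut, mul_comm])

/-- The trace of the generator. -/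
def thetaS : cubicField ρ := (exists_thetaS hρ).choose

/-- The norm of the generator. -/
def thetaP : cubicField ρ := (exists_thetaP hρ).choose

/-- The trace of `θ` over the cubic field. -/
theorem inclM_thetaS : inclM ρ (thetaS hρ) = theta hρ + quartAut hρ (theta hρ) :=
  (exists_thetaS hρ).choose_spec

/-- The norm of `θ` over the cubic field. -/
theorem inclM_thetaP : inclM ρ (thetaP hρ) = theta hρ * quartAut hρ (theta hρ) :=
  (exists_thetaP hρ).choose_spec

theorem theta_sq :
    theta hρ ^ 2 = inclM ρ (thetaS hρ) * theta hρ - inclM ρ (thetaP hρ) := by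
  rw [inclM_thetaS, inclM_thetaP]; ring

theorem exists_coord (x : quarticField ρ) :
    ∃ a b, x = inclM ρ a + inclM ρ b * theta hρ := by
  have hne : theta hρ - quartAut hρ (theta hρ) ≠ 0 :=
    sub_ne_zero.mpr (quartAut_theta_ne hρ).symm
  have hne' : quartAut hρ (theta hρ) - theta hρ ≠ 0 := sub_ne_zero.mpr (quartAut_theta_ne hρ)
  obtain ⟨b, hb⟩ := exists_inclM_of_fixed hρ
    (x := (x - quartAut hρ x) / (theta hρ - quartAut hρ (theta hρ))) (by
      rw [map_div₀, map_sub, map_sub, quartAut_quartAut, quartAut_quartAut,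
        div_eq_div_iff hne' hne]
      ring)
  obtain ⟨a, ha⟩ := exists_inclM_of_fixed hρ (x := x - inclM ρ b * theta hρ) (by
    rw [map_sub, map_mul, quartAut_inclM, hb]
    field_simp
    ring)
  exact ⟨a, b, by rw [ha, sub_add_cancel]⟩

/-- The norm form in the basis `1, θ` is anisotropic over `L`. -/
theorem theta_aniso (z : cubicField ρ × cubicField ρ)
    (h : normForm (thetaS hρ) (thetaP hρ) z = 0) : z = 0 := by
  have h1 : (inclM ρ z.1 + inclM ρ z.2 * theta hρ) *
      (inclM ρ z.1 + inclM ρ z.2 * quartAut hρ (theta hρ)) = 0 := by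
    rw [show (0 : quarticField ρ) = inclM ρ (normForm (thetaS hρ) (thetaP hρ) z) by
      rw [h, map_zero], normForm, map_add, map_add, map_mul, map_mul, map_mul, map_pow, map_pow,
      inclM_thetaS, inclM_thetaP]
    ring
  have h2 : inclM ρ z.1 + inclM ρ z.2 * theta hρ = 0 := by
    refine (mul_eq_zero.mp h1).elim id fun h2 => ?_
    simpa [quartAut_inclM, quartAut_quartAut] using congrArg (quartAut hρ) h2
  have h3 : z.2 = 0 := by
    by_contra hne
    have h4 : inclM ρ z.1 + inclM ρ z.2 * quartAut hρ (theta hρ) = 0 := by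
      simpa [quartAut_inclM] using congrArg (quartAut hρ) h2
    exact quartAut_theta_ne hρ (mul_left_cancel₀ ((map_ne_zero (inclM ρ)).mpr hne)
      (by linear_combination h4 - h2))
  refine Prod.ext ?_ h3
  simpa [h3] using h2

/-- The generator in the basis `1, α + β θ`. -/
theorem sq_gen (α β : cubicField ρ) :
    (inclM ρ α + inclM ρ β * theta hρ) ^ 2 =
      inclM ρ (2 * α + thetaS hρ * β) * (inclM ρ α + inclM ρ β * theta hρ) -
        inclM ρ (normForm (thetaS hρ) (thetaP hρ) (α, β)) := by
  simp only [normForm, map_add, map_mul, map_pow, map_ofNat]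
  linear_combination (inclM ρ β) ^ 2 * theta_sq hρ

/-- The conjugate of a general element in terms of trace and element. -/
theorem quartAut_gen (α β : cubicField ρ) :
    quartAut hρ (inclM ρ α + inclM ρ β * theta hρ) =
      inclM ρ (2 * α + thetaS hρ * β) - (inclM ρ α + inclM ρ β * theta hρ) := by
  rw [map_add, map_mul, quartAut_inclM, quartAut_inclM, map_add, map_mul, map_mul, map_ofNat,
    inclM_thetaS]
  ring

variable [NumberField (cubicField ρ)] [NumberField (quarticField ρ)]

omit hρ

section valuation

variable {w : FinPlace (quarticField ρ)} {v : FinPlace (cubicField ρ)}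
  (h : comapPlace (inclM ρ) w = v) (x : cubicField ρ)

include h

/-- Integrality of a cubic element is detected upstairs. -/
theorem valuation_inclM_le_one_iff :
    w.valuation (quarticField ρ) (inclM ρ x) ≤ 1 ↔ v.valuation (cubicField ρ) x ≤ 1 := by
  obtain ⟨e, he, hval⟩ := exists_pow_valuation (inclM ρ) w
  rw [hval, h, pow_le_one_iff he]

/-- Divisibility of a cubic element by the prime is detected upstairs. -/
theorem valuation_inclM_lt_one_iff :
    w.valuation (quarticField ρ) (inclM ρ x) < 1 ↔ v.valuation (cubicField ρ) x < 1 := by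
  obtain ⟨e, he, hval⟩ := exists_pow_valuation (inclM ρ) w
  rw [hval, h, pow_lt_one_iff he]

/-- Being a unit at the prime is detected upstairs. -/
theorem valuation_inclM_eq_one_iff :
    w.valuation (quarticField ρ) (inclM ρ x) = 1 ↔ v.valuation (cubicField ρ) x = 1 := by
  rw [le_antisymm_iff, le_antisymm_iff, valuation_inclM_le_one_iff h, ← not_lt, ← not_lt,
    ← not_lt, valuation_inclM_lt_one_iff h]

end valuation

omit [NumberField ↥(quarticField ρ)] in
/-- The place below the place of a valuation ring of `Qbar` is the one cut out by it on the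
cubic field. -/
theorem comapPlace_eq_of_intIdeal {A : ValuationSubring Qbar} {w : FinPlace (quarticField ρ)}
    (hw : intIdeal (quarticField ρ) A = w.asIdeal) :
    (comapPlace (inclM ρ) w).asIdeal = intIdeal (cubicField ρ) A := by
  ext a
  rw [mem_comapPlace, ← hw, mem_intIdeal, mem_intIdeal]
  rfl

include hρ

omit hρ [NumberField ↥(quarticField ρ)] in
/-- A place of `M` above a place of `L`, with a valuation subring of `ℚ̄`. -/
theorem exists_above (v : FinPlace (cubicField ρ)) :
    ∃ (p : ℕ) (A : ValuationSubring Qbar) (w : FinPlace (quarticField ρ)), p.Prime ∧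
      A.LiesOverPrime p ∧ intIdeal (cubicField ρ) A = v.asIdeal ∧
      intIdeal (quarticField ρ) A = w.asIdeal ∧ comapPlace (inclM ρ) w = v := by
  obtain ⟨q, A, hA, hv⟩ := GlobalUnits.exists_placeBelow_eq (cubicField ρ) v
  have hvA : intIdeal (cubicField ρ) A = v.asIdeal :=
    congrArg HeightOneSpectrum.asIdeal hv
  refine ⟨q, A, GlobalUnits.placeBelow (quarticField ρ) hA q.2, q.2, hA, hvA, rfl,
    HeightOneSpectrum.ext ?_⟩
  rw [comapPlace_eq_of_intIdeal (A := A) rfl, hvA]

omit [NumberField ↥(cubicField ρ)] [NumberField ↥(quarticField ρ)] in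
/-- The conjugation on integers agrees with the one on the field. -/
theorem quartAut_coe_int (a : 𝓞 (quarticField ρ)) :
    ((RingOfIntegers.mapRingHom (quartAut hρ : quarticField ρ →+* quarticField ρ) a :
      𝓞 (quarticField ρ)) : quarticField ρ) = quartAut hρ a := rfl

/-- Conjugate places lie over the same cubic place. -/
theorem comapPlace_quartAut (w : FinPlace (quarticField ρ)) :
    comapPlace (inclM ρ) (comapPlace (quartAut hρ : quarticField ρ →+* quarticField ρ) w) =
      comapPlace (inclM ρ) w := by
  refine HeightOneSpectrum.ext (Ideal.ext fun a => ?_)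
  rw [mem_comapPlace, mem_comapPlace, mem_comapPlace]
  refine iff_of_eq (congrArg (· ∈ w.asIdeal) (RingOfIntegers.ext ?_))
  exact quartAut_inclM hρ a

/-- The places above one place are conjugate. -/
theorem above_cases {w w' : FinPlace (quarticField ρ)}
    (h : comapPlace (inclM ρ) w' = comapPlace (inclM ρ) w) :
    w' = w ∨ w' = comapPlace (quartAut hρ : quarticField ρ →+* quarticField ρ) w := by
  set u := comapPlace (quartAut hρ : quarticField ρ →+* quarticField ρ) w
  have hsub : (w'.asIdeal : Set (𝓞 (quarticField ρ))) ⊆ w.asIdeal ∪ u.asIdeal := by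
    intro b hb
    obtain ⟨n, hn⟩ := exists_inclM_of_fixed hρ (x := (b : quarticField ρ) * quartAut hρ b)
      (by rw [map_mul, quartAut_quartAut, mul_comm])
    have hint : IsIntegral ℤ n := by
      refine (isIntegral_algHom_iff ((inclM ρ).toIntAlgHom) (inclM ρ).injective).mp ?_
      show IsIntegral ℤ (inclM ρ n)
      rw [hn, ← quartAut_coe_int hρ b, ← map_mul]
      exact RingOfIntegers.isIntegral_coe _
    set n' : 𝓞 (cubicField ρ) := ⟨n, hint⟩
    have he : RingOfIntegers.mapRingHom (inclM ρ) n' =
        b * RingOfIntegers.mapRingHom (quartAut hρ : quarticField ρ →+* quarticField ρ) b :=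
      RingOfIntegers.ext hn
    have hn' : n' ∈ (comapPlace (inclM ρ) w').asIdeal := by
      rw [mem_comapPlace, he]
      exact w'.asIdeal.mul_mem_right _ hb
    rw [h, mem_comapPlace, he] at hn'
    exact w.isPrime.mem_or_mem hn'
  rcases Ideal.subset_union.mp hsub with hle | hle
  · exact Or.inl (HeightOneSpectrum.ext (w'.isMaximal.eq_of_le w.isPrime.ne_top hle))
  · exact Or.inr (HeightOneSpectrum.ext (w'.isMaximal.eq_of_le u.isPrime.ne_top hle))

omit hρ in
/-- The inertia groups over `v` in the Galois group of `L` fix `M`. -/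
def NoInertia (v : FinPlace (cubicField ρ)) : Prop :=
  ∀ (p : ℕ) (A : ValuationSubring Qbar), p.Prime → A.LiesOverPrime p →
    intIdeal (cubicField ρ) A = v.asIdeal → ∀ τ ∈ A.inertiaSubgroupIn ℚ,
      τ ∈ (cubicField ρ).fixingSubgroup → τ ∈ (quarticField ρ).fixingSubgroup

omit [NumberField ↥(cubicField ρ)] [NumberField ↥(quarticField ρ)] in
/-- Off three the inertia of `L` fixes `M`. -/
theorem noInertia_of_notMem {v : FinPlace (cubicField ρ)}
    (h3 : (3 : 𝓞 (cubicField ρ)) ∉ v.asIdeal) : NoInertia v := by
  intro p A hp hA hv τ hτ hL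
  have hp3 : p ≠ 3 := fun h => h3 (by
    subst h
    have := natCast_mem_intIdeal (cubicField ρ) hA
    rw [hv] at this
    exact_mod_cast this)
  rw [mem_fixingSubgroup_fixH hρ.continuous, rho_inertia_eq_one hρ hp hp3 hA hτ hL]
  exact one_mem _

omit [NumberField ↥(quarticField ρ)] in
/-- Without inertia the automorphism moves residues. -/
theorem exists_sub_notMem {v : FinPlace (cubicField ρ)} (hv : NoInertia v)
    {w : FinPlace (quarticField ρ)} (hw : comapPlace (inclM ρ) w = v) :
    ∃ a : 𝓞 (quarticField ρ),
      RingOfIntegers.mapRingHom (quartAut hρ : quarticField ρ →+* quarticField ρ) a - a ∉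
        w.asIdeal := by
  obtain ⟨q, A, hA, hwA⟩ := GlobalUnits.exists_placeBelow_eq (quarticField ρ) w
  have hwI : intIdeal (quarticField ρ) A = w.asIdeal := congrArg HeightOneSpectrum.asIdeal hwA
  by_contra hall
  push Not at hall
  obtain ⟨τ, hτ, hI⟩ := exists_mem_inertia_lift hA q.2 (quarticField ρ).fixingSubgroup
    (InfiniteGalois.fixingSubgroup_isClosed _) (quartLift hρ) fun b hb => by
      obtain ⟨a, rfl⟩ := (fixed_iff_mem_range_intIncl (quarticField ρ) b).mp hb
      have := hall a
      rw [← hwI, intIdeal, Ideal.mem_comap, map_sub] at this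
      convert this using 2
      exact Subtype.ext rfl
  have hvA : intIdeal (cubicField ρ) A = v.asIdeal := by
    rw [← comapPlace_eq_of_intIdeal hwI, hw]
  have h := hv q A q.2 hA hvA _ hI
    (mul_mem (quartLift_mem hρ) (IntermediateField.fixingSubgroup_le cubicField_le_quarticField hτ))
  exact quartLift_notMem hρ ((Subgroup.mul_mem_cancel_right _ hτ).mp h)

omit [NumberField ↥(cubicField ρ)] in
/-- The valuation of a conjugate is the valuation at the conjugate place. -/
theorem valuation_quartAut (w : FinPlace (quarticField ρ)) (x : quarticField ρ) :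
    w.valuation (quarticField ρ) (quartAut hρ x) =
      (comapPlace (quartAut hρ : quarticField ρ →+* quarticField ρ) w).valuation
        (quarticField ρ) x := by
  rw [← placeVal_finIncl, ← placeVal_finIncl, ← placeVal_finMap (quartAut hρ) w, finMap_finIncl]
  rfl

/-- An element whose difference with its conjugate is a unit above `v`. -/
theorem exists_unit_sub {v : FinPlace (cubicField ρ)} (hv : NoInertia v) :
    ∃ a : 𝓞 (quarticField ρ), ∀ w : FinPlace (quarticField ρ), comapPlace (inclM ρ) w = v →
      w.valuation (quarticField ρ) ((a : quarticField ρ) - quartAut hρ a) = 1 := by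
  obtain ⟨-, -, w₀, -, -, -, -, hw₀⟩ := exists_above v
  obtain ⟨a, ha⟩ := exists_sub_notMem hρ hv hw₀
  have h0 : w₀.valuation (quarticField ρ) ((a : quarticField ρ) - quartAut hρ a) = 1 := by
    rw [Valuation.map_sub_swap, ← quartAut_coe_int hρ a, ← map_sub]
    exact (HeightOneSpectrum.valuation_eq_one_iff_notMem (K := quarticField ρ) w₀).mpr ha
  refine ⟨a, fun w hw => ?_⟩
  rcases above_cases hρ (hw.trans hw₀.symm) with rfl | rfl
  · exact h0
  · rw [← valuation_quartAut, map_sub, quartAut_quartAut, Valuation.map_sub_swap, h0]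

/-- Coordinates of a generator with integral trace and norm and unit discriminant. -/
theorem exists_gen {v : FinPlace (cubicField ρ)} (a : 𝓞 (quarticField ρ))
    (hne : ∀ w : FinPlace (quarticField ρ), comapPlace (inclM ρ) w = v →
      w.valuation (quarticField ρ) ((a : quarticField ρ) - quartAut hρ a) = 1) :
    ∃ α β : cubicField ρ, β ≠ 0 ∧ (a : quarticField ρ) = inclM ρ α + inclM ρ β * theta hρ ∧
      v.valuation (cubicField ρ) (2 * α + thetaS hρ * β) ≤ 1 ∧
      v.valuation (cubicField ρ) (normForm (thetaS hρ) (thetaP hρ) (α, β)) ≤ 1 ∧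
      v.valuation (cubicField ρ) ((2 * α + thetaS hρ * β) ^ 2 -
        4 * normForm (thetaS hρ) (thetaP hρ) (α, β)) = 1 := by
  obtain ⟨α, β, hab⟩ := exists_coord hρ (a : quarticField ρ)
  obtain ⟨-, -, w, -, -, -, -, hw⟩ := exists_above v
  have hdiff := hne w hw
  set g := inclM ρ α + inclM ρ β * theta hρ
  have htr : inclM ρ (2 * α + thetaS hρ * β) = g + quartAut hρ g := by
    rw [quartAut_gen]; ring
  have hnm : inclM ρ (normForm (thetaS hρ) (thetaP hρ) (α, β)) = g * quartAut hρ g := by
    rw [quartAut_gen]; linear_combination sq_gen hρ α β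
  have hle : ∀ b : 𝓞 (quarticField ρ), w.valuation (quarticField ρ) (b : quarticField ρ) ≤ 1 :=
    fun b => w.valuation_le_one b
  refine ⟨α, β, fun hβ => ?_, hab, ?_, ?_, ?_⟩
  · simp [hab, g, hβ, quartAut_inclM] at hdiff
  · rw [← valuation_inclM_le_one_iff hw, htr, ← hab, ← quartAut_coe_int hρ a, ← map_add]
    exact hle _
  · rw [← valuation_inclM_le_one_iff hw, hnm, ← hab, ← quartAut_coe_int hρ a, ← map_mul]
    exact hle _
  · rw [← valuation_inclM_eq_one_iff hw, map_sub, map_mul, map_pow, map_ofNat, htr, hnm,
      show (g + quartAut hρ g) ^ 2 - 4 * (g * quartAut hρ g) = (g - quartAut hρ g) ^ 2 by ring,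
      ← hab, map_pow, hdiff, one_pow]

end Fermat.Agent.LT.DihedralTheta

end
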