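import Fermat.Agent.LT.DihedralTheta.Instance.Targets
import Fermat.Agent.LT.Descent.Step
import Fermat.Agent.LT.DihedralTheta.Instance.AtThree
import Fermat.Agent.LT.Reciprocity.PsiData

/-!
# The theta datum of the descent

`hasTarget`: the dihedral theta series of `ρ` gives an automorphic form on the cubic field with the
type, level and Hecke eigenvalues required for cubic descent.
-/

set_option autoImplicit false

noncomputable section

open NumberField
open Fermat.Agent.GaloisBasics
open Fermat.Agent.LT.Final (GF3)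
open Fermat.Agent.LT.GaloisData
open Fermat.Agent.LT.Places

namespace Fermat.Agent.LT.DihedralTheta

variable {ρ : GalQ →* GF3}

/-- The embedding of `ℤ[√-2]` with `√-2 ↦ i √2`. -/
def sqrtNegTwoHom : ℤ√(-2) →+* ℂ :=
  Zsqrtd.lift ⟨Complex.I * (Real.sqrt 2 : ℂ), by
    rw [mul_mul_mul_comm, Complex.I_mul_I, ← Complex.ofReal_mul,
      Real.mul_self_sqrt (by norm_num)]
    push_cast
    ring⟩

/-- **The theta datum of the descent**, from the idele character and the data at three. -/
theorem hasTarget_of_three (hρ : IsSupersingularRep ρ) [NumberField (cubicField ρ)]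
    [NumberField (quarticField ρ)] (X : IdeleCharData hρ) (e : Fin 2)
    (hthree : ∀ v : FinPlace (cubicField ρ), (3 : 𝓞 (cubicField ρ)) ∈ v.asIdeal →
      ∃ P : PlaceDatum (thetaS hρ) (thetaP hρ) v, IsThreeDatum hρ X e P)
    {Ψ : GF3 →* GL (Fin 2) (ℤ√(-2))}
    (hΨ : ∀ g, Matrix.GeneralLinearGroup.map FLT.ExplicitLift.red (Ψ g) = g) :
    Descent.HasTarget hρ Ψ := by
  have := isTotallyComplex_cubicField hρ
  obtain ⟨D, hD⟩ := exists_isTargetData hρ X e hthree hΨ sqrtNegTwoHom
  exact ⟨sqrtNegTwoHom, e, D, hD⟩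

/-- **The theta datum of the descent.** -/
theorem hasTarget (hρ : IsSupersingularRep ρ) [NumberField (cubicField ρ)]
    {Ψ : GF3 →* GL (Fin 2) (ℤ√(-2))}
    (hΨ : ∀ g, Matrix.GeneralLinearGroup.map FLT.ExplicitLift.red (Ψ g) = g) :
    Descent.HasTarget hρ Ψ := by
  have := numberField_quarticField hρ
  obtain ⟨X⟩ := Reciprocity.nonempty_ideleCharData hρ
  refine hasTarget_of_three hρ X 0 (fun v h3 => ?_) hΨ
  obtain ⟨P, hpsi, hM⟩ := exists_datum_three X h3 0
  exact ⟨P, hpsi, hM⟩

end Fermat.Agent.LT.DihedralTheta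

end
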