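import Fermat.Agent.LT.DihedralTheta.Instance.Places
import Fermat.Agent.LT.DihedralTheta.IdelePsi

/-!
# The global conditions of the instance

The product formula of the local characters, and the finite set of places of `L` outside which the
coordinates `1, θ` have unit discriminant and the additive character is unramified.
-/

set_option autoImplicit false

noncomputable section

open IsDedekindDomain NumberField
open Fermat.Agent.LT.Final (GF3)
open Fermat.Agent.LT.GaloisData
open Fermat.Agent.GaloisBasics
open Fermat.Agent.LT.Places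

namespace Fermat.Agent.LT.DihedralTheta

variable {ρ : GalQ →* GF3} (hρ : IsSupersingularRep ρ)

include hρ

theorem inclM_add_mul_theta_ne_zero {x : cubicField ρ × cubicField ρ} (hx : x ≠ 0) :
    inclM ρ x.1 + inclM ρ x.2 * theta hρ ≠ 0 := by
  intro h
  have h' : inclM ρ x.1 + inclM ρ x.2 * quartAut hρ (theta hρ) = 0 := by
    simpa [quartAut_inclM] using congrArg (quartAut hρ) h
  refine hx (theta_aniso hρ x ((inclM ρ).injective ?_))
  rw [map_zero, normForm, map_add, map_add, map_mul, map_mul, map_mul, map_pow, map_pow,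
    inclM_thetaS, inclM_thetaP]
  linear_combination (inclM ρ x.1 + inclM ρ x.2 * quartAut hρ (theta hρ)) * h

theorem thetaDisc_ne_zero : thetaS hρ ^ 2 - 4 * thetaP hρ ≠ 0 := by
  intro h
  have h1 : (theta hρ - quartAut hρ (theta hρ)) ^ 2 = 0 := by
    rw [← map_zero (inclM ρ), ← h, map_sub, map_pow, map_mul, map_ofNat, inclM_thetaS,
      inclM_thetaP]
    ring
  exact quartAut_theta_ne hρ (sub_eq_zero.mp ((pow_eq_zero_iff two_ne_zero).mp h1)).symm

variable [NumberField (cubicField ρ)]

omit hρ in
/-- The places over a nonzero natural number are finite in number. -/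
theorem finite_natCast_mem (n : ℕ) (hn : 0 < n) :
    {v : FinPlace (cubicField ρ) | (n : 𝓞 (cubicField ρ)) ∈ v.asIdeal}.Finite :=
  (finite_natCast (F := cubicField ρ) n hn).subset fun v hv h1 => by
    have := (v.valuation_lt_one_iff_mem (K := cubicField ρ) (n : 𝓞 (cubicField ρ))).mpr hv
    refine (lt_irrefl (1 : WithZero (Multiplicative ℤ))) ?_
    calc (1 : WithZero (Multiplicative ℤ)) = v.valuation (cubicField ρ) (n : cubicField ρ) := h1.symm
      _ < 1 := by simpa using this

/-- The exceptional places. -/
def exceptional : Set (FinPlace (cubicField ρ)) :=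
  {v | (3 : 𝓞 (cubicField ρ)) ∈ v.asIdeal} ∪ {v | placeCond v ≠ 0} ∪
    {v | 1 < v.valuation (cubicField ρ) (thetaS hρ)} ∪
    {v | 1 < v.valuation (cubicField ρ) (thetaP hρ)} ∪
    {v | v.valuation (cubicField ρ) (thetaS hρ ^ 2 - 4 * thetaP hρ) ≠ 1}

/-- The exceptional places are finite in number. -/
theorem finite_exceptional : (exceptional hρ).Finite := by
  refine ((((?_ : Set.Finite _).union finite_placeCond).union
    (HeightOneSpectrum.Support.finite _ _)).union
    (HeightOneSpectrum.Support.finite _ _)).union ?_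
  · exact_mod_cast finite_natCast_mem (ρ := ρ) 3 (by norm_num)
  · refine ((HeightOneSpectrum.Support.finite (𝓞 (cubicField ρ))
      (thetaS hρ ^ 2 - 4 * thetaP hρ)).union (HeightOneSpectrum.Support.finite (𝓞 (cubicField ρ))
      (thetaS hρ ^ 2 - 4 * thetaP hρ)⁻¹)).subset fun v hv => ?_
    rcases lt_or_gt_of_ne hv with h | h
    · refine Or.inr ?_
      show 1 < v.valuation (cubicField ρ) (thetaS hρ ^ 2 - 4 * thetaP hρ)⁻¹
      rw [map_inv₀]
      exact (one_lt_inv₀ (zero_lt_iff.mpr ((Valuation.ne_zero_iff _).mpr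
        (thetaDisc_ne_zero hρ)))).mpr h
    · exact Or.inl h

variable [NumberField (quarticField ρ)] (X : IdeleCharData hρ)

/-- **The product formula of the local characters.** -/
theorem finprod_psi_eq_one (α β : FinPlace (cubicField ρ) → cubicField ρ) (hβ : ∀ v, β v ≠ 0)
    {x : cubicField ρ × cubicField ρ} (hx : x ≠ 0) :
    ∏ᶠ v, idelePsi (inclM ρ) (inclM ρ (α v) + inclM ρ (β v) * theta hρ) X.ξ v
      (cmp v (x.1 - α v * (x.2 / β v)), cmp v (x.2 / β v)) = 1 := by
  refine finprod_idelePsi (inclM ρ) (theta hρ) X.glob (N := 3) (by norm_num) (fun u h1 h2 => ?_)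
    α β hβ (inclM_add_mul_theta_ne_zero hρ hx)
  refine X.unit_trivial u h1 fun w hw => (h2 w).trans_lt ?_
  rw [← map_natCast (algebraMap (𝓞 (quarticField ρ)) (quarticField ρ))]
  exact (w.valuation_lt_one_iff_mem (K := quarticField ρ) _).mpr (by exact_mod_cast hw)

end Fermat.Agent.LT.DihedralTheta

end
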