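import Fermat.Agent.LT.DihedralTheta.Instance.Class
import Fermat.Agent.LT.DihedralTheta.Instance.Global
import Fermat.Agent.LT.DihedralTheta.Data

/-!
# The datum of the instance at a place of `L` off three

A generator with integral trace and norm and unit discriminant exists there, the spherical vector
goes with its character, and outside the exceptional places the generator is `θ` itself.
-/

set_option autoImplicit false

noncomputable section

open IsDedekindDomain NumberField
open Fermat.Agent.GaloisBasics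
open Fermat.Agent.LT.Final (GF3)
open Fermat.Agent.LT.GaloisData
open Fermat.Agent.LT.Places

namespace Fermat.Agent.LT.DihedralTheta

variable {ρ : GalQ →* GF3} [NumberField (cubicField ρ)] [NumberField (quarticField ρ)]
  (hρ : IsSupersingularRep ρ) (X : IdeleCharData hρ)

include hρ

/-- The coordinates of a generator: those of `θ` outside the exceptional places. -/
theorem exists_genAt_away {v : FinPlace (cubicField ρ)}
    (h3 : (3 : 𝓞 (cubicField ρ)) ∉ v.asIdeal) :
    ∃ (α β : cubicField ρ) (G : GenAt hρ v α β), G.HasUnitDisc ∧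
      (v ∉ exceptional hρ → α = 0 ∧ β = 1) := by
  by_cases hv : v ∈ exceptional hρ
  · obtain ⟨a, ha⟩ := exists_unit_sub hρ (noInertia_of_notMem hρ h3)
    obtain ⟨α, β, hβ, -, h1, h2, h3'⟩ := exists_gen hρ a ha
    exact ⟨α, β, ⟨hβ, (torus_valued_cmp v _).trans_le h1, (torus_valued_cmp v _).trans_le h2⟩,
      (torus_valued_cmp v _).trans h3', fun h => absurd hv h⟩
  · simp only [exceptional, Set.mem_union, Set.mem_ofPred_eq, not_or, not_not, not_lt] at hv
    obtain ⟨⟨⟨-, hs⟩, hp⟩, hd⟩ := hv
    refine ⟨0, 1, ⟨one_ne_zero, ?_, ?_⟩, ?_, fun _ => ⟨rfl, rfl⟩⟩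
    · rw [torus_valued_cmp]; simpa using hs
    · rw [torus_valued_cmp]; simpa [normForm] using hp
    · unfold GenAt.HasUnitDisc
      rw [torus_valued_cmp]
      simpa [normForm] using hd

/-- The datum at `v` has the spherical vector and an unramified character. -/
structure IsSphericalDatum {v : FinPlace (cubicField ρ)}
    (P : PlaceDatum (thetaS hρ) (thetaP hρ) v) : Prop where
  psi_eq : P.psi = genPsi v P.α P.β X
  spherical : ∃ (η : v.adicCompletion (cubicField ρ) → ℂ) (ε : ℂ)
    (h : (placeForm v _ _ P.trace_le P.norm_le).IsUnram η ε), P.vec = LocalVec.spherical _ h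
  psi_unram : (placeForm v _ _ P.trace_le P.norm_le).IsUnramChar P.psi
  disc_unit : Valued.v (cmp v ((2 * P.α + thetaS hρ * P.β) ^ 2 -
    4 * normForm (thetaS hρ) (thetaP hρ) (P.α, P.β))) = 1

/-- **The datum at a place off three.** -/
theorem exists_datum_away {v : FinPlace (cubicField ρ)}
    (h3 : (3 : 𝓞 (cubicField ρ)) ∉ v.asIdeal) :
    ∃ P : PlaceDatum (thetaS hρ) (thetaP hρ) v,
      IsSphericalDatum hρ X P ∧ (v ∉ exceptional hρ → P.IsStd) := by
  obtain ⟨α, β, G, hD, hstd⟩ := exists_genAt_away hρ h3
  obtain ⟨ε, h⟩ := hD.exists_isUnram X h3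
  have hunit : ∀ c, G.form.UnitPt c → genPsi v α β X c = 1 := fun c hc =>
    (G.isUnramChar X h3).unit c hc.1 hc.2.1 hc.2.2
  let P : PlaceDatum (thetaS hρ) (thetaP hρ) v :=
    { α := α
      β := β
      β_ne := G.beta_ne
      trace_le := G.trace_le
      norm_le := G.norm_le
      vec := LocalVec.spherical G.form h
      psi := genPsi v α β X
      good := isGoodVec_spherical h (G.isQuadChar X) (norm_placeChar v)
      eta_norm := fun z hz => G.eta_norm X hz
      equivariant := fun k hk c hc hn ho z u =>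
        isEquivariant_spherical h hunit k hk c ⟨hc, hn, ho⟩ z u }
  refine ⟨P, ⟨rfl, ⟨_, ε, h, rfl⟩, G.isUnramChar X h3, hD⟩, fun hv => ?_⟩
  refine ⟨(hstd hv).1, (hstd hv).2, ?_, ⟨_, ε, h, rfl⟩, G.isUnramChar X h3⟩
  simp only [exceptional, Set.mem_union, Set.mem_ofPred_eq, not_or, not_not] at hv
  exact hv.1.1.1.2

end Fermat.Agent.LT.DihedralTheta

end
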