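import Fermat.Agent.LT.DihedralTheta.Instance.Psi

/-!
# Split and inert places for a generator with unit discriminant

The form is inert when the polynomial of the generator has no root modulo `v`: then one uniformiser
of `v` is one above, the residue field above is larger, and the character is `-1` at the
uniformiser. With a root it is `1` there.
-/

set_option autoImplicit false

noncomputable section

open IsDedekindDomain NumberField WithZero
open Fermat.Agent.GaloisBasics
open Fermat.Agent.LT.Final (GF3)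
open Fermat.Agent.LT.GaloisData
open Fermat.Agent.LT.Places

namespace Fermat.Agent.LT.DihedralTheta

variable {ρ : GalQ →* GF3} [NumberField (cubicField ρ)] [NumberField (quarticField ρ)]
  {hρ : IsSupersingularRep ρ} {v : FinPlace (cubicField ρ)} {α β : cubicField ρ}
  (G : GenAt hρ v α β)

omit [NumberField ↥(quarticField ρ)] in
/-- An element integral at `v` lies in the unit ball of the completion. -/
theorem cmp_mem_placeBall {v : FinPlace (cubicField ρ)} {x : cubicField ρ}
    (h : v.valuation (cubicField ρ) x ≤ 1) : cmp v x ∈ (placeBase v).ball 0 :=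
  mem_placeBall_zero.mpr ((torus_valued_cmp v x).trans_le h)

omit [NumberField ↥(quarticField ρ)] in
theorem valuation_le_of_mem_ball_one {v : FinPlace (cubicField ρ)} {x : cubicField ρ}
    (h : cmp v x ∈ (placeBase v).ball 1) : v.valuation (cubicField ρ) x ≤ exp (-1 : ℤ) :=
  (torus_valued_cmp v x).symm.trans_le (mem_placeBall.mp h)

/-- The discriminant of the generator is a unit at `v`. -/
def GenAt.HasUnitDisc (_G : GenAt hρ v α β) : Prop :=
  Valued.v (cmp v ((2 * α + thetaS hρ * β) ^ 2 -
    4 * normForm (thetaS hρ) (thetaP hρ) (α, β))) = 1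

/-- The polynomial of the generator has a root modulo `v`. -/
def GenAt.HasRoot : Prop :=
  ∃ r ∈ G.form.ball 0, r ^ 2 + G.form.s * r + G.form.p ∈ G.form.ball 1

variable (hρ) in
omit [NumberField ↥(cubicField ρ)] [NumberField ↥(quarticField ρ)] in
/-- The norm in the basis of a generator. -/
theorem inclM_normForm (α β x y : cubicField ρ) :
    inclM ρ (normForm (2 * α + thetaS hρ * β) (normForm (thetaS hρ) (thetaP hρ) (α, β)) (x, y)) =
      (inclM ρ x + inclM ρ y * genElt hρ α β) *
        quartAut hρ (inclM ρ x + inclM ρ y * genElt hρ α β) := by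
  have hsq := genElt_sq (hρ := hρ) α β
  have hc : quartAut hρ (genElt hρ α β) = inclM ρ (2 * α + thetaS hρ * β) - genElt hρ α β :=
    quartAut_gen hρ α β
  generalize genElt hρ α β = g at hsq hc ⊢
  generalize 2 * α + thetaS hρ * β = S at hsq hc ⊢
  generalize normForm (thetaS hρ) (thetaP hρ) (α, β) = P at hsq ⊢
  rw [map_add, map_mul, quartAut_inclM, quartAut_inclM, hc]
  simp only [normForm, map_add, map_mul, map_pow]
  linear_combination (inclM ρ y) ^ 2 * hsq

variable {G} (hD : G.HasUnitDisc)

include hD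

omit [NumberField ↥(quarticField ρ)] in
/-- The discriminant at a place with unit discriminant is a nonzero unit. -/
theorem GenAt.HasUnitDisc.disc_unit : G.form.disc ≠ 0 ∧ G.form.ord G.form.disc = 0 := by
  have e : G.form.disc = cmp v ((2 * α + thetaS hρ * β) ^ 2 -
      4 * normForm (thetaS hρ) (thetaP hρ) (α, β)) := by
    simp only [LocalForm.disc, GenAt.form, placeForm, map_sub, map_mul, map_pow, map_ofNat]
  rw [e]
  unfold GenAt.HasUnitDisc at hD
  refine ⟨fun h => by simp [h] at hD, ?_⟩
  show placeOrd v _ = 0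
  rw [placeOrd, hD, log_one, neg_zero]

/-- The generator and its conjugate differ by a unit at the places over `v`. -/
theorem GenAt.HasUnitDisc.valuation_diff {w : FinPlace (quarticField ρ)}
    (hw : comapPlace (inclM ρ) w = v) :
    w.valuation (quarticField ρ) (genElt hρ α β - quartAut hρ (genElt hρ α β)) = 1 := by
  have h : w.valuation (quarticField ρ)
      ((genElt hρ α β - quartAut hρ (genElt hρ α β)) ^ 2) = 1 := by
    rw [show (genElt hρ α β - quartAut hρ (genElt hρ α β)) ^ 2 =
      inclM ρ ((2 * α + thetaS hρ * β) ^ 2 - 4 * normForm (thetaS hρ) (thetaP hρ) (α, β)) by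
        rw [map_sub, map_mul, map_pow, map_ofNat,
          show quartAut hρ (genElt hρ α β) = inclM ρ (2 * α + thetaS hρ * β) - genElt hρ α β
            from quartAut_gen hρ α β]
        linear_combination (4 : quarticField ρ) * genElt_sq (hρ := hρ) α β,
      valuation_inclM_eq_one_iff hw, ← torus_valued_cmp]
    exact hD
  rw [map_pow] at h
  exact (pow_eq_one_iff_of_nonneg zero_le two_ne_zero).mp h

/-- Integral elements of `M` have integral coordinates. -/
theorem GenAt.HasUnitDisc.exists_coords (b : 𝓞 (quarticField ρ)) :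
    ∃ x y : cubicField ρ, (b : quarticField ρ) = inclM ρ x + inclM ρ y * genElt hρ α β ∧
      v.valuation (cubicField ρ) x ≤ 1 ∧ v.valuation (cubicField ρ) y ≤ 1 := by
  obtain ⟨-, -, w, -, -, -, -, hw⟩ := exists_above v
  have hdiff := hD.valuation_diff hw
  set g := genElt hρ α β
  have hne : g - quartAut hρ g ≠ 0 := fun h => by simp [h] at hdiff
  have hne' : quartAut hρ g - g ≠ 0 := fun h => hne (by rw [← neg_sub, h, neg_zero])
  obtain ⟨y, hy⟩ := exists_inclM_of_fixed hρ
    (x := ((b : quarticField ρ) - quartAut hρ b) / (g - quartAut hρ g)) (by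
      rw [map_div₀, map_sub, map_sub, quartAut_quartAut, quartAut_quartAut,
        div_eq_div_iff hne' hne]
      ring)
  obtain ⟨x, hx⟩ := exists_inclM_of_fixed hρ (x := (b : quarticField ρ) - inclM ρ y * g) (by
    rw [map_sub, map_mul, quartAut_inclM, hy]
    field_simp
    ring)
  have hwy : w.valuation (quarticField ρ) (inclM ρ y) ≤ 1 := by
    rw [hy, map_div₀, hdiff, div_one, ← quartAut_coe_int hρ b, ← map_sub]
    exact w.valuation_le_one _
  refine ⟨x, y, by rw [hx, sub_add_cancel], (valuation_inclM_le_one_iff hw x).mp ?_,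
    (valuation_inclM_le_one_iff hw y).mp hwy⟩
  rw [hx]
  refine (Valuation.map_sub _ _ _).trans (max_le (w.valuation_le_one b) ?_)
  rw [map_mul]
  exact mul_le_one' hwy (G.valuation_genElt_le hw)

variable (hroot : ¬ G.HasRoot)

include hroot

/-- Inert: an element small above has small coordinates. -/
theorem GenAt.HasUnitDisc.small_coords {w : FinPlace (quarticField ρ)}
    (hw : comapPlace (inclM ρ) w = v) {b : 𝓞 (quarticField ρ)} (hb : b ∈ w.asIdeal) :
    ∃ x y : cubicField ρ, (b : quarticField ρ) = inclM ρ x + inclM ρ y * genElt hρ α β ∧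
      v.valuation (cubicField ρ) x ≤ exp (-1 : ℤ) ∧
      v.valuation (cubicField ρ) y ≤ exp (-1 : ℤ) := by
  obtain ⟨x, y, hxy, hx, hy⟩ := hD.exists_coords b
  set g := genElt hρ α β
  have hN : inclM ρ (normForm (2 * α + thetaS hρ * β) (normForm (thetaS hρ) (thetaP hρ) (α, β))
      (x, y)) = (b : quarticField ρ) * quartAut hρ b := by
    rw [inclM_normForm hρ α β, hxy]
  have hlt : v.valuation (cubicField ρ)
      (normForm (2 * α + thetaS hρ * β) (normForm (thetaS hρ) (thetaP hρ) (α, β)) (x, y)) < 1 := by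
    rw [← valuation_inclM_lt_one_iff hw, hN, map_mul, ← quartAut_coe_int hρ b]
    exact mul_lt_one_of_nonneg_of_lt_one_left zero_le
      ((HeightOneSpectrum.valuation_lt_one_iff_mem (K := quarticField ρ) w b).mpr hb)
      (w.valuation_le_one _)
  set z := (cmp v x, cmp v y)
  have hn : G.form.n z ∈ (placeBase v).ball 1 := by
    have e : G.form.n z = cmp v (normForm (2 * α + thetaS hρ * β)
        (normForm (thetaS hρ) (thetaP hρ) (α, β)) (x, y)) := by
      simp only [LocalForm.n, GenAt.form, placeForm, z, ← map_pow, ← map_mul, ← map_add]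
      rfl
    rw [e, mem_placeBall, torus_valued_cmp]
    set N := normForm (2 * α + thetaS hρ * β) (normForm (thetaS hρ) (thetaP hρ) (α, β)) (x, y)
    rcases eq_or_ne (v.valuation (cubicField ρ) N) 0 with h0 | h0
    · rw [h0]; exact zero_le
    · rw [← exp_log h0, ← exp_zero, exp_lt_exp] at hlt
      rw [← exp_log h0, exp_le_exp]
      omega
  have := LocalBase.mem_box.mp (G.form.aniso_of_no_root (fun r hr h => hroot ⟨r, hr, h⟩) z
    (LocalBase.mem_box.mpr ⟨cmp_mem_placeBall hx, cmp_mem_placeBall hy⟩) hn)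
  exact ⟨x, y, hxy, valuation_le_of_mem_ball_one this.1, valuation_le_of_mem_ball_one this.2⟩

/-- Inert: a uniformiser of `v` is one above. -/
theorem GenAt.HasUnitDisc.placeVal_piUnit {w : FinPlace (quarticField ρ)}
    (hw : comapPlace (inclM ρ) w = v) :
    placeVal w (finExtend (inclM ρ) (piUnit v : FinAdele (cubicField ρ))) = exp (-1 : ℤ) := by
  obtain ⟨e, he, hval⟩ := exists_pow_valuation (inclM ρ) w
  rw [placeVal_finExtend he hval, hw, placeVal_piUnit_same]
  obtain ⟨b, hb⟩ := exists_integer_uniformizer w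
  have hbw : b ∈ w.asIdeal := by
    rw [← HeightOneSpectrum.valuation_lt_one_iff_mem (K := quarticField ρ)]
    show w.valuation (quarticField ρ) (b : quarticField ρ) < 1
    rw [hb, ← exp_zero, exp_lt_exp]
    norm_num
  obtain ⟨x, y, hxy, hx, hy⟩ := hD.small_coords hroot hw hbw
  have h1 : exp (-1 : ℤ) ≤ exp (-1 : ℤ) ^ e := by
    conv_lhs => rw [← hb, hxy]
    refine (Valuation.map_add _ _ _).trans (max_le ?_ ?_)
    · rw [hval, hw]; exact pow_le_pow_left' hx e
    · rw [map_mul, hval, hw]
      exact mul_le_of_le_of_le_one (pow_le_pow_left' hy e) (G.valuation_genElt_le hw)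
  rw [← exp_nsmul, exp_le_exp, nsmul_eq_mul, mul_neg_one, neg_le_neg_iff] at h1
  have : e = 1 := by omega
  rw [this, pow_one]

omit hD in
/-- Inert: the residue field above is larger. -/
theorem GenAt.HasUnitDisc.absNorm_lt {w : FinPlace (quarticField ρ)}
    (hw : comapPlace (inclM ρ) w = v) :
    Ideal.absNorm v.asIdeal < Ideal.absNorm w.asIdeal := by
  rw [← natCard_quotient, ← natCard_quotient]
  have := v.asIdeal.finiteQuotientOfFreeOfNeBot v.ne_bot
  have := w.asIdeal.finiteQuotientOfFreeOfNeBot w.ne_bot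
  have hle : v.asIdeal ≤ w.asIdeal.comap (RingOfIntegers.mapRingHom (inclM ρ)) := fun a ha => by
    rw [Ideal.mem_comap, ← mem_comapPlace, hw]; exact ha
  let φ := Ideal.quotientMap w.asIdeal (RingOfIntegers.mapRingHom (inclM ρ)) hle
  have hinj : Function.Injective φ := Ideal.quotientMap_injective' (fun a ha => by
    rw [← hw]; exact mem_comapPlace.mpr ha)
  refine (Nat.card_le_card_of_injective _ hinj).lt_of_ne fun hcard => ?_
  obtain ⟨o, ho⟩ := exists_integer_sub_lt w
    (x := finExtend (inclM ρ) (idem v) * finIncl (quarticField ρ) (genElt hρ α β))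
    (mem_integralAdele_iff.mpr fun u => by
      by_cases hu : comapPlace (inclM ρ) u = v
      · rw [placeVal_mul, placeVal, ← aboveIdem, toPlace_aboveIdem_same _ hu, map_one, one_mul,
          placeVal_finIncl]
        exact G.valuation_genElt_le hu
      · rw [placeVal_mul, placeVal, ← aboveIdem, toPlace_aboveIdem_ne _ hu, map_zero, zero_mul]
        exact zero_le)
  rw [placeVal, map_sub, map_mul, ← aboveIdem, toPlace_aboveIdem_same _ hw, one_mul, ← map_sub,
    ← map_sub, ← placeVal, placeVal_finIncl] at ho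
  obtain ⟨q, hq⟩ := ((Nat.bijective_iff_injective_and_card φ).mpr ⟨hinj, hcard⟩).2
    (Ideal.Quotient.mk _ o)
  obtain ⟨n, rfl⟩ := Ideal.Quotient.mk_surjective q
  have hn : w.valuation (quarticField ρ) (genElt hρ α β - inclM ρ (n : cubicField ρ)) < 1 := by
    rw [Ideal.quotientMap_mk, Ideal.Quotient.eq, ← HeightOneSpectrum.valuation_lt_one_iff_mem
      (K := quarticField ρ)] at hq
    rw [show genElt hρ α β - inclM ρ (n : cubicField ρ) = (genElt hρ α β - (o : quarticField ρ)) -
      (((RingOfIntegers.mapRingHom (inclM ρ) n - o : 𝓞 (quarticField ρ))) : quarticField ρ) by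
      simp only [RingOfIntegers.coe_eq_algebraMap, map_sub]
      show _ = _ - (inclM ρ _ - _)
      ring]
    exact (Valuation.map_sub _ _ _).trans_lt (max_lt ho hq)
  refine hroot ⟨cmp v (-(n : cubicField ρ)), cmp_mem_placeBall (by
    rw [Valuation.map_neg]; exact v.valuation_le_one n), ?_⟩
  show cmp v (-(n : cubicField ρ)) ^ 2 + cmp v (2 * α + thetaS hρ * β) * cmp v (-(n : cubicField ρ))
    + cmp v (normForm (thetaS hρ) (thetaP hρ) (α, β)) ∈ (placeBase v).ball 1
  rw [← map_pow, ← map_mul, ← map_add, ← map_add, mem_placeBall, torus_valued_cmp]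
  set N := (-(n : cubicField ρ)) ^ 2 + (2 * α + thetaS hρ * β) * -(n : cubicField ρ) +
    normForm (thetaS hρ) (thetaP hρ) (α, β)
  have hN : inclM ρ N = (genElt hρ α β - inclM ρ (n : cubicField ρ)) *
      (inclM ρ (2 * α + thetaS hρ * β) - genElt hρ α β - inclM ρ (n : cubicField ρ)) := by
    have h := inclM_normForm hρ α β (-(n : cubicField ρ)) 1
    simp only [normForm, mul_one, one_pow, map_one, one_mul, map_neg (inclM ρ)] at h
    rw [show N = (-(n : cubicField ρ)) ^ 2 + (2 * α + thetaS hρ * β) * -(n : cubicField ρ) +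
      normForm (thetaS hρ) (thetaP hρ) (α, β) from rfl]
    simp only [normForm]
    rw [h, map_add, map_neg, quartAut_inclM,
      show quartAut hρ (genElt hρ α β) = inclM ρ (2 * α + thetaS hρ * β) - genElt hρ α β
        from quartAut_gen hρ α β]
    ring
  have hlt : v.valuation (cubicField ρ) N < 1 := by
    rw [← valuation_inclM_lt_one_iff hw, hN, map_mul]
    refine mul_lt_one_of_nonneg_of_lt_one_left zero_le hn ?_
    refine (Valuation.map_sub _ _ _).trans (max_le ((Valuation.map_sub _ _ _).trans (max_le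
      ((valuation_inclM_le_one_iff hw _).mpr ((torus_valued_cmp v _).symm.trans_le G.trace_le))
      (G.valuation_genElt_le hw))) ((valuation_inclM_le_one_iff hw _).mpr (v.valuation_le_one n)))
  rcases eq_or_ne (v.valuation (cubicField ρ) N) 0 with h0 | h0
  · rw [h0]; exact zero_le
  · rw [← exp_log h0, ← exp_zero, exp_lt_exp] at hlt
    rw [← exp_log h0, exp_le_exp]
    omega

/-- Inert: the uniformiser has value `-1`. -/
theorem GenAt.HasUnitDisc.genEta_unif (X : IdeleCharData hρ) :
    genEta v X G.form.unif = -1 := by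
  obtain ⟨-, -, w, -, -, -, -, hw⟩ := exists_above v
  show idelePsi (inclM ρ) (genElt hρ 0 1) X.ξ v ((piLocal v : v.adicCompletion (cubicField ρ)), 0) = _
  rw [idelePsi_scalar]
  exact (congrArg Units.val (X.eta_inert v w hw (hD.placeVal_piUnit hroot hw)
    (GenAt.HasUnitDisc.absNorm_lt hroot hw))).trans (by simp)

omit hroot hD

omit [NumberField (quarticField ρ)] in
/-- A unit scalar is a unit point. -/
theorem unitPt_scalar (G : GenAt hρ v α β) {a : v.adicCompletion (cubicField ρ)} (ha : a ≠ 0)
    (ho : G.form.ord a = 0) : G.form.UnitPt (a, 0) := by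
  refine ⟨LocalBase.mem_box.mpr ⟨Or.inr ho.ge, zero_mem _⟩, by simp [LocalForm.n, ha], ?_⟩
  rw [show G.form.n (a, 0) = a * a by simp [LocalForm.n, sq], G.form.ord_mul ha ha, ho, add_zero]

variable (X : IdeleCharData hρ) (h3 : (3 : 𝓞 (cubicField ρ)) ∉ v.asIdeal)

include h3

theorem GenAt.genEta_unit {a : v.adicCompletion (cubicField ρ)} (ha : a ≠ 0)
    (ho : G.form.ord a = 0) : genEta v X a = 1 := by
  rw [← genPsi_scalar (α := α) (β := β)]
  obtain ⟨hb, hn, hno⟩ := unitPt_scalar G ha ho
  exact (G.isUnramChar X h3).unit _ hb hn hno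

include hD

/-- Split: the uniformiser has value one. -/
theorem GenAt.HasUnitDisc.genEta_unif_of_root (hr : G.HasRoot) :
    genEta v X G.form.unif = 1 := by
  obtain ⟨r, hr0, hr1⟩ := hr
  obtain ⟨hs, hs0⟩ := G.form.translate_s_unit hr0 hD.disc_unit.1 hD.disc_unit.2 hr1
  obtain ⟨a, -, hn, hno⟩ :=
    LocalForm.exists_split_prime (K := G.form.translate r hr0) hs hs0 hr1
  rw [G.form.translate_n hr0] at hn hno
  have ht : genEta v X (G.form.n (LocalForm.translEquiv r (a, 1))) = 1 := G.eta_norm X hn
  generalize G.form.n (LocalForm.translEquiv r (a, 1)) = t at hn hno ht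
  have hu : G.form.unif ≠ 0 := G.form.unif_ne_zero
  rw [show t = t / G.form.unif * G.form.unif from (div_mul_cancel₀ t hu).symm,
    G.genEta_mul X (div_ne_zero hn hu) hu,
    G.genEta_unit X h3 (div_ne_zero hn hu) (by
      rw [div_eq_mul_inv, G.form.ord_mul hn (inv_ne_zero hu), G.form.ord_inv hu,
        G.form.ord_unif, show G.form.ord t = 1 from hno]
      rfl), one_mul] at ht
  exact ht

/-- Away from three the form is unramified for `genEta`. -/
theorem GenAt.HasUnitDisc.exists_isUnram :
    ∃ ε, G.form.IsUnram (genEta v X) ε := by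
  have hu : ∀ a, a ≠ 0 → G.form.ord a = 0 → genEta v X a = 1 := fun a => G.genEta_unit X h3
  by_cases hr : G.HasRoot
  · obtain ⟨r, hr0, hr1⟩ := hr
    refine ⟨1, G.form.isUnram_of_root hr0 hD.disc_unit.1 hD.disc_unit.2 hr1 fun a ha => ?_⟩
    rw [G.genEta_eq X (one_pow 2) hu (hD.genEta_unif_of_root X h3 ⟨r, hr0, hr1⟩) a ha, one_zpow]
  · refine ⟨-1, G.form.isUnram_of_no_root hD.disc_unit.1 hD.disc_unit.2 ?_
      (fun r h h' => hr ⟨r, h, h'⟩) fun a ha => ?_⟩
    · have := v.asIdeal.finiteQuotientOfFreeOfNeBot v.ne_bot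
      have := Ideal.Quotient.nontrivial_iff.mpr v.isPrime.ne_top
      exact Finite.one_lt_card
    · exact G.genEta_eq X (by norm_num) hu (hD.genEta_unif hr X) a ha

end Fermat.Agent.LT.DihedralTheta

end
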