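import Fermat.Agent.LT.DihedralTheta.Instance.Class
import Fermat.Agent.LT.DihedralTheta.Target.Eigen

/-!
# The eigenvalue of the instance at an unramified place

At a place `v` of `L` off three the residual quadratic polynomial has a root exactly when Frobenius
fixes `M`; then the recursion of the local character has the eigenvalue `psi g + psi g⁻¹`, and
otherwise the eigenvalue zero, so in both cases the trace of the lift at Frobenius.
-/

set_option autoImplicit false

noncomputable section

open IsDedekindDomain NumberField WithZero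
open Fermat.Agent.GaloisBasics
open Fermat.Agent.LT.Final (GF3)
open Fermat.Agent.LT.GaloisData
open Fermat.Agent.LT.Places
open scoped Pointwise

namespace Fermat.Agent.LT.DihedralTheta

variable {ρ : GalQ →* GF3} (hρ : IsSupersingularRep ρ)

include hρ

/-- Off `M` an element of the Galois group of `L` acts on `M` as `quartAut`. -/
theorem apply_eq_quartAut {g : GalQ} (hg : g ∈ (cubicField ρ).fixingSubgroup)
    (hn : g ∉ (quarticField ρ).fixingSubgroup) (x : quarticField ρ) :
    g (x : Qbar) = ((quartAut hρ x : quarticField ρ) : Qbar) := by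
  rw [mem_fixingSubgroup_fixH hρ.continuous] at hg hn
  rcases quatGroup_cases hg with h | ⟨h, -⟩
  · exact absurd h hn
  · have hm : g * (quartLift hρ)⁻¹ ∈ (quarticField ρ).fixingSubgroup := by
      rw [mem_fixingSubgroup_fixH hρ.continuous, map_mul, map_inv, rho_quartLift]
      exact h
    have := (IntermediateField.mem_fixingSubgroup_iff _ _).mp hm _ (quartAut hρ x).2
    rw [coe_quartAut, AlgEquiv.mul_apply, AlgEquiv.aut_inv, AlgEquiv.symm_apply_apply] at this
    rw [coe_quartAut]
    exact this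

variable [NumberField (cubicField ρ)] [NumberField (quarticField ρ)]

omit [NumberField ↥(cubicField ρ)] in
/-- If the conjugation moves the place below `A`, elements of `L` in the decomposition group of
`A` fix `M`. -/
theorem mem_quartic_of_moved {A : ValuationSubring Qbar} {w : FinPlace (quarticField ρ)}
    (hw : intIdeal (quarticField ρ) A = w.asIdeal)
    (hne : comapPlace (quartAut hρ : quarticField ρ →+* quarticField ρ) w ≠ w) {g : GalQ}
    (hg : g ∈ (cubicField ρ).fixingSubgroup) (hD : g ∈ A.decompositionSubgroup ℚ) :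
    g ∈ (quarticField ρ).fixingSubgroup := by
  by_contra hn
  refine hne (HeightOneSpectrum.ext (Ideal.ext fun a => ?_))
  rw [mem_comapPlace, ← hw, mem_intIdeal, mem_intIdeal]
  show ((quartAut hρ (a : quarticField ρ) : quarticField ρ) : Qbar) ∈ A.nonunits ↔ _
  rw [← apply_eq_quartAut hρ hg hn]
  have hA : g • A = A := MulAction.mem_stabilizer_iff.mp hD
  conv_lhs => rw [← hA]
  rw [mem_nonunits_smul_iff, AlgEquiv.aut_inv, AlgEquiv.symm_apply_apply]

/-- Two conjugate places are unramified over `L`. -/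
theorem valuation_inclM_eq {w : FinPlace (quarticField ρ)} {v : FinPlace (cubicField ρ)}
    (hw : comapPlace (inclM ρ) w = v)
    (hne : comapPlace (quartAut hρ : quarticField ρ →+* quarticField ρ) w ≠ w)
    (x : cubicField ρ) :
    w.valuation (quarticField ρ) (inclM ρ x) = v.valuation (cubicField ρ) x := by
  obtain ⟨e, he, hval⟩ := exists_pow_valuation (inclM ρ) w
  set u := comapPlace (quartAut hρ : quarticField ρ →+* quarticField ρ) w
  obtain ⟨c, hcw, hcu⟩ : ∃ c : 𝓞 (quarticField ρ),
      w.valuation (quarticField ρ) (c : quarticField ρ) = exp (-1 : ℤ) ∧ c ∉ u.asIdeal := by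
    obtain ⟨π, hπ⟩ := exists_integer_uniformizer w
    by_cases hπu : π ∈ u.asIdeal
    swap
    · exact ⟨π, hπ, hπu⟩
    obtain ⟨c, hc, hcu⟩ : ∃ c ∈ w.asIdeal, c ∉ u.asIdeal := by
      by_contra h
      push Not at h
      exact hne (HeightOneSpectrum.ext (w.isMaximal.eq_of_le u.isPrime.ne_top h).symm)
    have hc1 : w.valuation (quarticField ρ) (c : quarticField ρ) ≤ exp (-1 : ℤ) := by
      have : w.valuation (quarticField ρ) (c : quarticField ρ) < 1 :=
        (HeightOneSpectrum.valuation_lt_one_iff_mem (K := quarticField ρ) w c).mpr hc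
      rcases eq_or_ne (w.valuation (quarticField ρ) (c : quarticField ρ)) 0 with h0 | h0
      · rw [h0]; exact zero_le
      rw [← exp_log h0, ← exp_zero, exp_lt_exp] at this
      rw [← exp_log h0, exp_le_exp]
      omega
    refine ⟨π + c * c, ?_, fun h => hcu ?_⟩
    · show w.valuation (quarticField ρ) ((π : quarticField ρ) + (c : quarticField ρ) * c) = _
      rw [Valuation.map_add_eq_of_lt_left, hπ]
      rw [hπ, map_mul]
      refine (mul_le_mul' hc1 hc1).trans_lt ?_
      rw [← exp_add, exp_lt_exp]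
      omega
    · exact (u.isPrime.mem_or_mem ((Ideal.add_mem_iff_right _ hπu).mp h)).elim id id
  obtain ⟨n, hn⟩ := exists_inclM_of_fixed hρ
    (x := (c : quarticField ρ) * quartAut hρ (c : quarticField ρ))
    (by rw [map_mul, quartAut_quartAut, mul_comm])
  have h1 : v.valuation (cubicField ρ) n ^ e = exp (-1 : ℤ) := by
    rw [← hw, ← hval, hn, map_mul, hcw, valuation_quartAut,
      (HeightOneSpectrum.valuation_eq_one_iff_notMem (K := quarticField ρ) u).mpr hcu, mul_one]
  have h0 : v.valuation (cubicField ρ) n ≠ 0 := fun h => by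
    rw [h, zero_pow he] at h1; exact exp_ne_zero h1.symm
  rw [← exp_log h0, ← exp_nsmul, exp_inj, nsmul_eq_mul] at h1
  have he1 : e = 1 := by
    have hd : (e : ℤ) ∣ 1 := ⟨-log (v.valuation (cubicField ρ) n), by rw [mul_neg, h1, neg_neg]⟩
    exact Nat.eq_one_of_dvd_one (Int.natCast_dvd_natCast.1 hd)
  rw [hval, he1, pow_one, hw]

variable {X : IdeleCharData hρ}

/-- The value of `ξ` at an idele which is a uniformiser at one place off three and a unit
elsewhere. -/
theorem xi_eq_piUnit (w : FinPlace (quarticField ρ))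
    {u : (FinAdele (quarticField ρ))ˣ}
    (hw : placeVal w (u : FinAdele (quarticField ρ)) = exp (-1 : ℤ))
    (hne : ∀ w', w' ≠ w → placeVal w' (u : FinAdele (quarticField ρ)) = 1)
    (h3 : ∀ w', (3 : 𝓞 (quarticField ρ)) ∈ w'.asIdeal →
      w' ≠ w ∧ toPlace w' (u : FinAdele (quarticField ρ)) = 1) :
    X.ξ u = X.ξ (piUnit w) := by
  have h : X.ξ (u * (piUnit w)⁻¹) = 1 := by
    refine X.unit_trivial _ (fun w' => ?_) fun w' h3' => ?_
    · rw [Units.val_mul, placeVal_mul, placeVal_units_inv]
      rcases eq_or_ne w' w with rfl | h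
      · rw [hw, placeVal_piUnit_same, mul_inv_cancel₀ exp_ne_zero]
      · rw [hne w' h, placeVal_piUnit_ne h, inv_one, one_mul]
    · obtain ⟨h, h1⟩ := h3 w' h3'
      rw [placeVal, Units.val_mul, map_sub, map_mul, toPlace_units_inv, toPlace_piUnit_ne h, h1,
        inv_one, one_mul, map_one, sub_self, map_zero]
      exact zero_lt_one
  rwa [map_mul, map_inv, mul_inv_eq_one] at h

variable {hρ} {v : FinPlace (cubicField ρ)} {α β : cubicField ρ} {G : GenAt hρ v α β}
  (hD : G.HasUnitDisc)

include hD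

/-- A root of the residual polynomial separates the two places above `v`. -/
theorem GenAt.HasUnitDisc.moved_of_root (hr : G.HasRoot) {w : FinPlace (quarticField ρ)}
    (hw : comapPlace (inclM ρ) w = v) :
    comapPlace (quartAut hρ : quarticField ρ →+* quarticField ρ) w ≠ w := by
  intro hfix
  obtain ⟨r, hr0, hr1⟩ := hr
  set θ := genElt hρ α β
  set S := cmp v (2 * α + thetaS hρ * β)
  have hz : ((r, 1) : v.adicCompletion (cubicField ρ) × v.adicCompletion (cubicField ρ)) ∈
      G.form.box 0 0 := LocalBase.mem_box.mpr ⟨hr0, G.form.one_mem_ball⟩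
  set x := aboveAdele (inclM ρ) θ v (r, 1) with hx
  set y := aboveAdele (inclM ρ) θ v (G.form.qconj (r, 1)) with hy
  have hxy : placeVal w x = placeVal w y := by
    rw [hy, G.aboveAdele_qconj, placeVal_finMap, hfix]
  obtain ⟨e, he, hval⟩ := exists_pow_valuation (inclM ρ) w
  have hprod : placeVal w x * placeVal w y < 1 := by
    rw [← placeVal_mul, hx, hy, ← aboveAdele_gmul (genElt_sq α β), placeVal,
      toPlace_aboveAdele _ hw]
    show Valued.v (toPlace w (aboveElt _ _ v (G.form.qmul (r, 1) (G.form.qconj (r, 1))))) < 1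
    rw [G.form.qmul_qconj, aboveElt_scalar]
    show placeVal w _ < 1
    rw [placeVal_finExtend he hval, hw]
    refine pow_lt_one₀ zero_le ?_ he
    rw [placeVal, toPlace_single_same,
      show G.form.n (r, 1) = r ^ 2 + G.form.s * r + G.form.p by simp only [LocalForm.n]; ring]
    refine (mem_placeBall.mp hr1).trans_lt ?_
    rw [← exp_zero, exp_lt_exp]
    norm_num
  have hle : placeVal w x ≤ 1 := by
    rw [hx, placeVal, toPlace_aboveAdele _ hw]
    exact G.placeVal_elt_le hw hz
  have hx1 : placeVal w x < 1 := hle.lt_of_ne fun h => by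
    rw [← hxy, h, one_mul] at hprod
    exact lt_irrefl _ hprod
  have hsub : placeVal w (x - y) < 1 :=
    (placeVal_sub_le w _ _).trans_lt (max_lt hx1 (hxy ▸ hx1))
  have he : toPlace w (x - y) =
      toPlace w (finIncl (quarticField ρ) (θ - quartAut hρ θ)) := by
    have h1 : finExtend (inclM ρ) (single v (1 : v.adicCompletion (cubicField ρ))) =
        aboveIdem (inclM ρ) v := rfl
    rw [hx, hy, map_sub, toPlace_aboveAdele _ hw, toPlace_aboveAdele _ hw,
      show quartAut hρ θ = inclM ρ (2 * α + thetaS hρ * β) - θ from quartAut_gen hρ α β,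
      show G.form.qconj (r, 1) = (r + S * 1, -1) from rfl]
    have hS : toPlace w (finExtend (inclM ρ) (single v (S * 1))) =
        toPlace w (finIncl (quarticField ρ) (inclM ρ (2 * α + thetaS hρ * β))) := by
      rw [single_cmp_mul, map_mul, finExtend_finIncl, map_mul, h1,
        toPlace_aboveIdem_same (inclM ρ) hw, mul_one]
    simp only [aboveElt, map_add (single v), map_add (finExtend (inclM ρ)), map_add (toPlace w),
      map_mul (toPlace w), map_neg (single v), map_neg (finExtend (inclM ρ)), map_neg (toPlace w),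
      h1, hS, map_sub (finIncl (quarticField ρ)), map_sub (toPlace w),
      toPlace_aboveIdem_same (inclM ρ) hw]
    ring
  rw [placeVal, he, ← placeVal, placeVal_finIncl, hD.valuation_diff hw] at hsub
  exact lt_irrefl _ hsub

variable (X) {Ψ : GF3 →* GL (Fin 2) (ℤ√(-2))}
  (hΨ : ∀ g, Matrix.GeneralLinearGroup.map FLT.ExplicitLift.red (Ψ g) = g) (ι : ℤ√(-2) →+* ℂ)
  (h3 : (3 : 𝓞 (cubicField ρ)) ∉ v.asIdeal) (hun : IsUnramAt ρ (cubicField ρ) v.asIdeal)

include hΨ h3 hun

/-- **The recursion at an unramified place off three**, with the trace of the lift at Frobenius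
as eigenvalue. -/
theorem GenAt.HasUnitDisc.exists_sphSum_frob :
    ∃ g, IsFrobOver (cubicField ρ) v.asIdeal g ∧ ∀ n : ℤ, n ≠ 0 →
      G.form.sphSum (genPsi v α β X) n =
        ι (liftTrace Ψ (ρ g)) * G.form.sphSum (genPsi v α β X) (n - 1) -
          G.form.sphSum (genPsi v α β X) (n - 2) := by
  set K := G.form
  set ψ := genPsi v α β X with hψdef
  have hψ := G.isUnramChar X h3
  have hπ : ψ (K.unif, 0) = genEta v X K.unif := genPsi_scalar _
  obtain ⟨g, hg⟩ := exists_isFrobOver (cubicField ρ) v.isPrime v.ne_bot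
  obtain ⟨q, f, A, σ, hq, hA, hσ, hAv, hN, hgσ⟩ := hg
  have hgL : g ∈ (cubicField ρ).fixingSubgroup :=
    IsFrobOver.mem_fixingSubgroup (K := cubicField ρ) (P := v.asIdeal)
      ⟨q, f, A, σ, hq, hA, hσ, hAv, hN, hgσ⟩ fun p' B hp' hB hBv τ hτ => by
        rw [mem_fixingSubgroup_fixH hρ.continuous, hun p' B hp' hB hBv τ hτ]
        exact one_mem _
  have hgD : g ∈ A.decompositionSubgroup ℚ := hgσ ▸ pow_mem hσ.mem_decompositionSubgroup f
  set w := GlobalUnits.placeBelow (quarticField ρ) hA hq
  have hwA : intIdeal (quarticField ρ) A = w.asIdeal := rfl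
  have hwv : comapPlace (inclM ρ) w = v :=
    HeightOneSpectrum.ext ((comapPlace_eq_of_intIdeal hwA).trans hAv)
  have hcomap : (intIdeal (quarticField ρ) A).comap (RingOfIntegers.mapRingHom (inclM ρ)) =
      v.asIdeal := congrArg HeightOneSpectrum.asIdeal hwv
  have hnorm : g ∈ (quarticField ρ).fixingSubgroup → Ideal.absNorm w.asIdeal = q ^ f := fun hm =>
    absNorm_intIdeal_eq (K := quarticField ρ) (inclM ρ) hq hA hσ (hgσ ▸ hm) (hcomap ▸ hN)
  refine ⟨g, ⟨q, f, A, σ, hq, hA, hσ, hAv, hN, hgσ⟩, ?_⟩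
  by_cases hroot : G.HasRoot
  swap
  · have hgM : g ∉ (quarticField ρ).fixingSubgroup := fun hm =>
      (GenAt.HasUnitDisc.absNorm_lt hroot hwv).ne (by rw [hnorm hm, hN])
    rw [liftTrace_off_quartic hρ hΨ hgL hgM, map_zero]
    exact fun n hn => K.sphSum_inert hψ (hπ.trans (hD.genEta_unif hroot X))
      (K.aniso_of_no_root fun r hr h => hroot ⟨r, hr, h⟩) hn
  have hne := hD.moved_of_root hroot hwv
  have hgM := mem_quartic_of_moved hρ hwA hne hgL hgD
  have hη := hπ.trans (hD.genEta_unif_of_root X h3 hroot)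
  obtain ⟨r, hr, hr1⟩ := hroot
  obtain ⟨z, hz, hn0, hno, hrec⟩ :=
    K.sphSum_of_root hr hD.disc_unit.1 hD.disc_unit.2 hr1 hψ hη
  suffices hval : ψ z + ψ (K.qconj z) =
      (psi hρ ⟨g, hgM⟩ : ℂ) + ((psi hρ ⟨g, hgM⟩)⁻¹ : ℂˣ) by
    intro n hn
    rw [liftTrace_psi hρ hΨ ι ⟨g, hgM⟩, ← hval]
    exact hrec n hn
  set w₁ := comapPlace (quartAut hρ : quarticField ρ →+* quarticField ρ) w
  have hqc : K.n (K.qconj z) = K.n z := K.torus_n_qconj z
  have hprod : ∀ y, K.n y = K.n z → placeVal w (aboveAdele (inclM ρ) (genElt hρ α β) v y) *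
      placeVal w (aboveAdele (inclM ρ) (genElt hρ α β) v (K.qconj y)) = exp (-1 : ℤ) := by
    intro y hny
    obtain ⟨e, he, hval⟩ := exists_pow_valuation (inclM ρ) w
    obtain ⟨π, hπ⟩ := v.valuation_exists_uniformizer (cubicField ρ)
    have h1 := valuation_inclM_eq hρ hwv hne π
    rw [hval, hwv, hπ, ← exp_nsmul, exp_inj, nsmul_eq_mul] at h1
    have he1 : e = 1 := by omega
    rw [← placeVal_mul, ← aboveAdele_gmul (genElt_sq α β),
      show gmul (cmp v (2 * α + thetaS hρ * β)) (cmp v (normForm (thetaS hρ) (thetaP hρ) (α, β))) y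
        (K.qconj y) = (K.n y, 0) from K.qmul_qconj y,
      placeVal, toPlace_aboveAdele _ hwv, aboveElt_scalar]
    show placeVal w _ = _
    rw [placeVal_finExtend he hval, he1, pow_one, hwv, placeVal, toPlace_single_same, hny,
      valued_eq_exp hn0]
    exact congrArg (fun i : ℤ => exp (-i)) hno
  have key : ∀ y ∈ K.box 0 0, K.n y = K.n z →
      placeVal w (aboveAdele (inclM ρ) (genElt hρ α β) v y) = exp (-1 : ℤ) →
      ψ y = (psi hρ ⟨g, hgM⟩ : ℂ) := by
    intro y hy hny hyw
    obtain ⟨u, hu⟩ := isUnit_aboveAdele (v := v) (genElt_sq (hρ := hρ) α β) (z := y)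
      (show K.n y ≠ 0 by rw [hny]; exact hn0)
    have hmul : placeVal w₁ (aboveAdele (inclM ρ) (genElt hρ α β) v y) = 1 := by
      have h1 := hprod y hny
      rw [G.aboveAdele_qconj, placeVal_finMap, hyw] at h1
      exact (mul_eq_left₀ exp_ne_zero).mp h1
    have hxi : X.ξ u = X.ξ (piUnit w) := by
      refine xi_eq_piUnit hρ w (by rw [hu, hyw]) (fun w' hw' => ?_) fun w' h3' => ?_
      · rw [hu]
        by_cases h : comapPlace (inclM ρ) w' = v
        · rcases above_cases hρ (h.trans hwv.symm) with rfl | rfl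
          · exact absurd rfl hw'
          · exact hmul
        · rw [placeVal, toPlace_aboveAdele_out _ h, map_one]
      · have h : comapPlace (inclM ρ) w' ≠ v := fun h => h3 ((comapPlace_three h).mp h3')
        exact ⟨fun e => h (e ▸ hwv), by rw [hu, toPlace_aboveAdele_out _ h]⟩
    rw [hψdef, genPsi, idelePsi, ← hu, extendChar_coe, hxi,
      X.frob w (fun h => h3 ((comapPlace_three hwv).mp h))
      (fun p' B hp' hB hBw τ hτ => hun p' B hp' hB (by
        rw [← comapPlace_eq_of_intIdeal hBw, hwv]) τ hτ) ⟨g, hgM⟩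
      ⟨q, f, A, σ, hq, hA, hσ, hwA, hnorm hgM, hgσ⟩]
  have hcases : placeVal w (aboveAdele (inclM ρ) (genElt hρ α β) v z) = exp (-1 : ℤ) ∨
      placeVal w (aboveAdele (inclM ρ) (genElt hρ α β) v (K.qconj z)) = exp (-1 : ℤ) := by
    have hzz := hprod z rfl
    have hle : ∀ y ∈ K.box 0 0, placeVal w (aboveAdele (inclM ρ) (genElt hρ α β) v y) ≤ 1 :=
      fun y hy => by
        rw [placeVal, toPlace_aboveAdele _ hwv]
        exact G.placeVal_elt_le hwv hy
    have ha := hle z hz
    have hb := hle _ (K.qconj_mem hz)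
    set a := placeVal w (aboveAdele (inclM ρ) (genElt hρ α β) v z)
    set b := placeVal w (aboveAdele (inclM ρ) (genElt hρ α β) v (K.qconj z))
    have ha0 : a ≠ 0 := left_ne_zero_of_mul (hzz.trans_ne exp_ne_zero)
    have hb0 : b ≠ 0 := right_ne_zero_of_mul (hzz.trans_ne exp_ne_zero)
    rw [← exp_log ha0, ← exp_log hb0, ← exp_add, exp_inj] at hzz
    rw [← exp_log ha0, ← exp_zero, exp_le_exp] at ha
    rw [← exp_log hb0, ← exp_zero, exp_le_exp] at hb
    rw [← exp_log ha0, ← exp_log hb0, exp_inj, exp_inj]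
    omega
  rcases hcases with h | h
  · rw [hψdef, G.genPsi_qconj X hn0, ← hψdef, key z hz rfl h, Units.val_inv_eq_inv_val]
  · have h2 := key _ (K.qconj_mem hz) hqc h
    have h4 : ψ z = ((psi hρ ⟨g, hgM⟩ : ℂ))⁻¹ := by
      rw [← h2, hψdef, G.genPsi_qconj X hn0, inv_inv]
    rw [h2, h4, Units.val_inv_eq_inv_val, add_comm]

/-- **The local eigenvalue at an unramified place off three.** -/
theorem GenAt.HasUnitDisc.exists_eigen :
    ∃ l : ℂ, thetaLam ρ Ψ ι v.asIdeal = (Real.sqrt (Nat.card (Residue v)) : ℂ) * l ∧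
      ∀ n : ℤ, n ≠ 0 → G.form.sphSum (genPsi v α β X) n =
        l * G.form.sphSum (genPsi v α β X) (n - 1) - G.form.sphSum (genPsi v α β X) (n - 2) := by
  obtain ⟨g, hg, hrec⟩ := hD.exists_sphSum_frob X hΨ ι h3 hun
  refine ⟨_, ?_, hrec⟩
  rw [thetaLam_eq Ψ ι hg hun, ← natCard_quotient]

end Fermat.Agent.LT.DihedralTheta

end
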