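import Fermat.Agent.LT.DihedralTheta.Data
import Fermat.Agent.LT.DihedralTheta.TypeE
import Fermat.Agent.LT.Places.HeckeSetup

/-!
# The level of an ideal fixes the vectors of a theta datum

If the vector at each place is fixed by the integral matrices, or the place divides the ideal and
the vector is fixed by the principal congruence subgroup, the level of the ideal is compatible
with the datum.
-/

set_option autoImplicit false

noncomputable section

open IsDedekindDomain NumberField WithZero
open scoped NumberField
open Fermat.Agent.LT.Places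

namespace Fermat.Agent.LT.DihedralTheta

variable {F : Type*} [Field F] [NumberField F]

/-- The adeles in `I Ô` are small at the places dividing `I`. -/
theorem placeVal_lt_one_of_mem_idealAdele {I : Ideal (𝓞 F)} {v : FinPlace F} (hv : I ≤ v.asIdeal)
    {x : FinAdele F} (hx : x ∈ idealAdele F I) : placeVal v x < 1 := by
  induction hx using AddSubgroup.closure_induction with
  | mem x hx =>
    obtain ⟨o, ho, b, hb, rfl⟩ := hx
    rw [placeVal_mul, placeVal_finIncl]
    exact mul_lt_one_of_lt_of_le ((v.valuation_lt_one_iff_mem (K := F) o).mpr (hv ho))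
      (placeVal_le_one v hb)
  | zero => rw [placeVal, map_zero, map_zero]; exact zero_lt_one
  | add x y _ _ ihx ihy => exact (placeVal_add_le v x y).trans_lt (max_lt ihx ihy)
  | neg x _ ih => rwa [placeVal, map_neg, Valuation.map_neg]

/-- The components of an integral adelic matrix. -/
theorem glPlace_mem_intGroup_of_isPrincipal {k : GLFin F} (hk : IsPrincipal F 1 k)
    (v : FinPlace F) : glPlace v k ∈ intGroup v :=
  mem_intGroup_of_inv (fun i j => placeVal_le_one v (hk.entry_mem i j))
    fun i j => by rw [← map_inv]; exact placeVal_le_one v (hk.inv.entry_mem i j)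

/-- The components of a matrix congruent to one modulo `I` at a place dividing `I`. -/
theorem resMat_glPlace_of_isCongrIdeal {I : Ideal (𝓞 F)} {v : FinPlace F} (hv : I ≤ v.asIdeal)
    (hq : (placeBase v).q = 3) {k : GLFin F} (hk : IsCongrIdeal I k) :
    (placeBase v).resMat (glPlace v k) = 1 := by
  ext i j
  have h1 : (glPlace v k).val i j ∈ (placeBase v).ball 0 :=
    mem_placeBall_zero.mpr ((glPlace_mem_intGroup_of_isPrincipal hk.1 v).1 i j)
  have hlt := placeVal_lt_one_of_mem_idealAdele hv (hk.2 i j)
  rw [placeVal, map_sub, ← glPlace_apply] at hlt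
  have hone : ((1 : Matrix (Fin 2) (Fin 2) (v.adicCompletion F)) i j) ∈ (placeBase v).ball 0 :=
    mem_placeBall_zero.mpr ((one_mem (intGroup v)).1 i j)
  have he : toPlace v ((1 : Matrix (Fin 2) (Fin 2) (FinAdele F)) i j) =
      (1 : Matrix (Fin 2) (Fin 2) (v.adicCompletion F)) i j := by
    by_cases h : i = j <;> simp [h, Matrix.one_apply]
  rw [he] at hlt
  have hb : (glPlace v k).val i j - (1 : Matrix (Fin 2) (Fin 2) (v.adicCompletion F)) i j ∈
      (placeBase v).ball 1 := by
    rw [mem_placeBall]
    rcases eq_or_ne (Valued.v ((glPlace v k).val i j -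
      (1 : Matrix (Fin 2) (Fin 2) (v.adicCompletion F)) i j)) 0 with h | h
    · rw [h]; exact zero_le
    · rw [← exp_log h, exp_le_exp]
      rw [← exp_log h, ← exp_zero, exp_lt_exp] at hlt
      omega
  have h0 := (LocalBase.res_eq_zero_iff hq (sub_mem h1 hone)).mpr hb
  rw [LocalBase.res_sub hq h1 hone, sub_eq_zero] at h0
  show (placeBase v).res ((glPlace v k).val i j) = _
  rw [h0]
  by_cases h : i = j <;> simp [h, Matrix.one_apply, LocalBase.res_one hq, LocalBase.res_zero hq]

namespace ThetaData

/-- **The level of the ideal.** -/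
theorem isLevel_ofIdeal (D : ThetaData F) {I : Ideal (𝓞 F)}
    {hI : ∃ N : ℕ, 0 < N ∧ (N : 𝓞 F) ∈ I}
    (h : ∀ v : FinPlace F, intGroup v ≤ (D.place v).vec.U ∨ (I ≤ v.asIdeal ∧
      ∃ hq : (placeBase v).q = 3, LocalBase.congrThree hq ≤ (D.place v).vec.U)) :
    D.IsLevel (Level.ofIdeal F I hI) := by
  rintro g ⟨a, k, hk, rfl⟩
  refine ⟨a, k, rfl, fun v => ?_⟩
  have hint := glPlace_mem_intGroup_of_isPrincipal hk.1 v
  rcases h v with hU | ⟨hv, hq, hU⟩
  · exact hU hint
  · exact hU ⟨(intGL_eq_intGroup v).symm ▸ hint, resMat_glPlace_of_isCongrIdeal hv hq hk⟩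

end ThetaData

end Fermat.Agent.LT.DihedralTheta

end
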