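import Fermat.Agent.LT.DihedralTheta.LocalHecke
import Mathlib.FieldTheory.Finite.Basic

/-!
# The spherical case from the residual quadratic polynomial

With a unit discriminant the form is of split type when `r ^ 2 + s r + p` has a root `r` modulo the
maximal ideal, and of inert type otherwise; the translation by `r` reduces the first case to the
normal form `p ≡ 0`.
-/

set_option autoImplicit false

open AddSubgroup Polynomial

namespace Fermat.Agent.LT.DihedralTheta

/-- A nondegenerate binary quadratic form over a finite field takes every value. -/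
theorem exists_binary_eq {k : Type*} [Field k] [Finite k] (s p t : k)
    (hD : s ^ 2 - 4 * p ≠ 0) : ∃ x y : k, x ^ 2 + s * x * y + p * y ^ 2 = t := by
  by_cases h2 : ringChar k = 2
  · obtain ⟨r, hr⟩ := FiniteField.isSquare_of_char_two h2 t
    exact ⟨r, 0, by simp [hr, sq]⟩
  · have htwo : (2 : k) ≠ 0 := Ring.two_ne_zero h2
    let _ := Fintype.ofFinite k
    have hc : p - (s / 2) ^ 2 ≠ 0 := fun h => hD (by
      have : p = (s / 2) ^ 2 := sub_eq_zero.mp h
      rw [this]; field_simp; ring)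
    obtain ⟨a, b, hab⟩ := FiniteField.exists_root_sum_quadratic (R := k)
      (f := (Polynomial.X : k[X]) ^ 2) (g := C (p - (s / 2) ^ 2) * Polynomial.X ^ 2 + C (-t))
      (degree_X_pow 2) (by
        rw [degree_add_C (by rw [degree_C_mul_X_pow 2 hc]; exact Nat.cast_pos.mpr two_pos),
          degree_C_mul_X_pow 2 hc]
        rfl)
      (FiniteField.odd_card_of_char_ne_two h2)
    refine ⟨a - s / 2 * b, b, ?_⟩
    simp only [eval_pow, eval_X, eval_add, eval_mul, eval_C] at hab
    field_simp at hab ⊢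
    linear_combination hab

namespace LocalBase

variable {E : Type*} [Field E] (K : LocalBase E)

/-- The valuation ring. -/
def valRing : Subring E where
  carrier := K.ball 0
  one_mem' := K.one_mem_ball
  mul_mem' ha hb := K.mul_mem_ball' ha hb (by norm_num)
  zero_mem' := zero_mem _
  add_mem' := add_mem
  neg_mem' := neg_mem

/-- The maximal ideal of the valuation ring. -/
def valMax : Ideal K.valRing where
  carrier := {x | (x : E) ∈ K.ball 1}
  zero_mem' := zero_mem (K.ball 1)
  add_mem' := fun {a b} (ha : (a : E) ∈ K.ball 1) (hb : (b : E) ∈ K.ball 1) =>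
    show ((a + b : K.valRing) : E) ∈ K.ball 1 from add_mem ha hb
  smul_mem' a _ hx := K.mul_mem_ball' a.2 hx (by norm_num)

theorem mem_valMax {x : K.valRing} : x ∈ K.valMax ↔ (x : E) ∈ K.ball 1 := Iff.rfl

instance isMaximal_valMax : K.valMax.IsMaximal := by
  rw [Ideal.isMaximal_iff]
  refine ⟨fun h => ?_, fun J x hJ hx hxJ => ?_⟩
  · have := (K.mem_valMax.mp h).resolve_left one_ne_zero
    rw [show K.ord ((1 : K.valRing) : E) = 0 from K.ord_one] at this
    omega
  · have h0 : (x : E) ≠ 0 := fun h => hx (K.mem_valMax.mpr (h ▸ zero_mem _))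
    have ho : K.ord (x : E) = 0 :=
      le_antisymm (not_lt.mp fun h => hx (Or.inr h)) (x.2.resolve_left h0)
    have hinv : (x : E)⁻¹ ∈ K.valRing := Or.inr (by rw [K.ord_inv h0, ho]; norm_num)
    have : (⟨_, hinv⟩ : K.valRing) * x = 1 := Subtype.ext (inv_mul_cancel₀ h0)
    exact this ▸ J.mul_mem_left _ hxJ

/-- The residue field is finite. -/
theorem finite_residue : Finite (K.valRing ⧸ K.valMax) := by
  have : Finite (K.ball 0 ⧸ (K.ball 1).addSubgroupOf (K.ball 0)) := Nat.finite_of_card_ne_zero (by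
    have h := K.relIndex_ball_succ 0
    rw [zero_add, relIndex, AddSubgroup.index] at h
    rw [h]; exact K.q_pos.ne')
  refine Finite.of_surjective (fun t : K.ball 0 ⧸ (K.ball 1).addSubgroupOf (K.ball 0) =>
    Ideal.Quotient.mk K.valMax (⟨(t.out : E), t.out.2⟩ : K.valRing)) fun y => ?_
  obtain ⟨x, rfl⟩ := Ideal.Quotient.mk_surjective y
  refine ⟨QuotientAddGroup.mk (⟨(x : E), x.2⟩ : K.ball 0), ?_⟩
  rw [Ideal.Quotient.eq, K.mem_valMax]
  obtain ⟨c, hc⟩ := QuotientAddGroup.mk_out_eq_add ((K.ball 1).addSubgroupOf (K.ball 0))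
    (⟨(x : E), x.2⟩ : K.ball 0)
  simp only [AddSubgroupClass.coe_sub, hc, AddSubgroup.coe_add, add_sub_cancel_left]
  exact AddSubgroup.mem_addSubgroupOf.mp c.2

end LocalBase

namespace LocalForm

variable {E : Type*} [Field E] (K : LocalForm E)

/-- An element of the unit group of the quadratic order. -/
def UnitPt (c : E × E) : Prop := c ∈ K.box 0 0 ∧ K.n c ≠ 0 ∧ K.ord (K.n c) = 0

variable {K}

/-- `(1, 0)` is a unit point. -/
theorem UnitPt.n_one : K.UnitPt (1, 0) :=
  ⟨LocalBase.mem_box.mpr ⟨K.one_mem_ball, zero_mem _⟩, by simp [n], by simp [n, K.ord_one]⟩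

/-- A unit point has an inverse which is a unit point. -/
theorem UnitPt.exists_inv {c : E × E} (hc : K.UnitPt c) :
    ∃ c', K.UnitPt c' ∧ K.qmul c c' = (1, 0) ∧ K.qmul c' c = (1, 0) := by
  obtain ⟨hb, h0, ho⟩ := hc
  have e : K.qmul c ((K.n c)⁻¹ • K.qconj c) = (1, 0) := by
    rw [K.qmul_smul, K.qmul_qconj, Prod.smul_mk, smul_eq_mul, smul_eq_mul, inv_mul_cancel₀ h0,
      mul_zero]
  have hcomm : ∀ a b, K.qmul a b = K.qmul b a := fun a b => by
    simp only [qmul]; refine Prod.ext ?_ ?_ <;> simp only <;> ring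
  refine ⟨_, ⟨?_, ?_, ?_⟩, e, (hcomm _ _).trans e⟩
  · simpa using K.smul_mem_box (i := 0) (j := 0) (Or.inr (by rw [K.ord_inv h0, ho]; norm_num))
      (K.qconj_mem hb)
  all_goals
    have h1 := congrArg K.n e
    rw [K.n_qmul, show K.n (1, 0) = 1 by simp [n]] at h1
  · exact right_ne_zero_of_mul (h1.trans_ne one_ne_zero)
  · have h2 := congrArg K.ord h1
    rw [K.ord_mul h0 (right_ne_zero_of_mul (h1.trans_ne one_ne_zero)), ho, zero_add, K.ord_one] at h2
    exact h2

/-- Unit points are closed under multiplication. -/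
theorem UnitPt.mul {c d : E × E} (hc : K.UnitPt c) (hd : K.UnitPt d) : K.UnitPt (K.qmul c d) := by
  refine ⟨by simpa using K.qmul_mem hc.1 hd.1, ?_, ?_⟩
  · rw [K.n_qmul]; exact mul_ne_zero hc.2.1 hd.2.1
  · rw [K.n_qmul, K.ord_mul hc.2.1 hd.2.1, hc.2.2, hd.2.2, add_zero]

/-- Multiplication by a unit point preserves the square boxes. -/
theorem UnitPt.qmul_mem_iff {c : E × E} (hc : K.UnitPt c) {i : ℤ} {z : E × E} :
    K.qmul c z ∈ K.box i i ↔ z ∈ K.box i i := by
  obtain ⟨c', hc', -, e⟩ := hc.exists_inv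
  refine ⟨fun h => ?_, fun h => by simpa using K.qmul_mem hc.1 h⟩
  have := K.qmul_mem hc'.1 h
  rw [← K.qmul_assoc, e] at this
  simpa [qmul] using this

/-- Every point is a multiple of a given unit point. -/
theorem UnitPt.qmul_qmul_inv {c : E × E} (hc : K.UnitPt c) (z : E × E) :
    ∃ c', K.UnitPt c' ∧ K.qmul c (K.qmul c' z) = z := by
  obtain ⟨c', hc', e, -⟩ := hc.exists_inv
  exact ⟨c', hc', by rw [← K.qmul_assoc, e]; simp [qmul]⟩

/-- `1 + ρ` is a unit point for `ρ` in the maximal box. -/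
theorem unitPt_one_add {ρ : E × E} (hρ : ρ ∈ K.box 1 1) : K.UnitPt ((1, 0) + ρ) := by
  have h0 : ((1 : E), (0 : E)) + ρ ∈ K.box 0 0 :=
    add_mem (LocalBase.mem_box.mpr ⟨K.one_mem_ball, zero_mem _⟩)
      (K.box_le (by norm_num) (by norm_num) hρ)
  obtain ⟨s1, s2⟩ := LocalBase.mem_box.mp hρ
  have hv : K.n ((1, 0) + ρ) - 1 ∈ K.ball 1 := by
    rw [show K.n ((1, 0) + ρ) - 1 = 2 * ρ.1 + K.s * ρ.2 + K.n ρ by
      simp only [LocalForm.n, Prod.fst_add, Prod.snd_add]; ring]
    exact add_mem (add_mem (K.mul_mem_ball' K.two_mem s1 (by omega))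
      (K.mul_mem_ball' K.s_mem s2 (by omega))) (K.ball_le (by omega) (K.n_mem hρ))
  have hnot : K.n ((1, 0) + ρ) ∉ K.ball 1 := fun h1 => by
    have := sub_mem h1 hv
    rw [sub_sub_cancel] at this
    have := this.resolve_left one_ne_zero
    rw [K.ord_one] at this; omega
  have hv0 : K.n ((1, 0) + ρ) ≠ 0 := fun h => hnot (by rw [h]; exact zero_mem _)
  exact ⟨h0, hv0, le_antisymm (not_lt.mp fun h => hnot (Or.inr h)) ((K.n_mem h0).resolve_left hv0)⟩

/-- An element congruent to `1` is a nonzero unit. -/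
theorem ord_eq_zero_of_sub_one {v : E} (h : v - 1 ∈ K.ball 1) : v ≠ 0 ∧ K.ord v = 0 := by
  have hnot : v ∉ K.ball 1 := fun h1 => by
    have := sub_mem h1 h
    rw [sub_sub_cancel] at this
    have := this.resolve_left one_ne_zero
    rw [K.ord_one] at this; omega
  have h0 : v ≠ 0 := fun e => hnot (e ▸ zero_mem _)
  have hb : v ∈ K.ball 0 := by
    have := add_mem (K.ball_le (by norm_num : (0 : ℤ) ≤ 1) h) K.one_mem_ball
    rwa [sub_add_cancel] at this
  exact ⟨h0, le_antisymm (not_lt.mp fun h => hnot (Or.inr h)) (hb.resolve_left h0)⟩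

variable (K)

/-- No root modulo the maximal ideal: anisotropy. -/
theorem aniso_of_no_root (h : ∀ r ∈ K.ball 0, r ^ 2 + K.s * r + K.p ∉ K.ball 1) :
    ∀ z ∈ K.box 0 0, K.n z ∈ K.ball 1 → z ∈ K.box 1 1 := by
  intro z hz hn
  obtain ⟨z1, z2⟩ := LocalBase.mem_box.mp hz
  by_cases h2 : z.2 ∈ K.ball 1
  · refine LocalBase.mem_box.mpr ⟨?_, h2⟩
    by_contra h1
    have h10 : z.1 ≠ 0 := fun e => h1 (e ▸ zero_mem _)
    have ho : K.ord z.1 = 0 := le_antisymm (not_lt.mp fun h => h1 (Or.inr h)) (z1.resolve_left h10)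
    have : z.1 * z.1 ∈ K.ball 1 := by
      rw [show z.1 * z.1 = K.n z - (K.s * z.1 * z.2 + K.p * (z.2 * z.2)) by simp only [n]; ring]
      exact sub_mem hn (add_mem (K.mul_mem_ball' (K.mul_mem_ball K.s_mem z1) h2 (by omega))
        (K.mul_mem_ball' K.p_mem (K.mul_mem_ball h2 h2) (by omega)))
    rw [K.mul_mem_ball_iff h10, ho] at this
    exact h1 (by simpa using this)
  · exfalso
    have h20 : z.2 ≠ 0 := fun e => h2 (e ▸ zero_mem _)
    have ho : K.ord z.2 = 0 := le_antisymm (not_lt.mp fun h => h2 (Or.inr h)) (z2.resolve_left h20)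
    refine h (z.1 / z.2) ?_ ?_
    · rw [div_eq_inv_mul, K.mul_mem_ball_iff (inv_ne_zero h20), K.ord_inv h20, ho]
      simpa using z1
    · rw [show (z.1 / z.2) ^ 2 + K.s * (z.1 / z.2) + K.p = (z.2 * z.2)⁻¹ * K.n z by
        simp only [n]; field_simp, K.mul_mem_ball_iff (inv_ne_zero (mul_ne_zero h20 h20)),
        K.ord_inv (mul_ne_zero h20 h20), K.ord_mul h20 h20, ho]
      simpa using hn

/-- A unit discriminant makes the norm surjective on residues. -/
theorem surj_of_disc (hD : K.disc ≠ 0) (hD0 : K.ord K.disc = 0) :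
    ∀ t ∈ K.ball 0, t ∉ K.ball 1 → ∃ w ∈ K.box 0 0, K.n w - t ∈ K.ball 1 := by
  intro t ht _
  let _ := Ideal.Quotient.field K.valMax
  have := K.finite_residue
  set π := Ideal.Quotient.mk K.valMax
  have hne : π ⟨K.s, K.s_mem⟩ ^ 2 - 4 * π ⟨K.p, K.p_mem⟩ ≠ 0 := by
    intro h
    rw [← map_pow, ← map_ofNat π 4, ← map_mul, ← map_sub, Ideal.Quotient.eq_zero_iff_mem,
      LocalBase.mem_valMax] at h
    have h' : K.disc ∈ K.ball 1 := h
    have := h'.resolve_left hD
    omega
  obtain ⟨x, y, hxy⟩ := exists_binary_eq (π ⟨K.s, K.s_mem⟩) (π ⟨K.p, K.p_mem⟩) (π ⟨t, ht⟩) hne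
  obtain ⟨a, rfl⟩ := Ideal.Quotient.mk_surjective x
  obtain ⟨b, rfl⟩ := Ideal.Quotient.mk_surjective y
  refine ⟨((a : E), (b : E)), LocalBase.mem_box.mpr ⟨a.2, b.2⟩, ?_⟩
  rw [← map_pow, ← map_pow, ← map_mul, ← map_mul, ← map_mul, ← map_add, ← map_add,
    Ideal.Quotient.eq, LocalBase.mem_valMax] at hxy
  exact hxy

/-- The inert type. -/
theorem isUnram_of_no_root {η : E → ℂ} (hD : K.disc ≠ 0) (hD0 : K.ord K.disc = 0) (hq : 2 ≤ K.q)
    (h : ∀ r ∈ K.ball 0, r ^ 2 + K.s * r + K.p ∉ K.ball 1)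
    (hη : ∀ a : E, a ≠ 0 → η a = (-1 : ℂ) ^ K.ord a) : K.IsUnram η (-1) :=
  K.isUnram_inert hD hD0 (K.aniso_of_no_root h) (K.surj_of_disc hD hD0) hq hη

/-- The form in the basis translated by `r`. -/
noncomputable def translate (r : E) (hr : r ∈ K.ball 0) : LocalForm E where
  toLocalBase := K.toLocalBase
  s := K.s + 2 * r
  p := r ^ 2 + K.s * r + K.p
  χ := K.χ
  cond := K.cond
  s_mem := add_mem K.s_mem (K.mul_mem_ball' K.two_mem hr (by norm_num))
  p_mem := by
    refine add_mem (add_mem ?_ (K.mul_mem_ball' K.s_mem hr (by norm_num))) K.p_mem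
    rw [sq]; exact K.mul_mem_ball' hr hr (by norm_num)
  χ_triv := K.χ_triv
  χ_nontriv := K.χ_nontriv

@[simp] theorem translate_toLocalBase (r : E) (hr : r ∈ K.ball 0) :
    (K.translate r hr).toLocalBase = K.toLocalBase := rfl

@[simp] theorem translate_s (r : E) (hr : r ∈ K.ball 0) : (K.translate r hr).s = K.s + 2 * r := rfl

@[simp] theorem translate_p (r : E) (hr : r ∈ K.ball 0) :
    (K.translate r hr).p = r ^ 2 + K.s * r + K.p := rfl

@[simp] theorem translate_χ (r : E) (hr : r ∈ K.ball 0) : (K.translate r hr).χ = K.χ := rfl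

/-- The change of variables of the translation. -/
def translEquiv (r : E) : E × E ≃+ E × E where
  toFun z := (z.1 + r * z.2, z.2)
  invFun z := (z.1 - r * z.2, z.2)
  left_inv z := by simp
  right_inv z := by simp
  map_add' z w := by ext <;> simp; ring

theorem translEquiv_mem {r : E} (hr : r ∈ K.ball 0) {i : ℤ} {z : E × E} :
    translEquiv r z ∈ K.box i i ↔ z ∈ K.box i i := by
  constructor <;> intro h <;> obtain ⟨h1, h2⟩ := LocalBase.mem_box.mp h <;>
    refine LocalBase.mem_box.mpr ⟨?_, h2⟩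
  · simpa [translEquiv] using sub_mem h1 (K.mul_mem_ball' hr h2 (m := i) (by omega))
  · exact add_mem h1 (K.mul_mem_ball' hr h2 (m := i) (by omega))

theorem comap_translEquiv {r : E} (hr : r ∈ K.ball 0) (i : ℤ) :
    (K.box i i).comap (translEquiv r).toAddMonoidHom = K.box i i := by
  ext z
  exact K.translEquiv_mem hr

/-- The norm form of a translated form is that of the translated point. -/
theorem translate_n {r : E} (hr : r ∈ K.ball 0) (z : E × E) :
    (K.translate r hr).n z = K.n (translEquiv r z) := by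
  simp only [n, translate_s, translate_p, translEquiv, AddEquiv.coe_mk, Equiv.coe_fn_mk]
  ring

theorem translate_qmul {r : E} (hr : r ∈ K.ball 0) (w z : E × E) :
    translEquiv r ((K.translate r hr).qmul w z) = K.qmul (translEquiv r w) (translEquiv r z) := by
  simp only [qmul, translate_s, translate_p, translEquiv, AddEquiv.coe_mk, Equiv.coe_fn_mk]
  ext <;> (simp only; ring)

theorem translate_qconj {r : E} (hr : r ∈ K.ball 0) (z : E × E) :
    translEquiv r ((K.translate r hr).qconj z) = K.qconj (translEquiv r z) := by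
  simp only [qconj, translate_s, translEquiv, AddEquiv.coe_mk, Equiv.coe_fn_mk]
  ext <;> simp only
  ring

theorem translate_gauss {r : E} (hr : r ∈ K.ball 0) (x : E) :
    (K.translate r hr).gauss x (K.box 0 0) = K.gauss x (K.box 0 0) := by
  classical
  obtain ⟨R, k, -, -, -, hper, hs⟩ := K.gauss_per x 0 0 0
  have h := integral_comp_equiv (translEquiv r) (K.isLat_box R R) (K.isLat_box k k) hper hs
    (by rw [K.comap_translEquiv hr]; exact K.isLat_box _ _)
    (by rw [K.comap_translEquiv hr]; exact K.isLat_box _ _)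
  rw [K.comap_translEquiv hr, div_self (vol_ne_zero (K.isLat_box R R)), one_mul] at h
  rw [gauss, gauss, ← h]
  congr 1
  funext t
  simp only [K.translate_n hr, translate_χ]
  exact if_congr (K.translEquiv_mem hr).symm rfl rfl

theorem isUnramChar_translate {r : E} (hr : r ∈ K.ball 0) {ψ : E × E → ℂ}
    (hψ : K.IsUnramChar ψ) : (K.translate r hr).IsUnramChar fun z => ψ (translEquiv r z) where
  mul {w z} hw hz := by
    rw [K.translate_n hr] at hw hz
    show ψ _ = ψ _ * ψ _
    rw [K.translate_qmul hr, hψ.mul hw hz]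
  unit z hz h0 ho := by
    rw [K.translate_n hr] at h0 ho
    exact hψ.unit _ ((K.translEquiv_mem hr).mpr hz) h0 ho

theorem translate_slice_integral {r : E} (hr : r ∈ K.ball 0) {ψ : E × E → ℂ}
    (hψ : K.IsUnramChar ψ) (n : ℤ) :
    integral K.base ((K.translate r hr).slice (fun z => ψ (translEquiv r z)) (K.box 0 0) n) =
      integral K.base (K.slice ψ (K.box 0 0) n) := by
  classical
  obtain ⟨R, hR⟩ : ∃ R : ℤ, 0 ≤ R ∧ n + 1 ≤ R := ⟨max 0 (n + 1), le_max_left _ _, le_max_right _ _⟩
  have h := integral_comp_equiv (translEquiv r) (K.isLat_box R R) (K.isLat_box 0 0)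
    (K.slice_per hψ le_rfl le_rfl n hR.1 hR.1 hR.2) (K.slice_supp ψ _ n)
    (by rw [K.comap_translEquiv hr]; exact K.isLat_box _ _)
    (by rw [K.comap_translEquiv hr]; exact K.isLat_box _ _)
  rw [K.comap_translEquiv hr, div_self (vol_ne_zero (K.isLat_box R R)), one_mul] at h
  rw [← h]
  congr 1
  funext z
  simp only [slice]
  refine if_congr ?_ rfl rfl
  rw [K.translEquiv_mem hr, K.translate_n hr, translate_toLocalBase]

/-- Translation does not change the sums of the character over norm valuations. -/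
theorem translate_sphSum {r : E} (hr : r ∈ K.ball 0) {ψ : E × E → ℂ}
    (hψ : K.IsUnramChar ψ) (n : ℤ) :
    (K.translate r hr).sphSum (fun z => ψ (translEquiv r z)) n = K.sphSum ψ n := by
  have h1 : (K.translate r hr).unitVol = K.unitVol := by
    rw [unitVol_eq, unitVol_eq]
    exact K.translate_slice_integral hr K.isUnramChar_one 0
  simp only [sphSum, h1]
  congr 2
  exact K.translate_slice_integral hr hψ n

variable {r : E} (hr : r ∈ K.ball 0) (hD : K.disc ≠ 0) (hD0 : K.ord K.disc = 0)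
  (hroot : r ^ 2 + K.s * r + K.p ∈ K.ball 1)

include hr hD hD0 hroot

/-- The linear coefficient of the translated form is a unit. -/
theorem translate_s_unit : K.s + 2 * r ≠ 0 ∧ K.ord (K.s + 2 * r) = 0 := by
  have hs : K.s + 2 * r ∈ K.ball 0 := (K.translate r hr).s_mem
  have hnot : K.s + 2 * r ∉ K.ball 1 := fun h => by
    have h1 : K.disc ∈ K.ball 1 := by
      rw [show K.disc = (K.s + 2 * r) * (K.s + 2 * r) - 2 * 2 * (r ^ 2 + K.s * r + K.p) by
        simp only [disc]; ring]
      exact sub_mem (K.mul_mem_ball' h hs (by norm_num))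
        (K.mul_mem_ball' (K.mul_mem_ball K.two_mem K.two_mem) hroot (by norm_num))
    have := h1.resolve_left hD
    omega
  have h0 : K.s + 2 * r ≠ 0 := fun e => hnot (e ▸ zero_mem _)
  exact ⟨h0, le_antisymm (not_lt.mp fun h => hnot (Or.inr h)) (hs.resolve_left h0)⟩

/-- The split type. -/
theorem isUnram_of_root {η : E → ℂ} (hη : ∀ a : E, a ≠ 0 → η a = 1) : K.IsUnram η 1 where
  disc_ne := hD
  disc_ord := hD0
  eps_sq := one_pow 2
  eta a ha := by rw [one_zpow, hη a ha]
  base u hu h x hx hord := by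
    obtain ⟨hs, hs0⟩ := K.translate_s_unit hr hD hD0 hroot
    refine ((K.shift u hu).translate_gauss hr x).symm.trans ?_
    exact ((K.shift u hu).translate r hr).gauss_base_split (K.shift_cond_zero hu h) hs hs0 hroot
      hx hord

/-- The recursion of the split type, with a prime of norm valuation one. -/
theorem sphSum_of_root {ψ : E × E → ℂ} (hψ : K.IsUnramChar ψ) (hπ : ψ (K.unif, 0) = 1) :
    ∃ z ∈ K.box 0 0, K.n z ≠ 0 ∧ K.ord (K.n z) = 1 ∧ ∀ n : ℤ, n ≠ 0 →
      K.sphSum ψ n = (ψ z + ψ (K.qconj z)) * K.sphSum ψ (n - 1) - K.sphSum ψ (n - 2) := by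
  obtain ⟨hs, hs0⟩ := K.translate_s_unit hr hD hD0 hroot
  obtain ⟨a, ha, hn, hno, hrec⟩ := (K.translate r hr).sphSum_split
    (ψ := fun z => ψ (translEquiv r z)) hs hs0 hroot (K.isUnramChar_translate hr hψ)
    (by simpa [translEquiv] using hπ)
  refine ⟨translEquiv r (a, 1), ?_, ?_, ?_, fun n hne => ?_⟩
  · exact (K.translEquiv_mem hr).mpr
      (LocalBase.mem_box.mpr ⟨K.ball_le (by norm_num) ha, K.one_mem_ball⟩)
  · rwa [← K.translate_n hr]
  · rwa [← K.translate_n hr]
  · have := hrec n hne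
    rw [K.translate_sphSum hr hψ, K.translate_sphSum hr hψ, K.translate_sphSum hr hψ,
      K.translate_qconj hr] at this
    exact this

end LocalForm

end Fermat.Agent.LT.DihedralTheta
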