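import Fermat.Agent.LT.DihedralTheta.Instance.LocalPoly
import Fermat.Agent.LT.DihedralTheta.TypeEUnram
import Fermat.Agent.LT.DihedralTheta.TypeETame

/-!
# The local vectors of the instance with a character of the quadratic algebra

For the spherical vector and for a residue model: the conditions of a good vector, the
equivariance under the units of the quadratic order, and the nonvanishing of the Whittaker
function. For the two models at three: which characters of the units they go with.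
-/

set_option autoImplicit false

open AddSubgroup

namespace Fermat.Agent.LT.DihedralTheta

variable {E : Type*} [Field E] {K : LocalForm E}

/-- A character of the quadratic algebra with scalar part `η`. -/
structure IsQuadChar (K : LocalForm E) (η : E → ℂ) (ψ : E × E → ℂ) : Prop where
  mul : ∀ {w z : E × E}, K.n w ≠ 0 → K.n z ≠ 0 → ψ (K.qmul w z) = ψ w * ψ z
  scal : ∀ {a : E}, a ≠ 0 → ψ (a, 0) = η a
  norm : ∀ {z : E × E}, K.n z ≠ 0 → ‖ψ z‖ = 1
  one_add : ∀ ρ ∈ K.box 1 1, ψ ((1, 0) + ρ) = 1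

/-- Invariance of a vector under the units of the quadratic order, twisted by `ψ`. -/
def IsEquivariant (T : LocalVec K) (ψ : E × E → ℂ) : Prop :=
  ∀ k ∈ K.intGL, ∀ c, K.UnitPt c → ∀ z u, ψ c * T.φ k (K.qmul c z) (u / K.n c) = T.φ k z u

namespace LocalVec

/-- The Whittaker function at `ξ` of valuation `-e` is the lattice function at `(1, 0)`. -/
theorem whit_one_eq {T : LocalVec K} {ψ : E × E → ℂ} (heq : IsEquivariant T ψ)
    (hk0 : 0 ≤ T.k0) {ξ : E} (_hξ : ξ ≠ 0) (hord : K.ord ξ = -T.e) :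
    T.whit ψ 1 ξ = T.φ 1 (1, 0) ξ := by
  classical
  have hη : T.η 1 = 1 := T.eta_one
  have hfl : T.fl 1 = T.φ 1 := by
    rw [T.fl_eq (one_mem _) (g := 1) (a := 1) (β := 0) (d := 1) (ha := one_ne_zero)
      (hd := one_ne_zero) (by rw [show bmat (1 : E) 0 1 one_ne_zero one_ne_zero = 1 by
        ext i j; fin_cases i <;> fin_cases j <;> simp, one_mul])]
    funext z u
    simp [LocalForm.bact, hη, K.absv_unit K.ord_one]
  have hint : T.whitInt ψ 1 ξ =
      fun z => T.φ 1 (1, 0) ξ * K.slice (fun _ => (1 : ℂ)) (K.box 0 0) 0 z := by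
    funext z
    simp only [LocalForm.slice]
    split_ifs with hz
    · rw [mul_one, ← heq 1 (one_mem _) z hz (1, 0) ξ, K.qmul_one, whitInt, hfl]
    · rw [mul_zero]
      by_contra hne
      have h0 := whitInt_ne_zero hne
      rw [whitInt, hfl] at hne
      refine hz ⟨K.box_le hk0 hk0 (T.supp 1 (one_mem _) _ z (right_ne_zero_of_mul hne)), h0.1, ?_⟩
      rw [h0.2.2, hord, show (1 : GL (Fin 2) E).val.det = 1 by simp, K.ord_one]
      ring
  rw [whit, hint, integral_const_mul ⟨_, _, K.isLat_box 1 1, K.isLat_box 0 0,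
    K.slice_per K.isUnramChar_one le_rfl le_rfl 0 zero_le_one zero_le_one le_rfl,
    K.slice_supp _ _ _⟩, ← LocalForm.unitVol_eq, hord,
    show (1 : GL (Fin 2) E).val.det = 1 by simp, K.ord_one, neg_add_cancel, sub_zero, zpow_zero]
  field_simp [K.unitVol_ne]

end LocalVec

/-! ### The spherical vector -/

section spherical

variable {η : E → ℂ} {ε : ℂ} (h : K.IsUnram η ε) {ψ : E × E → ℂ} (hψ : IsQuadChar K η ψ)

include hψ

/-- The spherical vector and an unramified character form good data. -/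
theorem isGoodVec_spherical (hχ : ∀ x, ‖K.χ x‖ = 1) : IsGoodVec (LocalVec.spherical K h) ψ where
  psi_mul := hψ.mul
  psi_scal := hψ.scal
  psi_norm := hψ.norm
  norm_chi := hχ
  smooth := ⟨1, le_rfl, hψ.one_add, fun k _ z u v hv => by
    classical
    obtain ⟨h0, ho⟩ := K.ord_eq_zero_of_sub_one hv
    show K.sphFun z (u * v) = K.sphFun z u
    rcases eq_or_ne u 0 with rfl | hu
    · simp
    simp only [LocalForm.sphFun, ne_eq, mul_eq_zero, hu, h0, or_self, K.ord_mul hu h0, ho,
      add_zero]⟩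
  bounded := ⟨1, fun k _ z u => by
    classical
    show ‖K.sphFun z u‖ ≤ 1
    simp only [LocalForm.sphFun]
    split_ifs <;> simp⟩

omit hψ in
/-- The spherical vector is equivariant for a character trivial on the units. -/
theorem isEquivariant_spherical (hunit : ∀ c, K.UnitPt c → ψ c = 1) :
    IsEquivariant (LocalVec.spherical K h) ψ := by
  intro k _ c hc z u
  classical
  show ψ c * K.sphFun (K.qmul c z) (u / K.n c) = K.sphFun z u
  rw [hunit c hc, one_mul]
  rcases eq_or_ne u 0 with rfl | hu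
  · simp [LocalForm.sphFun]
  simp only [LocalForm.sphFun, hc.qmul_mem_iff, ne_eq, hu, hc.2.1, or_self,
    div_eq_mul_inv, mul_eq_zero, inv_eq_zero, K.ord_mul hu (inv_ne_zero hc.2.1), K.ord_inv hc.2.1, hc.2.2, neg_zero, add_zero]

omit hψ in
/-- The Whittaker function of the spherical vector is not zero. -/
theorem whit_spherical_ne (hunit : ∀ c, K.UnitPt c → ψ c = 1) :
    ∃ g ξ, ξ ≠ 0 ∧ (LocalVec.spherical K h).whit ψ g ξ ≠ 0 := by
  refine ⟨1, K.unif ^ K.cond, zpow_ne_zero _ K.unif_ne_zero, ?_⟩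
  rw [LocalVec.whit_one_eq (isEquivariant_spherical h hunit) (le_refl (0 : ℤ))
    (zpow_ne_zero _ K.unif_ne_zero) (by rw [K.ord_unif_zpow]; exact (neg_neg _).symm)]
  show K.sphFun (1, 0) (K.unif ^ K.cond) ≠ 0
  simp only [LocalForm.sphFun]
  rw [if_pos ⟨LocalForm.UnitPt.n_one.1, zpow_ne_zero _ K.unif_ne_zero, K.ord_unif_zpow _⟩]
  exact one_ne_zero

end spherical

/-! ### Residue models -/

namespace ResModel

variable {η : E → ℂ} (M : ResModel K η) (ε : ℕ) {ψ : E × E → ℂ}

lemma norm_sgnThree_le (r : ZMod 3) : ‖sgnThree r‖ ≤ 1 := by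
  unfold sgnThree
  split_ifs <;> simp

/-- The vector of a residue model and its character form good data. -/
theorem isGoodVec_localVec (hψ : IsQuadChar K η ψ) (hχ : ∀ x, ‖K.χ x‖ = 1) :
    IsGoodVec (M.localVec ε) ψ where
  psi_mul := hψ.mul
  psi_scal := hψ.scal
  psi_norm := hψ.norm
  norm_chi := hχ
  smooth := ⟨1, le_rfl, hψ.one_add, fun k _ z u v hv => by
    classical
    obtain ⟨h0, ho⟩ := K.ord_eq_zero_of_sub_one hv
    show M.phi ε k z (u * v) = M.phi ε k z u
    by_cases hu : u ≠ 0 ∧ K.ord u = K.cond - 1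
    swap
    · have : ¬ (u * v ≠ 0 ∧ K.ord (u * v) = K.cond - 1) := fun ⟨h1, h2⟩ => by
        have hu0 : u ≠ 0 := left_ne_zero_of_mul h1
        rw [K.ord_mul hu0 h0, ho, add_zero] at h2
        exact hu ⟨hu0, h2⟩
      simp only [phi, if_neg hu, if_neg this]
    obtain ⟨hu0, hord⟩ := hu
    have hv1 : K.res v = 1 := LocalBase.res_eq M.q_eq (n := 1) (by simpa using hv)
    have huπ : u * K.unif ^ (1 - K.cond) ∈ K.ball 0 := Or.inr (by
      rw [K.ord_mul hu0 (zpow_ne_zero _ K.unif_ne_zero), hord, K.ord_unif_zpow]; omega)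
    have e1 : K.res (u * v * K.unif ^ (1 - K.cond)) = K.res (u * K.unif ^ (1 - K.cond)) := by
      rw [mul_right_comm, LocalBase.res_mul M.q_eq huπ (Or.inr ho.ge), hv1, mul_one]
    have e2 : ∀ r, K.zetaAt (u * v) r = K.zetaAt u r := fun r => by
      rw [LocalForm.zetaAt_unit M.q_eq hu0 hord ho, hv1, one_mul]
    simp only [phi, hu0, hord, h0, ne_eq, mul_eq_zero, or_self, not_false_eq_true, and_self,
      if_true, K.ord_mul hu0 h0, ho, add_zero, LocalForm.resFun, e1, e2]⟩
  bounded := ⟨∑ r, ‖M.f r‖, fun k _ z u => by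
    show ‖M.phi ε k z u‖ ≤ _
    have hpos : 0 ≤ ∑ r, ‖M.f r‖ := Finset.sum_nonneg fun r _ => norm_nonneg _
    simp only [phi, LocalForm.resFun]
    split_ifs
    · rw [norm_mul, norm_mul, norm_pow]
      refine le_trans (mul_le_of_le_one_left (by positivity)
        (pow_le_one₀ (norm_nonneg _) (norm_sgnThree_le _))) ?_
      rw [show ‖K.zetaAt u _‖ = 1 from hχ _, mul_one]
      exact Finset.single_le_sum (fun r _ => norm_nonneg (M.f r)) (Finset.mem_univ _)
    all_goals simpa using hpos⟩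

/-- What the units must do for equivariance. -/
theorem isEquivariant_localVec
    (hc : ∀ c, K.UnitPt c → ∀ z ∈ K.box 0 0,
      ψ c * sgnThree (K.res (K.n c)) ^ ε * M.f (K.res (K.qmul c z).1, K.res (K.qmul c z).2) =
          M.f (K.res z.1, K.res z.2) ∧
        M.N (K.res (K.qmul c z).1, K.res (K.qmul c z).2) =
          K.res (K.n c) * M.N (K.res z.1, K.res z.2)) :
    IsEquivariant (M.localVec ε) ψ := by
  intro k _ c hcu z u
  classical
  show ψ c * M.phi ε k (K.qmul c z) (u / K.n c) = M.phi ε k z u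
  have hq := M.q_eq
  obtain ⟨hb, h0, ho⟩ := hcu
  by_cases hu : u ≠ 0 ∧ K.ord u = K.cond - 1
  swap
  · have : ¬ (u / K.n c ≠ 0 ∧ K.ord (u / K.n c) = K.cond - 1) := fun ⟨h1, h2⟩ => by
      have hu0 : u ≠ 0 := (div_ne_zero_iff.mp h1).1
      rw [div_eq_mul_inv, K.ord_mul hu0 (inv_ne_zero h0), K.ord_inv h0, ho] at h2
      exact hu ⟨hu0, by simpa using h2⟩
    simp only [phi, if_neg hu, if_neg this, mul_zero]
  obtain ⟨hu0, hord⟩ := hu
  have hinv : K.ord (K.n c)⁻¹ = 0 := by rw [K.ord_inv h0, ho]; rfl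
  have hord' : K.ord (u / K.n c) = K.cond - 1 := by
    rw [div_eq_mul_inv, K.ord_mul hu0 (inv_ne_zero h0), hinv, hord, add_zero]
  have huπ : u * K.unif ^ (1 - K.cond) ∈ K.ball 0 := Or.inr (by
    rw [K.ord_mul hu0 (zpow_ne_zero _ K.unif_ne_zero), hord, K.ord_unif_zpow]; omega)
  have e1 : K.res (u / K.n c * K.unif ^ (1 - K.cond)) =
      K.res (K.n c) * K.res (u * K.unif ^ (1 - K.cond)) := by
    rw [div_eq_mul_inv, mul_right_comm, LocalBase.res_mul hq huπ (Or.inr hinv.ge),
      LocalBase.res_inv hq ho h0, mul_comm]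
  have e2 : ∀ r, K.zetaAt (u / K.n c) r = K.zetaAt u (K.res (K.n c) * r) := fun r => by
    rw [div_eq_mul_inv, LocalForm.zetaAt_unit hq hu0 hord hinv, LocalBase.res_inv hq ho h0]
  simp only [phi, hu0, hord, ne_eq, not_false_eq_true, and_self, if_true, div_eq_zero_iff, h0,
    or_self, hord', LocalForm.resFun]
  rw [LocalForm.UnitPt.qmul_mem_iff ⟨hb, h0, ho⟩]
  split_ifs with hz
  swap
  · simp
  obtain ⟨hf, hN⟩ := hc c ⟨hb, h0, ho⟩ z hz
  rw [e1, e2, hN, ← hf]
  have hsq : K.res (K.n c) * K.res (K.n c) = 1 := by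
    have := LocalBase.res_unit hq ho h0
    generalize K.res (K.n c) = r at this ⊢
    revert r; decide
  have hs : sgnThree (K.res (K.n c) * K.res (u * K.unif ^ (1 - K.cond)) * (K.resMat k).det) =
      sgnThree (K.res (K.n c)) *
        sgnThree (K.res (u * K.unif ^ (1 - K.cond)) * (K.resMat k).det) := by
    rw [mul_assoc, sgnThree_mul]
  rw [hs, mul_pow,
    show K.res (K.n c) * (jThree (K.resMat k) * (K.res (K.n c) * M.N (K.res z.1, K.res z.2))) =
      K.res (K.n c) * K.res (K.n c) * (jThree (K.resMat k) * M.N (K.res z.1, K.res z.2)) by ring,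
    hsq, one_mul]
  ring

/-- The local vector vanishes at the origin when its table does. -/
theorem phi_zero (hf : M.f (0, 0) = 0) (k : GL (Fin 2) E) (u : E) :
    (M.localVec ε).φ k 0 u = 0 := by
  show M.phi ε k 0 u = 0
  simp only [phi, LocalForm.resFun]
  split_ifs <;> simp [LocalBase.res_zero M.q_eq, hf]

end ResModel

/-! ### The two models at three -/

/-- The product of the residue plane, unramified case. -/
def mulU (r s : ZMod 3 × ZMod 3) : ZMod 3 × ZMod 3 :=
  (r.1 * s.1 - r.2 * s.2, r.1 * s.2 + r.2 * s.1)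

/-- The product of the residue plane, ramified case. -/
def mulR (r s : ZMod 3 × ZMod 3) : ZMod 3 × ZMod 3 := (r.1 * s.1, r.1 * s.2 + r.2 * s.1)

lemma tableU_mul (c : ℂ) (hc : c * c = -1) (r s : ZMod 3 × ZMod 3) :
    tableU 1 c (mulU r s) = tableU 1 c r * tableU 1 c s := by
  obtain ⟨a, b⟩ := r
  obtain ⟨x, y⟩ := s
  rcases threeCases a with rfl | rfl | rfl <;> rcases threeCases b with rfl | rfl | rfl <;>
    rcases threeCases x with rfl | rfl | rfl <;> rcases threeCases y with rfl | rfl | rfl <;>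
    simp +decide [tableU, hc]

/-- Reduction of a product to the residue table in the unramified case. -/
lemma res_qmul_unram (hq : K.q = 3) (hs : K.res K.s = 0) (hp : K.res K.p = 1) {w z : E × E}
    (hw : w ∈ K.box 0 0) (hz : z ∈ K.box 0 0) :
    (K.res (K.qmul w z).1, K.res (K.qmul w z).2) =
      mulU (K.res w.1, K.res w.2) (K.res z.1, K.res z.2) := by
  obtain ⟨w1, w2⟩ := LocalBase.mem_box.mp hw
  obtain ⟨z1, z2⟩ := LocalBase.mem_box.mp hz
  have m : ∀ {a b : E}, a ∈ K.ball 0 → b ∈ K.ball 0 → a * b ∈ K.ball 0 := fun ha hb =>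
    K.mul_mem_ball' ha hb (by norm_num)
  simp only [LocalForm.qmul, mulU, LocalBase.res_sub hq, LocalBase.res_add hq,
    LocalBase.res_mul hq, hs, hp, m w1 z1, m (m K.p_mem w2) z2, m w1 z2, m w2 z1,
    add_mem (m w1 z2) (m w2 z1), m (m K.s_mem w2) z2, m K.p_mem w2, m K.s_mem w2,
    K.p_mem, K.s_mem, w1, w2, z1, z2, one_mul, zero_mul, add_zero]

lemma res_qmul_tame (hq : K.q = 3) (hs : K.s = 0) (hp : K.ord K.p = 1) {w z : E × E}
    (hw : w ∈ K.box 0 0) (hz : z ∈ K.box 0 0) :
    (K.res (K.qmul w z).1, K.res (K.qmul w z).2) =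
      mulR (K.res w.1, K.res w.2) (K.res z.1, K.res z.2) := by
  obtain ⟨w1, w2⟩ := LocalBase.mem_box.mp hw
  obtain ⟨z1, z2⟩ := LocalBase.mem_box.mp hz
  have m : ∀ {a b : E}, a ∈ K.ball 0 → b ∈ K.ball 0 → a * b ∈ K.ball 0 := fun ha hb =>
    K.mul_mem_ball' ha hb (by norm_num)
  simp only [LocalForm.qmul, mulR, hs, LocalBase.res_sub hq, LocalBase.res_add hq,
    LocalBase.res_mul hq, K.res_p hq hp, m w1 z1, m (m K.p_mem w2) z2, m w1 z2, m w2 z1,
    m K.p_mem w2, K.p_mem, w1, w2, z1, z2, zero_mul, sub_zero, add_zero]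

/-- The unramified model goes with a character having a square root of `-1` at `1 + i`. -/
theorem equivariant_unram (hq : K.q = 3) (hs : K.res K.s = 0) (hp : K.res K.p = 1) {η : E → ℂ}
    (hη : ∀ a : E, a ≠ 0 → η a = (-1 : ℂ) ^ K.ord a) {ψ : E × E → ℂ} (ε : ℕ)
    (hψ : IsQuadChar K η ψ) {c₀ : E × E} (hc₀ : K.UnitPt c₀)
    (hres : (K.res c₀.1, K.res c₀.2) = (1, 1)) (hsq : ψ c₀ * ψ c₀ = -1) :
    IsEquivariant ((ResModel.unram hq hs hp hη 1 ((ψ c₀)⁻¹ * (-1) ^ ε)).localVec ε) ψ := by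
  set cst := (ψ c₀)⁻¹ * (-1 : ℂ) ^ ε
  have h1 : ((-1 : ℂ) ^ ε) * (-1) ^ ε = 1 := by rw [← mul_pow]; norm_num
  have h00 : ψ c₀ ≠ 0 := fun h => by simp [h] at hsq
  have hcst : cst * cst = -1 := by
    simp only [cst]
    field_simp
    linear_combination hsq + h1
  set R : E × E → ZMod 3 × ZMod 3 := fun c => (K.res c.1, K.res c.2)
  set Ψ : E × E → ℂ := fun c => ψ c * sgnThree (normU (R c)) ^ ε
  have hΨ : ∀ c d, K.UnitPt c → K.UnitPt d → Ψ (K.qmul c d) = Ψ c * Ψ d := by
    intro c d hc hd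
    simp only [Ψ, R]
    rw [res_qmul_unram hq hs hp hc.1 hd.1, hψ.mul hc.2.1 hd.2.1,
      show normU (mulU (K.res c.1, K.res c.2) (K.res d.1, K.res d.2)) =
        normU (K.res c.1, K.res c.2) * normU (K.res d.1, K.res d.2) by
          simp only [normU, mulU]; ring,
      sgnThree_mul, mul_pow]
    ring
  have hkey : ∀ k : ℕ, ∀ c, K.UnitPt c → R c = (mulU (1, 1))^[k] (1, 0) →
      Ψ c * tableU 1 cst (R c) = 1 := by
    intro k
    induction k with
    | zero =>
      intro c hc hR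
      simp only [Function.iterate_zero, id_eq] at hR
      obtain ⟨c1, c2⟩ := LocalBase.mem_box.mp hc.1
      have hρ : c - (1, 0) ∈ K.box 1 1 := by
        simp only [R, Prod.mk.injEq] at hR
        refine LocalBase.mem_box.mpr ⟨?_, ?_⟩
        · rw [Prod.fst_sub, ← LocalBase.res_eq_zero_iff hq (sub_mem c1 K.one_mem_ball),
            LocalBase.res_sub hq c1 K.one_mem_ball, LocalBase.res_one hq, hR.1, sub_self]
        · rw [Prod.snd_sub, ← LocalBase.res_eq_zero_iff hq (sub_mem c2 (zero_mem _)),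
            LocalBase.res_sub hq c2 (zero_mem _), LocalBase.res_zero hq, hR.2, sub_self]
      have := hψ.one_add _ hρ
      rw [add_sub_cancel] at this
      simp +decide [Ψ, hR, this, normU, tableU, sgnThree]
    | succ k ih =>
      intro c hc hR
      obtain ⟨c', hc', e⟩ := hc₀.qmul_qmul_inv c
      have hu : K.UnitPt (K.qmul c' c) := hc'.mul hc
      have hR2 : R c = mulU (1, 1) (R (K.qmul c' c)) := by
        have := res_qmul_unram hq hs hp hc₀.1 hu.1
        rw [e, hres] at this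
        exact this
      have hinj : ∀ r s : ZMod 3 × ZMod 3, mulU (1, 1) r = mulU (1, 1) s → r = s := by decide
      have h3 := ih _ hu (hinj _ _ (by
        rw [← hR2, hR, Function.iterate_succ', Function.comp_apply]))
      rw [← e, hΨ _ _ hc₀ hu, e, hR2, tableU_mul cst hcst]
      have h4 : Ψ c₀ * tableU 1 cst (1, 1) = 1 := by
        obtain ⟨r1, r2⟩ := Prod.mk.injEq _ _ _ _ ▸ hres
        simp +decide [Ψ, R, r1, r2, normU, tableU, sgnThree, cst]
        field_simp
        linear_combination h1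
      linear_combination (Ψ (K.qmul c' c) * tableU 1 cst (R (K.qmul c' c))) * h4 + h3
  refine ResModel.isEquivariant_localVec _ _ fun c hc z hz => ?_
  have hn : K.res (K.n c) = normU (R c) := K.res_n hq hs hp hc.1
  have hgen : ∀ r : ZMod 3 × ZMod 3, normU r ≠ 0 →
      ∃ k : Fin 8, r = (mulU (1, 1))^[(k : ℕ)] (1, 0) := by decide
  obtain ⟨k, hk⟩ := hgen (R c) (by rw [← hn]; exact LocalBase.res_unit hq hc.2.2 hc.2.1)
  have hf := hkey k c hc hk
  show ψ c * sgnThree (K.res (K.n c)) ^ ε *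
      tableU 1 cst (K.res (K.qmul c z).1, K.res (K.qmul c z).2) =
        tableU 1 cst (K.res z.1, K.res z.2) ∧
      normU (K.res (K.qmul c z).1, K.res (K.qmul c z).2) =
        K.res (K.n c) * normU (K.res z.1, K.res z.2)
  rw [res_qmul_unram hq hs hp hc.1 hz, hn, tableU_mul cst hcst]
  refine ⟨?_, by simp only [R, normU, mulU]; ring⟩
  simp only [Ψ, R] at hf ⊢
  linear_combination tableU 1 cst (K.res z.1, K.res z.2) * hf

/-- The tame model goes with a character equal to the sign of the first residue on units. -/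
theorem equivariant_tame (hq : K.q = 3) (hs : K.s = 0) (hp0 : K.p ≠ 0) (hp : K.ord K.p = 1)
    {η : E → ℂ} (η_mul : ∀ {a b : E}, a ≠ 0 → b ≠ 0 → η (a * b) = η a * η b)
    (η_sq : ∀ {a : E}, a ≠ 0 → η a * η a = 1) (hηp : η K.p = 1)
    (hη : ∀ a : E, a ≠ 0 → K.ord a = 0 → η a = sgnThree (K.res a)) {ψ : E × E → ℂ} (ε : ℕ)
    (hψ : ∀ c, K.UnitPt c → ψ c = sgnThree (K.res c.1)) :
    IsEquivariant
      ((ResModel.tame hq hs hp0 hp @η_mul @η_sq hηp hη 1).localVec ε) ψ := by
  refine ResModel.isEquivariant_localVec _ _ fun c hc z hz => ?_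
  show ψ c * sgnThree (K.res (K.n c)) ^ ε *
      tableR 1 (K.res (K.qmul c z).1, K.res (K.qmul c z).2) = tableR 1 (K.res z.1, K.res z.2) ∧
      normR (K.res (K.qmul c z).1, K.res (K.qmul c z).2) =
        K.res (K.n c) * normR (K.res z.1, K.res z.2)
  have hn : K.res (K.n c) = normR (K.res c.1, K.res c.2) := K.res_n_tame hq hs hp hc.1
  have hne : K.res c.1 ≠ 0 := by
    have := LocalBase.res_unit hq hc.2.2 hc.2.1
    rw [hn] at this
    exact fun h => this (by simp [normR, h])
  rw [hψ c hc, res_qmul_tame hq hs hp hc.1 hz, hn]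
  simp only [tableR, normR, mulR]
  refine ⟨?_, by ring⟩
  have h1 : K.res c.1 ^ 2 = 1 := by
    generalize K.res c.1 = r at hne
    revert r; decide
  rw [h1, sgnThree_one, one_pow, mul_one, sgnThree_mul, one_mul, ← mul_assoc, sgnThree_sq hne]

end Fermat.Agent.LT.DihedralTheta
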