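import Fermat.Agent.LT.DihedralTheta.Instance.Away
import Fermat.Agent.LT.DihedralTheta.Instance.Level
import Fermat.Agent.LT.DihedralTheta.Instance.LocalVecs
import Fermat.Agent.LT.Descent.Levels

/-!
# The theta data of the instance

Spherical data off three and residue models at three form theta data on the cubic field, whose
vectors are fixed by the level of `levelI`.
-/

set_option autoImplicit false

noncomputable section

open IsDedekindDomain NumberField
open Fermat.Agent.GaloisBasics
open Fermat.Agent.LT.Final (GF3)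
open Fermat.Agent.LT.GaloisData
open Fermat.Agent.LT.Places

namespace Fermat.Agent.LT.DihedralTheta

variable {ρ : GalQ →* GF3} [NumberField (cubicField ρ)] [NumberField (quarticField ρ)]
  (hρ : IsSupersingularRep ρ) (X : IdeleCharData hρ) (e : Fin 2)

include hρ

/-- The datum at a place over three has a residue model. -/
structure IsThreeDatum {v : FinPlace (cubicField ρ)}
    (P : PlaceDatum (thetaS hρ) (thetaP hρ) v) : Prop where
  psi_eq : P.psi = genPsi v P.α P.β X
  model : ∃ (η : v.adicCompletion (cubicField ρ) → ℂ) (M : ResModel P.form η),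
    P.vec = M.localVec e ∧ (∀ r, M.f r ≠ 0 → M.N r ≠ 0) ∧ M.f (1, 0) ≠ 0 ∧ M.f (0, 0) = 0

/-- The data at all places. -/
structure IsInstance (place : ∀ v, PlaceDatum (thetaS hρ) (thetaP hρ) v) : Prop where
  three : ∀ v : FinPlace (cubicField ρ), (3 : 𝓞 (cubicField ρ)) ∈ v.asIdeal →
    IsThreeDatum hρ X e (place v)
  away : ∀ v : FinPlace (cubicField ρ), (3 : 𝓞 (cubicField ρ)) ∉ v.asIdeal →
    IsSphericalDatum hρ X (place v)
  std : ∀ v, v ∉ exceptional hρ → (place v).IsStd

omit hρ [NumberField (quarticField ρ)] in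
/-- There is a place of `L` over three. -/
theorem exists_three_mem : ∃ v : FinPlace (cubicField ρ), (3 : 𝓞 (cubicField ρ)) ∈ v.asIdeal := by
  obtain ⟨m, hm, hle⟩ := Ideal.exists_le_maximal (Ideal.span {(3 : 𝓞 (cubicField ρ))}) (by
    rw [Ne, Ideal.span_singleton_eq_top]
    intro hu
    have h := hu.map (Algebra.norm ℤ)
    rw [show (3 : 𝓞 (cubicField ρ)) = algebraMap ℤ (𝓞 (cubicField ρ)) 3 by simp,
      Algebra.norm_algebraMap] at h
    rcases Int.isUnit_iff.mp h with h | h
    · have h' : (3 : ℤ) = 1 := (pow_eq_one_iff_of_nonneg (by norm_num) Module.finrank_pos.ne').mp h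
      omega
    · exact absurd h (ne_of_gt (lt_trans (by norm_num) (pow_pos (by norm_num) _))))
  have h3 := (Ideal.span_singleton_le_iff_mem _).mp hle
  exact ⟨⟨m, hm.isPrime, fun h => by simp [h] at h3⟩, h3⟩

variable {hρ X e} {place : ∀ v, PlaceDatum (thetaS hρ) (thetaP hρ) v}

/-- The theta data. -/
def IsInstance.toData (h : IsInstance hρ X e place) : ThetaData (cubicField ρ) where
  s := thetaS hρ
  p := thetaP hρ
  aniso := theta_aniso hρ
  place := place
  almost_std := (finite_exceptional hρ).subset fun v hv => by_contra fun hc => hv (h.std v hc)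
  v₀ := (exists_three_mem (ρ := ρ)).choose
  vanish_zero k _ u := by
    obtain ⟨η, M, hvec, -, -, h0⟩ := (h.three _ (exists_three_mem (ρ := ρ)).choose_spec).model
    rw [hvec]
    exact M.phi_zero e h0 k u
  psi_global x hx := by
    have hpsi : ∀ v, (place v).psi = genPsi v (place v).α (place v).β X := fun v => by
      by_cases h3 : (3 : 𝓞 (cubicField ρ)) ∈ v.asIdeal
      · exact (h.three v h3).psi_eq
      · exact (h.away v h3).psi_eq
    rw [finprod_congr fun v => congrFun (hpsi v) _]
    exact finprod_psi_eq_one hρ X (fun v => (place v).α) (fun v => (place v).β)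
      (fun v => (place v).β_ne) hx

/-- **The level fixes the vectors.** -/
theorem IsInstance.isLevel (h : IsInstance hρ X e place) :
    h.toData.IsLevel (Level.ofIdeal (cubicField ρ) (Descent.levelI hρ)
      (Descent.exists_mem_levelI hρ)) := by
  refine ThetaData.isLevel_ofIdeal _ fun v => ?_
  show intGroup v ≤ (place v).vec.U ∨ _ ∧ ∃ hq, LocalBase.congrThree hq ≤ (place v).vec.U
  by_cases h3 : (3 : 𝓞 (cubicField ρ)) ∈ v.asIdeal
  · obtain ⟨η, M, hvec, -⟩ := (h.three v h3).model
    refine Or.inr ⟨(Descent.levelI_le_iff hρ v).mpr (Or.inr ((Descent.mem_placesThree hρ).mpr h3)),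
      M.q_eq, ?_⟩
    rw [hvec]
    exact le_refl (LocalBase.congrThree M.q_eq)
  · obtain ⟨η, ε, hu, hvec⟩ := (h.away v h3).spherical
    refine Or.inl ?_
    rw [hvec, ← intGL_eq_intGroup]
    exact le_refl _

variable (hρ X e) in
/-- **The instance exists**, given data at the places over three. -/
theorem exists_isInstance
    (hthree : ∀ v : FinPlace (cubicField ρ), (3 : 𝓞 (cubicField ρ)) ∈ v.asIdeal →
      ∃ P : PlaceDatum (thetaS hρ) (thetaP hρ) v, IsThreeDatum hρ X e P) :
    ∃ place, IsInstance hρ X e place := by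
  have h : ∀ v : FinPlace (cubicField ρ), ∃ P : PlaceDatum (thetaS hρ) (thetaP hρ) v,
      ((3 : 𝓞 (cubicField ρ)) ∈ v.asIdeal → IsThreeDatum hρ X e P) ∧
      ((3 : 𝓞 (cubicField ρ)) ∉ v.asIdeal → IsSphericalDatum hρ X P) ∧
      (v ∉ exceptional hρ → P.IsStd) := fun v => by
    by_cases h3 : (3 : 𝓞 (cubicField ρ)) ∈ v.asIdeal
    · obtain ⟨P, hP⟩ := hthree v h3
      exact ⟨P, fun _ => hP, fun h => absurd h3 h,
        fun h => absurd (by simp [exceptional, h3]) h⟩
    · obtain ⟨P, hP, hstd⟩ := exists_datum_away hρ X h3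
      exact ⟨P, fun h => absurd h h3, fun _ => hP, hstd⟩
  choose place h1 h2 h4 using h
  exact ⟨place, h1, h2, h4⟩

end Fermat.Agent.LT.DihedralTheta

end
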