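import Fermat.Agent.LT.DihedralTheta.IdelePsi
import Fermat.Agent.LT.DihedralTheta.Instance.Places
import Fermat.Agent.LT.DihedralTheta.Instance.LocalVecs
import Fermat.Agent.LT.DihedralTheta.TorusBasic

/-!
# The local character of the instance in a chosen basis

For a generator `genElt α β` integral at `v` the character `genPsi` is a character of the local
quadratic algebra, inverted by the conjugation; `genEta` is its scalar part.
-/

set_option autoImplicit false

noncomputable section

open IsDedekindDomain NumberField WithZero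
open Fermat.Agent.GaloisBasics
open Fermat.Agent.LT.Final (GF3)
open Fermat.Agent.LT.GaloisData
open Fermat.Agent.LT.Places

namespace Fermat.Agent.LT.DihedralTheta

variable {ρ : GalQ →* GF3} [NumberField (cubicField ρ)] [NumberField (quarticField ρ)]
  (hρ : IsSupersingularRep ρ)

include hρ

/-- Coordinates of a generator integral at `v`. -/
structure GenAt (v : FinPlace (cubicField ρ)) (α β : cubicField ρ) : Prop where
  beta_ne : β ≠ 0
  trace_le : Valued.v (cmp v (2 * α + thetaS hρ * β)) ≤ 1
  norm_le : Valued.v (cmp v (normForm (thetaS hρ) (thetaP hρ) (α, β))) ≤ 1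

/-- The generator `α + β θ`. -/
def genElt (α β : cubicField ρ) : quarticField ρ := inclM ρ α + inclM ρ β * theta hρ

variable {hρ} {v : FinPlace (cubicField ρ)} {α β : cubicField ρ}

/-- The local form of a generator. -/
abbrev GenAt.form (G : GenAt hρ v α β) : LocalForm (v.adicCompletion (cubicField ρ)) :=
  placeForm v (cmp v (2 * α + thetaS hρ * β))
    (cmp v (normForm (thetaS hρ) (thetaP hρ) (α, β))) G.trace_le G.norm_le

omit [NumberField ↥(cubicField ρ)] [NumberField ↥(quarticField ρ)] in
/-- The quadratic equation of the generator. -/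
theorem genElt_sq (α β : cubicField ρ) :
    genElt hρ α β ^ 2 = inclM ρ (2 * α + thetaS hρ * β) * genElt hρ α β -
      inclM ρ (normForm (thetaS hρ) (thetaP hρ) (α, β)) := sq_gen hρ α β

/-- The generator is integral at the places over `v`. -/
theorem GenAt.valuation_genElt_le (G : GenAt hρ v α β) {w : FinPlace (quarticField ρ)}
    (hw : comapPlace (inclM ρ) w = v) : w.valuation (quarticField ρ) (genElt hρ α β) ≤ 1 := by
  by_contra hlt
  rw [not_le] at hlt
  set X := w.valuation (quarticField ρ) (genElt hρ α β)
  have hs := (valuation_inclM_le_one_iff hw (2 * α + thetaS hρ * β)).mpr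
    ((torus_valued_cmp v _).symm.trans_le G.trace_le)
  have hp := (valuation_inclM_le_one_iff hw _).mpr
    ((torus_valued_cmp v _).symm.trans_le G.norm_le)
  have h1 : X ^ 2 ≤ X := by
    rw [← map_pow, genElt_sq]
    refine (Valuation.map_sub _ _ _).trans (max_le ?_ (hp.trans hlt.le))
    rw [map_mul]
    exact mul_le_of_le_one_left' hs
  rw [sq] at h1
  exact absurd h1 (not_le.mpr (lt_mul_of_one_lt_right (zero_lt_one.trans hlt) hlt))

/-- The adele of a pair, outside and above `v`. -/
theorem toPlace_aboveAdele {w : FinPlace (quarticField ρ)}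
    (z : v.adicCompletion (cubicField ρ) × v.adicCompletion (cubicField ρ))
    (hw : comapPlace (inclM ρ) w = v) :
    toPlace w (aboveAdele (inclM ρ) (genElt hρ α β) v z) =
      toPlace w (aboveElt (inclM ρ) (genElt hρ α β) v z) := by
  rw [aboveAdele, map_add, map_sub, map_one, toPlace_aboveIdem_same _ hw, sub_self, zero_add]

/-- The adele of a pair is `1` at the places not over `v`. -/
theorem toPlace_aboveAdele_out {w : FinPlace (quarticField ρ)}
    (z : v.adicCompletion (cubicField ρ) × v.adicCompletion (cubicField ρ))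
    (hw : comapPlace (inclM ρ) w ≠ v) :
    toPlace w (aboveAdele (inclM ρ) (genElt hρ α β) v z) = 1 := by
  rw [aboveAdele, ← aboveIdem_mul_elt, map_add, map_sub, map_mul, toPlace_aboveIdem_ne _ hw,
    zero_mul, sub_zero, add_zero, map_one]

/-- Integral pairs give integral elements at the places over `v`. -/
theorem GenAt.placeVal_elt_le (G : GenAt hρ v α β) {w : FinPlace (quarticField ρ)}
    (hw : comapPlace (inclM ρ) w = v)
    {z : v.adicCompletion (cubicField ρ) × v.adicCompletion (cubicField ρ)}
    (hz : z ∈ G.form.box 0 0) :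
    placeVal w (aboveElt (inclM ρ) (genElt hρ α β) v z) ≤ 1 := by
  obtain ⟨e, he, hval⟩ := exists_pow_valuation (inclM ρ) w
  obtain ⟨h1, h2⟩ := LocalBase.mem_box.mp hz
  have hy : ∀ a : v.adicCompletion (cubicField ρ), a ∈ (placeBase v).ball 0 →
      placeVal w (finExtend (inclM ρ) (single v a)) ≤ 1 := fun a ha => by
    rw [placeVal_finExtend he hval, hw, placeVal, toPlace_single_same]
    exact pow_le_one₀ zero_le (mem_placeBall_zero.mp ha)
  refine (placeVal_add_le w _ _).trans (max_le (hy _ h1) ?_)
  rw [placeVal_mul, placeVal_finIncl]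
  exact mul_le_one' (hy _ h2) (G.valuation_genElt_le hw)

/-- Pairs in the maximal box give nonunits at the places over `v`. -/
theorem GenAt.placeVal_elt_lt (G : GenAt hρ v α β) {w : FinPlace (quarticField ρ)}
    (hw : comapPlace (inclM ρ) w = v)
    {z : v.adicCompletion (cubicField ρ) × v.adicCompletion (cubicField ρ)}
    (hz : z ∈ G.form.box 1 1) :
    placeVal w (aboveElt (inclM ρ) (genElt hρ α β) v z) < 1 := by
  obtain ⟨e, he, hval⟩ := exists_pow_valuation (inclM ρ) w
  obtain ⟨h1, h2⟩ := LocalBase.mem_box.mp hz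
  have hy : ∀ a : v.adicCompletion (cubicField ρ), a ∈ (placeBase v).ball 1 →
      placeVal w (finExtend (inclM ρ) (single v a)) < 1 := fun a ha => by
    rw [placeVal_finExtend he hval, hw, placeVal, toPlace_single_same]
    refine pow_lt_one₀ zero_le ((mem_placeBall.mp ha).trans_lt ?_) he
    rw [← exp_zero, exp_lt_exp]; norm_num
  refine (placeVal_add_le w _ _).trans_lt (max_lt (hy _ h1) ?_)
  rw [placeVal_mul, placeVal_finIncl]
  exact mul_lt_one_of_nonneg_of_lt_one_left zero_le (hy _ h2) (G.valuation_genElt_le hw)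

/-- The adele of a unit pair is a unit everywhere. -/
theorem GenAt.placeVal_adele_unit (G : GenAt hρ v α β)
    {c : v.adicCompletion (cubicField ρ) × v.adicCompletion (cubicField ρ)}
    (hc : G.form.UnitPt c) (w : FinPlace (quarticField ρ)) :
    placeVal w (aboveAdele (inclM ρ) (genElt hρ α β) v c) = 1 := by
  by_cases hw : comapPlace (inclM ρ) w = v
  swap
  · rw [placeVal, toPlace_aboveAdele_out c hw, map_one]
  obtain ⟨c', hc', e, -⟩ := hc.exists_inv
  have hle : ∀ d, G.form.UnitPt d →
      placeVal w (aboveAdele (inclM ρ) (genElt hρ α β) v d) ≤ 1 := fun d hd => by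
    rw [placeVal, toPlace_aboveAdele d hw]
    exact G.placeVal_elt_le hw hd.1
  have h1 : placeVal w (aboveAdele (inclM ρ) (genElt hρ α β) v c) *
      placeVal w (aboveAdele (inclM ρ) (genElt hρ α β) v c') = 1 := by
    rw [← placeVal_mul, ← aboveAdele_gmul (genElt_sq α β)]
    exact (congrArg (fun z => placeVal w (aboveAdele (inclM ρ) (genElt hρ α β) v z))
      (show gmul _ _ c c' = _ from e)).trans (by rw [aboveAdele_one, placeVal_one])
  exact le_antisymm (hle c hc) (h1.symm.trans_le (mul_le_of_le_one_right' (hle c' hc')))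

variable (X : IdeleCharData hρ) (v α β)

/-- The local character. -/
def genPsi : v.adicCompletion (cubicField ρ) × v.adicCompletion (cubicField ρ) → ℂ :=
  idelePsi (inclM ρ) (genElt hρ α β) X.ξ v

/-- The scalar part of the local character. -/
def genEta (a : v.adicCompletion (cubicField ρ)) : ℂ :=
  genPsi v 0 1 X (a, 0)

variable {v α β} {X}

/-- On scalars the local character does not depend on the generator. -/
theorem genPsi_scalar (a : v.adicCompletion (cubicField ρ)) :
    genPsi v α β X (a, 0) = genEta v X a := by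
  simp only [genEta, genPsi, idelePsi, aboveAdele, aboveElt_scalar]

variable (X)

/-- Units congruent above three have the same value. -/
theorem xi_congr {u u' : (FinAdele (quarticField ρ))ˣ}
    (h : ∀ w, placeVal w (u : FinAdele (quarticField ρ)) = 1)
    (h' : ∀ w, placeVal w (u' : FinAdele (quarticField ρ)) = 1)
    (hc : ∀ w : FinPlace (quarticField ρ), (3 : 𝓞 (quarticField ρ)) ∈ w.asIdeal →
      placeVal w ((u : FinAdele (quarticField ρ)) - u') < 1) : X.ξ u = X.ξ u' := by
  have : X.ξ (u'⁻¹ * u) = 1 := by
    refine X.unit_trivial _ (fun w => ?_) fun w hw => ?_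
    · rw [Units.val_mul, placeVal_mul, placeVal_units_inv, h, h', inv_one, one_mul]
    · rw [Units.val_mul, show ((u'⁻¹ : (FinAdele (quarticField ρ))ˣ) :
          FinAdele (quarticField ρ)) * u - 1 =
          ((u'⁻¹ : (FinAdele (quarticField ρ))ˣ) : FinAdele (quarticField ρ)) * (u - u') by
        rw [mul_sub, ← Units.val_mul, ← Units.val_mul, inv_mul_cancel, Units.val_one],
        placeVal_mul, placeVal_units_inv, h', inv_one, one_mul]
      exact hc w hw
  rwa [map_mul, map_inv, inv_mul_eq_one, eq_comm] at this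

/-- `genPsi` is multiplicative on pairs of nonzero norm. -/
theorem GenAt.genPsi_mul (G : GenAt hρ v α β)
    {w z : v.adicCompletion (cubicField ρ) × v.adicCompletion (cubicField ρ)}
    (hw : G.form.n w ≠ 0) (hz : G.form.n z ≠ 0) :
    genPsi v α β X (G.form.qmul w z) = genPsi v α β X w * genPsi v α β X z :=
  idelePsi_gmul (genElt_sq α β) v hw hz

theorem GenAt.norm_genPsi (G : GenAt hρ v α β)
    {z : v.adicCompletion (cubicField ρ) × v.adicCompletion (cubicField ρ)}
    (hz : G.form.n z ≠ 0) : ‖genPsi v α β X z‖ = 1 :=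
  norm_idelePsi (genElt_sq α β) four_ne_zero X.pow_four hz

theorem GenAt.genPsi_ne_zero (G : GenAt hρ v α β)
    {z : v.adicCompletion (cubicField ρ) × v.adicCompletion (cubicField ρ)}
    (hz : G.form.n z ≠ 0) : genPsi v α β X z ≠ 0 := fun h => by
  have := G.norm_genPsi X hz
  rw [h, norm_zero] at this
  exact zero_ne_one this

/-- The value at a unit pair from a congruent unit idele. -/
theorem GenAt.genPsi_eq_xi (G : GenAt hρ v α β)
    {c : v.adicCompletion (cubicField ρ) × v.adicCompletion (cubicField ρ)}
    (hc : G.form.UnitPt c) {u : (FinAdele (quarticField ρ))ˣ}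
    (hu : ∀ w, placeVal w (u : FinAdele (quarticField ρ)) = 1)
    (hcong : ∀ w : FinPlace (quarticField ρ), (3 : 𝓞 (quarticField ρ)) ∈ w.asIdeal →
      placeVal w (aboveAdele (inclM ρ) (genElt hρ α β) v c - u) < 1) :
    genPsi v α β X c = (X.ξ u : ℂ) := by
  obtain ⟨t, ht⟩ := isUnit_aboveAdele (genElt_sq (hρ := hρ) α β) (z := c) hc.2.1
  rw [genPsi, idelePsi, ← ht, extendChar_coe, xi_congr X (fun w => ?_) hu fun w hw => ?_]
  · rw [ht]; exact G.placeVal_adele_unit hc w
  · rw [ht]; exact hcong w hw

/-- Units congruent to one above three have value one. -/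
theorem GenAt.genPsi_eq_one (G : GenAt hρ v α β)
    {c : v.adicCompletion (cubicField ρ) × v.adicCompletion (cubicField ρ)}
    (hc : G.form.UnitPt c)
    (hcong : ∀ w : FinPlace (quarticField ρ), (3 : 𝓞 (quarticField ρ)) ∈ w.asIdeal →
      comapPlace (inclM ρ) w = v →
      placeVal w (aboveElt (inclM ρ) (genElt hρ α β) v c - 1) < 1) :
    genPsi v α β X c = 1 := by
  rw [G.genPsi_eq_xi X hc (u := 1) (fun w => by rw [Units.val_one, placeVal_one]) fun w hw => ?_,
    map_one, Units.val_one]
  by_cases h : comapPlace (inclM ρ) w = v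
  · have := hcong w hw h
    rw [placeVal, map_sub, Units.val_one, map_one] at *
    rwa [toPlace_aboveAdele c h]
  · rw [placeVal, map_sub, Units.val_one, map_one, toPlace_aboveAdele_out c h, sub_self, map_zero]
    exact zero_lt_one

omit hρ [NumberField ↥(quarticField ρ)] in
/-- A place divides `3` iff the place below it does. -/
theorem comapPlace_three {w : FinPlace (quarticField ρ)}
    (h : comapPlace (inclM ρ) w = v) :
    (3 : 𝓞 (quarticField ρ)) ∈ w.asIdeal ↔ (3 : 𝓞 (cubicField ρ)) ∈ v.asIdeal := by
  rw [← h, mem_comapPlace, map_ofNat]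

/-- Off three `genPsi` is an unramified character. -/
theorem GenAt.isUnramChar (G : GenAt hρ v α β) (h3 : (3 : 𝓞 (cubicField ρ)) ∉ v.asIdeal) :
    G.form.IsUnramChar (genPsi v α β X) where
  mul := G.genPsi_mul X
  unit _ hz h0 ho := G.genPsi_eq_one X ⟨hz, h0, ho⟩ fun _ hw h =>
    absurd ((comapPlace_three h).mp hw) h3

/-- `genPsi` is a character of the local quadratic algebra restricting to `genEta`. -/
theorem GenAt.isQuadChar (G : GenAt hρ v α β) :
    IsQuadChar G.form (genEta v X) (genPsi v α β X) where
  mul := G.genPsi_mul X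
  scal _ := genPsi_scalar _
  norm := G.norm_genPsi X
  one_add r hr := by
    refine G.genPsi_eq_one X (LocalForm.unitPt_one_add hr) fun w _ h => ?_
    have e : aboveElt (inclM ρ) (genElt hρ α β) v ((1, 0) + r) =
        aboveIdem (inclM ρ) v + aboveElt (inclM ρ) (genElt hρ α β) v r := by
      simp only [aboveElt, Prod.fst_add, Prod.snd_add, zero_add, map_add, aboveIdem, idem]
      ring
    rw [e, placeVal, map_sub, map_add, map_one, toPlace_aboveIdem_same _ h, add_sub_cancel_left]
    exact G.placeVal_elt_lt h hr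

omit [NumberField (cubicField ρ)] [NumberField (quarticField ρ)] in
theorem finExtend_conj (a : FinAdele (cubicField ρ)) :
    finMap (quartAut hρ : quarticField ρ →+* quarticField ρ) (finExtend (inclM ρ) a) =
      finExtend (inclM ρ) a := by
  induction a using TensorProduct.induction_on with
  | zero => simp
  | tmul a z =>
    rw [finExtend_tmul, finMap_tmul]
    congr 1
    exact quartAut_inclM hρ a
  | add a b ha hb => simp only [map_add, ha, hb]

omit [NumberField ↥(quarticField ρ)] in
/-- Conjugation of pairs corresponds to conjugation of adeles. -/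
theorem GenAt.aboveAdele_qconj (G : GenAt hρ v α β)
    (z : v.adicCompletion (cubicField ρ) × v.adicCompletion (cubicField ρ)) :
    aboveAdele (inclM ρ) (genElt hρ α β) v (G.form.qconj z) =
      finMap (quartAut hρ : quarticField ρ →+* quarticField ρ)
        (aboveAdele (inclM ρ) (genElt hρ α β) v z) := by
  show aboveAdele (inclM ρ) _ v
    (z.1 + cmp v (2 * α + thetaS hρ * β) * z.2, -z.2) = _
  simp only [aboveAdele, aboveElt, aboveIdem]
  rw [map_add (single v), single_cmp_mul, map_neg (single v)]
  simp only [map_add (finExtend (inclM ρ)), map_mul (finExtend (inclM ρ)), map_neg, map_add,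
    map_sub, map_one, map_mul (finMap (quartAut hρ : quarticField ρ →+* quarticField ρ)),
    finExtend_conj, finMap_finIncl, finExtend_finIncl]
  rw [show ((quartAut hρ : quarticField ρ →+* quarticField ρ) (genElt hρ α β)) =
    inclM ρ (2 * α + thetaS hρ * β) - genElt hρ α β from quartAut_gen hρ α β]
  simp only [map_sub, map_add]
  ring

/-- Conjugation inverts `genPsi`. -/
theorem GenAt.genPsi_qconj (G : GenAt hρ v α β)
    {z : v.adicCompletion (cubicField ρ) × v.adicCompletion (cubicField ρ)}
    (hz : G.form.n z ≠ 0) :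
    genPsi v α β X (G.form.qconj z) = (genPsi v α β X z)⁻¹ := by
  obtain ⟨u, hu⟩ := isUnit_aboveAdele (v := v) (genElt_sq (hρ := hρ) α β) (z := z) hz
  rw [genPsi, idelePsi, idelePsi, G.aboveAdele_qconj, ← hu, extendChar_coe,
    show finMap (quartAut hρ : quarticField ρ →+* quarticField ρ) (u : FinAdele (quarticField ρ)) =
      ((Units.map (finMap (quartAut hρ : quarticField ρ →+* quarticField ρ)).toRingHom.toMonoidHom u
        : (FinAdele (quarticField ρ))ˣ) : FinAdele (quarticField ρ)) from rfl,
    extendChar_coe, X.conj_inv, Units.val_inv_eq_inv_val]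

/-- `genEta` is trivial on norms. -/
theorem GenAt.eta_norm (G : GenAt hρ v α β)
    {z : v.adicCompletion (cubicField ρ) × v.adicCompletion (cubicField ρ)}
    (hz : G.form.n z ≠ 0) : genEta v X (G.form.n z) = 1 := by
  have hc : G.form.n (G.form.qconj z) = G.form.n z := G.form.torus_n_qconj z
  rw [← genPsi_scalar (α := α) (β := β), ← G.form.qmul_qconj,
    G.genPsi_mul X hz (hc.symm ▸ hz), G.genPsi_qconj X hz, mul_inv_cancel₀ (G.genPsi_ne_zero X hz)]

/-- The scalar character `genEta` is multiplicative. -/
theorem GenAt.genEta_mul (G : GenAt hρ v α β) {a b : v.adicCompletion (cubicField ρ)}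
    (ha : a ≠ 0) (hb : b ≠ 0) : genEta v X (a * b) = genEta v X a * genEta v X b := by
  have hn : ∀ {x : v.adicCompletion (cubicField ρ)}, x ≠ 0 → G.form.n (x, 0) ≠ 0 := fun hx => by
    simp [LocalForm.n, hx]
  rw [← genPsi_scalar (α := α) (β := β), ← genPsi_scalar (α := α) (β := β),
    ← genPsi_scalar (α := α) (β := β), ← G.genPsi_mul X (hn ha) (hn hb), G.form.qmul_scalar]
  simp

/-- `genEta` is quadratic. -/
theorem GenAt.genEta_sq (G : GenAt hρ v α β) {a : v.adicCompletion (cubicField ρ)}
    (ha : a ≠ 0) : genEta v X a * genEta v X a = 1 := by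
  have hn : G.form.n (a, 0) = a * a := by simp [LocalForm.n, sq]
  rw [← G.genEta_mul X ha ha, ← hn]
  exact G.eta_norm X (by rw [hn]; exact mul_ne_zero ha ha)

/-- `genEta` from its values at units and at the uniformiser. -/
theorem GenAt.genEta_eq (G : GenAt hρ v α β) {ε : ℂ} (hε : ε ^ 2 = 1)
    (hunit : ∀ a, a ≠ 0 → G.form.ord a = 0 → genEta v X a = 1)
    (hπ : genEta v X G.form.unif = ε) (a : v.adicCompletion (cubicField ρ)) (ha : a ≠ 0) :
    genEta v X a = ε ^ G.form.ord a := by
  have hε0 : ε ≠ 0 := fun h => by simp [h] at hε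
  have hu0 : G.form.unif ≠ 0 := G.form.unif_ne_zero
  have h1 : genEta v X 1 = 1 := hunit 1 one_ne_zero G.form.ord_one
  have hpow : ∀ n : ℕ, genEta v X (G.form.unif ^ n) = ε ^ n := fun n => by
    induction n with
    | zero => rw [pow_zero, pow_zero, h1]
    | succ n ih => rw [pow_succ, G.genEta_mul X (pow_ne_zero n hu0) hu0, ih, hπ, pow_succ]
  have hz : ∀ n : ℤ, genEta v X (G.form.unif ^ n) = ε ^ n := fun n => by
    rcases Int.eq_nat_or_neg n with ⟨m, rfl | rfl⟩
    · rw [zpow_natCast, zpow_natCast, hpow]
    · have := G.genEta_mul X (zpow_ne_zero (-(m : ℤ)) hu0) (pow_ne_zero m hu0)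
      rw [zpow_neg, zpow_natCast, inv_mul_cancel₀ (pow_ne_zero m hu0), h1, hpow] at this
      rw [zpow_neg, zpow_natCast, zpow_neg, zpow_natCast]
      exact (eq_inv_of_mul_eq_one_left this.symm)
  set n := G.form.ord a
  have hb : a / G.form.unif ^ n ≠ 0 := div_ne_zero ha (zpow_ne_zero _ hu0)
  have hb0 : G.form.ord (a / G.form.unif ^ n) = 0 := by
    rw [div_eq_mul_inv, G.form.ord_mul ha (inv_ne_zero (zpow_ne_zero _ hu0)),
      G.form.ord_inv (zpow_ne_zero _ hu0), G.form.ord_unif_zpow]
    exact add_neg_cancel _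
  rw [show a = a / G.form.unif ^ n * G.form.unif ^ n from
      (div_mul_cancel₀ a (zpow_ne_zero _ hu0)).symm,
    G.genEta_mul X hb (zpow_ne_zero _ hu0), hunit _ hb hb0, one_mul, hz]

end Fermat.Agent.LT.DihedralTheta

end
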