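import Fermat.Agent.LT.GaloisData.Psi
import Fermat.Agent.LT.GaloisData.Frobenius
import Fermat.Agent.LT.Places.Galois

/-!
# The quadratic extension `M / L` of the dihedral instance and the idele character it needs

`inclM` is the inclusion of the cubic field in the quartic field, `quartAut` the nontrivial
automorphism of `M` over `L`. `IdeleCharData` lists what is used of the idele character of `psi`.
-/

set_option autoImplicit false

noncomputable section

open IsDedekindDomain NumberField
open Fermat.Agent.GaloisBasics
open Fermat.Agent.LT.Final (GF3 quatI quatJ)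
open Fermat.Agent.LT.GaloisData
open Fermat.Agent.LT.Places

namespace Fermat.Agent.LT.DihedralTheta

variable {ρ : GalQ →* GF3}

/-- The inclusion of `L` in `M`. -/
def inclM (ρ : GalQ →* GF3) : cubicField ρ →+* quarticField ρ :=
  (IntermediateField.inclusion (cubicField_le_quarticField (ρ := ρ))).toRingHom

variable (hρ : IsSupersingularRep ρ)

include hρ

/-- An element of the Galois group of `L` outside that of `M`. -/
def quartLift : GalQ := (hρ.surjective quatJ).choose

/-- The chosen lift maps to the quaternion `j`. -/
theorem rho_quartLift : ρ (quartLift hρ) = quatJ := (hρ.surjective quatJ).choose_spec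

/-- The chosen lift fixes the cubic field. -/
theorem quartLift_mem : quartLift hρ ∈ (cubicField ρ).fixingSubgroup := by
  rw [mem_fixingSubgroup_fixH hρ.continuous, rho_quartLift]
  exact quatJ_mem

/-- The chosen lift does not fix the quartic field. -/
theorem quartLift_notMem : quartLift hρ ∉ (quarticField ρ).fixingSubgroup := by
  rw [mem_fixingSubgroup_fixH hρ.continuous, rho_quartLift]
  exact quatJ_notMem

/-- Elements of the Galois group of `L` preserve `M`. -/
theorem apply_mem_quartic {h : GalQ} (hh : h ∈ (cubicField ρ).fixingSubgroup)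
    (x : quarticField ρ) : h (x : Qbar) ∈ quarticField ρ := by
  by_cases hn : h ∈ (quarticField ρ).fixingSubgroup
  · rw [(IntermediateField.mem_fixingSubgroup_iff _ _).mp hn _ x.2]
    exact x.2
  refine mem_fixH.mpr fun σ hσ => ?_
  obtain ⟨hm, -⟩ := psi_conj hρ (inv_mem hh) (fun h' => hn (by simpa using inv_mem h'))
    ⟨σ, (mem_fixingSubgroup_fixH hρ.continuous).mpr hσ⟩
  have := (IntermediateField.mem_fixingSubgroup_iff _ _).mp hm _ x.2
  rw [inv_inv, AlgEquiv.mul_apply, AlgEquiv.mul_apply] at this
  have h3 := congrArg h this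
  rwa [← AlgEquiv.mul_apply h, mul_inv_cancel, AlgEquiv.one_apply] at h3

theorem quartLift_sq_mem : quartLift hρ * quartLift hρ ∈ (quarticField ρ).fixingSubgroup :=
  (psi_sq_of_notMem hρ (quartLift_mem hρ) (quartLift_notMem hρ)).1

theorem quartLift_quartLift (x : quarticField ρ) :
    quartLift hρ (quartLift hρ (x : Qbar)) = (x : Qbar) := by
  rw [← AlgEquiv.mul_apply]
  exact (IntermediateField.mem_fixingSubgroup_iff _ _).mp (quartLift_sq_mem hρ) _ x.2

/-- The nontrivial automorphism of `M` over `L`. -/
def quartAut : quarticField ρ ≃+* quarticField ρ where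
  toFun x := ⟨quartLift hρ (x : Qbar), apply_mem_quartic hρ (quartLift_mem hρ) x⟩
  invFun x := ⟨quartLift hρ (x : Qbar), apply_mem_quartic hρ (quartLift_mem hρ) x⟩
  left_inv x := Subtype.ext (quartLift_quartLift hρ x)
  right_inv x := Subtype.ext (quartLift_quartLift hρ x)
  map_mul' x y := Subtype.ext (map_mul (quartLift hρ) (x : Qbar) y)
  map_add' x y := Subtype.ext (map_add (quartLift hρ) (x : Qbar) y)

/-- The conjugation is the restriction of the chosen lift. -/
theorem coe_quartAut (x : quarticField ρ) :
    ((quartAut hρ x : quarticField ρ) : Qbar) = quartLift hρ x := rfl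

/-- The conjugation is an involution. -/
theorem quartAut_quartAut (x : quarticField ρ) : quartAut hρ (quartAut hρ x) = x :=
  Subtype.ext (quartLift_quartLift hρ x)

/-- The conjugation fixes the cubic field. -/
theorem quartAut_inclM (x : cubicField ρ) : quartAut hρ (inclM ρ x) = inclM ρ x :=
  Subtype.ext ((IntermediateField.mem_fixingSubgroup_iff _ _).mp (quartLift_mem hρ) _ x.2)

variable [NumberField (cubicField ρ)] [NumberField (quarticField ρ)]

/-- What the dihedral instance uses of the idele character `ξ` of `psi`: it is trivial on the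
principal ideles and on the units congruent to one at the places over three, has the value `psi`
at Frobenius, is inverted by the conjugation, has value `-1` at the uniformisers of the inert
places of `L`, and takes all values of `psi` on inertia at the units over three. -/
structure IdeleCharData : Type where
  /-- The character. -/
  ξ : (FinAdele (quarticField ρ))ˣ →* ℂˣ
  pow_four : ∀ u, ξ u ^ 4 = 1
  glob : ∀ a : (quarticField ρ)ˣ,
    ξ (Units.map (finIncl (quarticField ρ)).toMonoidHom a) = 1
  unit_trivial : ∀ u : (FinAdele (quarticField ρ))ˣ,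
    (∀ w : FinPlace (quarticField ρ), placeVal w (u : FinAdele (quarticField ρ)) = 1) →
    (∀ w : FinPlace (quarticField ρ), (3 : 𝓞 (quarticField ρ)) ∈ w.asIdeal →
      placeVal w ((u : FinAdele (quarticField ρ)) - 1) < 1) → ξ u = 1
  frob : ∀ w : FinPlace (quarticField ρ), (3 : 𝓞 (quarticField ρ)) ∉ w.asIdeal →
    (∀ (p : ℕ) (A : ValuationSubring Qbar), p.Prime → A.LiesOverPrime p →
      intIdeal (quarticField ρ) A = w.asIdeal → ∀ τ ∈ A.inertiaSubgroupIn ℚ, ρ τ = 1) →
    ∀ g : (quarticField ρ).fixingSubgroup,
      IsFrobOver (quarticField ρ) w.asIdeal (g : GalQ) → ξ (piUnit w) = psi hρ g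
  conj_inv : ∀ u : (FinAdele (quarticField ρ))ˣ,
    ξ (Units.map (finMap (quartAut hρ : quarticField ρ →+* quarticField ρ)).toRingHom.toMonoidHom u)
      = (ξ u)⁻¹
  eta_inert : ∀ (v : FinPlace (cubicField ρ)) (w : FinPlace (quarticField ρ)),
    comapPlace (inclM ρ) w = v →
    placeVal w (finExtend (inclM ρ) (piUnit v : FinAdele (cubicField ρ))) =
      WithZero.exp (-1 : ℤ) →
    Ideal.absNorm v.asIdeal < Ideal.absNorm w.asIdeal →
    ξ (Units.map (finExtend (inclM ρ)).toRingHom.toMonoidHom (piUnit v)) = -1
  unit_surj : ∀ (A : ValuationSubring Qbar), A.LiesOverPrime 3 →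
    ∀ (w : FinPlace (quarticField ρ)), intIdeal (quarticField ρ) A = w.asIdeal →
    ∀ g : (quarticField ρ).fixingSubgroup, (g : GalQ) ∈ A.inertiaSubgroupIn ℚ →
      ∃ u : (FinAdele (quarticField ρ))ˣ,
        (∀ w', w' ≠ w → toPlace w' (u : FinAdele (quarticField ρ)) = 1) ∧
        placeVal w (u : FinAdele (quarticField ρ)) = 1 ∧ ξ u = psi hρ g

end Fermat.Agent.LT.DihedralTheta

end
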