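import Fermat.Agent.LT.DihedralTheta.Instance.Main
import Fermat.Agent.LT.DihedralTheta.Instance.Eigen
import Fermat.Agent.LT.DihedralTheta.Target.Main
import Fermat.Agent.LT.DihedralTheta.Target.Nonvanish
import Fermat.Agent.LT.DihedralTheta.Unfold
import Fermat.Agent.LT.Descent.CubicPlaces

/-!
# The dihedral datum of `ρ` is target data

The level, the Weyl relation, the residue models at three, the spherical vectors and the
eigenvalues at the unramified places, assembled for the descent.
-/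

set_option autoImplicit false

noncomputable section

open IsDedekindDomain NumberField
open Fermat.Agent.GaloisBasics
open Fermat.Agent.LT.Final (GF3)
open Fermat.Agent.LT.GaloisData
open Fermat.Agent.LT.Places

namespace Fermat.Agent.LT.DihedralTheta

variable {ρ : GalQ →* GF3} [NumberField (cubicField ρ)]

omit [NumberField ↥(cubicField ρ)] in
/-- Off the places of the level `ρ` is unramified. -/
theorem isUnramAt_of_notMem_places (hρ : IsSupersingularRep ρ) {v : FinPlace (cubicField ρ)}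
    (hQ : v ∉ Descent.placesTame hρ) (hR : v ∉ Descent.placesThree hρ) :
    IsUnramAt ρ (cubicField ρ) v.asIdeal := by
  intro q A hq hA hAv τ hτ
  have hqv : (q : 𝓞 (cubicField ρ)) ∈ v.asIdeal := hAv ▸ natCast_mem_intIdeal _ hA
  have hq3 : q ≠ 3 := fun e => hR ((Descent.mem_placesThree hρ).2 (by subst e; exact_mod_cast hqv))
  exact Descent.isUnramAt_of_notMem hρ hq hq3
    (fun h => hQ ((Descent.mem_placesTame hρ).2 ⟨q, h, hqv⟩)) A hA τ hτ

variable [NumberField (quarticField ρ)] {hρ : IsSupersingularRep ρ} {X : IdeleCharData hρ}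

/-- The eigenvalue at a spherical place off three. -/
theorem IsSphericalDatum.exists_eigen {v : FinPlace (cubicField ρ)}
    {P : PlaceDatum (thetaS hρ) (thetaP hρ) v} (hP : IsSphericalDatum hρ X P)
    {Ψ : GF3 →* GL (Fin 2) (ℤ√(-2))}
    (hΨ : ∀ g, Matrix.GeneralLinearGroup.map FLT.ExplicitLift.red (Ψ g) = g) (ι : ℤ√(-2) →+* ℂ)
    (h3 : (3 : 𝓞 (cubicField ρ)) ∉ v.asIdeal) (hun : IsUnramAt ρ (cubicField ρ) v.asIdeal) :
    ∃ l : ℂ, thetaLam ρ Ψ ι v.asIdeal = (Real.sqrt (Nat.card (Residue v)) : ℂ) * l ∧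
      ∀ n : ℤ, n ≠ 0 → P.form.sphSum P.psi n =
        l * P.form.sphSum P.psi (n - 1) - P.form.sphSum P.psi (n - 2) := by
  rw [hP.psi_eq]
  exact GenAt.HasUnitDisc.exists_eigen X (G := ⟨P.β_ne, P.trace_le, P.norm_le⟩) hP.disc_unit hΨ ι
    h3 hun

/-- A spherical datum has a nonzero Whittaker function. -/
theorem IsSphericalDatum.exists_whit_ne_zero {v : FinPlace (cubicField ρ)}
    {P : PlaceDatum (thetaS hρ) (thetaP hρ) v} (hP : IsSphericalDatum hρ X P) :
    ∃ g ξ, ξ ≠ 0 ∧ P.vec.whit P.psi g ξ ≠ 0 := by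
  obtain ⟨η, ε, h, hvec⟩ := hP.spherical
  rw [hvec]
  exact whit_spherical_ne h fun c hc => hP.psi_unram.unit c hc.1 hc.2.1 hc.2.2

variable {e : Fin 2} {place : ∀ v, PlaceDatum (thetaS hρ) (thetaP hρ) v}

/-- **The instance is target data.** -/
theorem IsInstance.isTargetData [NumberField.IsTotallyComplex (cubicField ρ)]
    (h : IsInstance hρ X e place) {Ψ : GF3 →* GL (Fin 2) (ℤ√(-2))}
    (hΨ : ∀ g, Matrix.GeneralLinearGroup.map FLT.ExplicitLift.red (Ψ g) = g)
    (ι : ℤ√(-2) →+* ℂ) :
    IsTargetData h.toData (cubicAut hρ) (Descent.exists_mem_levelI hρ) (Descent.placesTame hρ)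
      (Descent.placesThree hρ) (fun v => thetaLam ρ Ψ ι v.asIdeal)
      (Descent.cubicPlaces hρ).three e where
  level := h.isLevel
  weyl := h.toData.exists_weyl_const h.isLevel
  le_places v hv := (Descent.levelI_le_iff hρ v).mp hv
  three_mem v hv := hv
  three_le v hv := (Descent.levelI_le_iff hρ v).mpr (Or.inr hv)
  type v := by
    obtain ⟨η, M, hvec, hN, -, -⟩ :=
      (h.three _ ((Descent.mem_placesThree hρ).mp v.2)).model
    exact h.toData.isTypeAt_of_model M hN hvec
  spherical v hv := by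
    have h3 : (3 : 𝓞 (cubicField ρ)) ∉ v.asIdeal := fun h3 =>
      Finset.disjoint_left.mp (Descent.disjoint_places hρ) hv ((Descent.mem_placesThree hρ).mpr h3)
    obtain ⟨η, ε, hu, hvec⟩ := (h.away v h3).spherical
    show intGroup v ≤ (place v).vec.U
    rw [hvec, ← intGL_eq_intGroup]
    exact le_refl _
  good v hQ hR _ := by
    have h3 : (3 : 𝓞 (cubicField ρ)) ∉ v.asIdeal := fun h3 =>
      hR ((Descent.mem_placesThree hρ).mpr h3)
    have hP := h.away v h3
    exact ⟨hP.spherical, hP.psi_unram,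
      hP.exists_eigen hΨ ι h3 (isUnramAt_of_notMem_places hρ hQ hR)⟩
  nonvanish v _ := by
    by_cases h3 : (3 : 𝓞 (cubicField ρ)) ∈ v.asIdeal
    · obtain ⟨η, M, hvec, hN, hf, -⟩ := (h.three v h3).model
      exact (place v).exists_whit_ne_zero_of_model M hvec hN hf
    · exact (h.away v h3).exists_whit_ne_zero

/-- **Target data for `ρ`**, given the idele character and the data at the places over three. -/
theorem exists_isTargetData [NumberField.IsTotallyComplex (cubicField ρ)]
    (hρ : IsSupersingularRep ρ) (X : IdeleCharData hρ) (e : Fin 2)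
    (hthree : ∀ v : FinPlace (cubicField ρ), (3 : 𝓞 (cubicField ρ)) ∈ v.asIdeal →
      ∃ P : PlaceDatum (thetaS hρ) (thetaP hρ) v, IsThreeDatum hρ X e P)
    {Ψ : GF3 →* GL (Fin 2) (ℤ√(-2))}
    (hΨ : ∀ g, Matrix.GeneralLinearGroup.map FLT.ExplicitLift.red (Ψ g) = g)
    (ι : ℤ√(-2) →+* ℂ) :
    ∃ D : ThetaData (cubicField ρ), IsTargetData D (cubicAut hρ) (Descent.exists_mem_levelI hρ)
      (Descent.placesTame hρ) (Descent.placesThree hρ) (fun v => thetaLam ρ Ψ ι v.asIdeal)
      (Descent.cubicPlaces hρ).three e := by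
  obtain ⟨place, h⟩ := exists_isInstance hρ X e hthree
  exact ⟨h.toData, h.isTargetData hΨ ι⟩

end Fermat.Agent.LT.DihedralTheta

end
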