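import Fermat.Agent.LT.DihedralTheta.Instance.Class
import Fermat.Agent.LT.Descent.LevelPlaces

/-!
# Units over three

The residue field of `L` at a place over three has three elements; the values of the local
character at units depend on residues; inertia supplies units over three with prescribed values.
-/

set_option autoImplicit false

noncomputable section

open IsDedekindDomain NumberField WithZero
open Fermat.Agent.GaloisBasics
open Fermat.Agent.LT.Final (GF3)
open Fermat.Agent.LT.GaloisData
open Fermat.Agent.LT.Places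

namespace Fermat.Agent.LT.DihedralTheta

variable {ρ : GalQ →* GF3} [NumberField (cubicField ρ)] [NumberField (quarticField ρ)]
  {hρ : IsSupersingularRep ρ} {v : FinPlace (cubicField ρ)} {α β : cubicField ρ}

omit [NumberField ↥(quarticField ρ)] in
/-- The maximal ball consists of elements of valuation less than `1`. -/
theorem lt_one_of_mem_ball_one {x : v.adicCompletion (cubicField ρ)}
    (h : x ∈ (placeBase v).ball 1) : Valued.v x < 1 :=
  (mem_placeBall.mp h).trans_lt (by rw [← exp_zero, exp_lt_exp]; norm_num)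

/-- The adele of a pair of global elements, above `v`. -/
theorem toPlace_aboveElt_cmp (x y : cubicField ρ) {w : FinPlace (quarticField ρ)}
    (hw : comapPlace (inclM ρ) w = v) :
    toPlace w (aboveElt (inclM ρ) (genElt hρ α β) v (cmp v x, cmp v y)) =
      toPlace w (finIncl (quarticField ρ) (inclM ρ x + inclM ρ y * genElt hρ α β)) := by
  have h : ∀ a : cubicField ρ, toPlace w (finExtend (inclM ρ) (single v (cmp v a))) =
      toPlace w (finIncl (quarticField ρ) (inclM ρ a)) := fun a => by
    rw [← mul_one (cmp v a), single_cmp_mul, map_mul, finExtend_finIncl, map_mul, ← idem,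
      ← aboveIdem, toPlace_aboveIdem_same _ hw, mul_one]
  simp only [aboveElt, map_add, map_mul, h]

omit [NumberField ↥(quarticField ρ)] in
/-- The residue field of `L` over three has three elements. -/
theorem qThree (hρ : IsSupersingularRep ρ) (h3 : (3 : 𝓞 (cubicField ρ)) ∈ v.asIdeal) :
    (placeBase v).q = 3 := by
  have := isGalois_fixH hρ.continuous quatGroup
  exact Descent.card_residue_three hρ ((Descent.mem_placesThree hρ).mpr h3)

omit [NumberField ↥(cubicField ρ)] [NumberField ↥(quarticField ρ)] in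
/-- A place over `3` has residue characteristic `3`. -/
theorem eq_three {p : ℕ} (hp : p.Prime) {A : ValuationSubring Qbar} (hA : A.LiesOverPrime p)
    (hv : intIdeal (cubicField ρ) A = v.asIdeal) (h3 : (3 : 𝓞 (cubicField ρ)) ∈ v.asIdeal) :
    p = 3 := by
  by_contra hne
  obtain ⟨a, b, hab⟩ := Int.isCoprime_iff_gcd_eq_one.mpr
    (show Int.gcd (p : ℤ) (3 : ℤ) = 1 from (Nat.coprime_primes hp Nat.prime_three).mpr hne)
  refine v.isPrime.ne_top ((Ideal.eq_top_iff_one _).mpr ?_)
  have hmem := natCast_mem_intIdeal (cubicField ρ) hA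
  rw [hv] at hmem
  have := congrArg (Int.cast : ℤ → 𝓞 (cubicField ρ)) hab
  push_cast at this
  rw [← this]
  exact add_mem (v.asIdeal.mul_mem_left _ hmem) (v.asIdeal.mul_mem_left _ h3)

omit [NumberField ↥(quarticField ρ)] in
/-- `2` is a unit at a place over `3`. -/
theorem valuation_two {v : FinPlace (cubicField ρ)}
    (h3 : (3 : 𝓞 (cubicField ρ)) ∈ v.asIdeal) : v.valuation (cubicField ρ) 2 = 1 := by
  rw [show (2 : cubicField ρ) = algebraMap (𝓞 (cubicField ρ)) _ 2 from (map_ofNat _ 2).symm,
    HeightOneSpectrum.valuation_eq_one_iff_notMem]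
  intro h
  refine v.isPrime.ne_top ((Ideal.eq_top_iff_one _).mpr ?_)
  have := sub_mem h3 h
  norm_num at this
  exact this

omit [NumberField ↥(quarticField ρ)] in
/-- At a place over `3` every integral element is congruent to a rational integer. -/
theorem exists_int_sub_lt (hρ : IsSupersingularRep ρ) (h3 : (3 : 𝓞 (cubicField ρ)) ∈ v.asIdeal)
    {x : cubicField ρ} (hx : v.valuation (cubicField ρ) x ≤ 1) :
    ∃ n : ℤ, v.valuation (cubicField ρ) (x - n) < 1 := by
  obtain ⟨n, hn⟩ := LocalBase.exists_intCast (qThree hρ h3) (cmp_mem_placeBall hx)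
  refine ⟨n, ?_⟩
  rw [← torus_valued_cmp, map_sub, map_intCast]
  exact lt_one_of_mem_ball_one hn

omit [NumberField ↥(quarticField ρ)] in
/-- Pairs with equal residues differ by a small pair. -/
theorem sub_mem_box_of_res {K : LocalBase (v.adicCompletion (cubicField ρ))} (hq : K.q = 3)
    {c d : v.adicCompletion (cubicField ρ) × v.adicCompletion (cubicField ρ)}
    (hc : c ∈ K.box 0 0) (hd : d ∈ K.box 0 0) (h1 : K.res c.1 = K.res d.1)
    (h2 : K.res c.2 = K.res d.2) : c - d ∈ K.box 1 1 := by
  obtain ⟨c1, c2⟩ := LocalBase.mem_box.mp hc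
  obtain ⟨d1, d2⟩ := LocalBase.mem_box.mp hd
  refine LocalBase.mem_box.mpr ⟨?_, ?_⟩
  · rw [Prod.fst_sub, ← LocalBase.res_eq_zero_iff hq (sub_mem c1 d1), LocalBase.res_sub hq c1 d1,
      h1, sub_self]
  · rw [Prod.snd_sub, ← LocalBase.res_eq_zero_iff hq (sub_mem c2 d2), LocalBase.res_sub hq c2 d2,
      h2, sub_self]

variable (X : IdeleCharData hρ)

/-- Unit pairs congruent above `v` have the same value. -/
theorem GenAt.genPsi_congr (G : GenAt hρ v α β)
    {c d : v.adicCompletion (cubicField ρ) × v.adicCompletion (cubicField ρ)}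
    (hc : G.form.UnitPt c) (hd : G.form.UnitPt d)
    (h : ∀ w : FinPlace (quarticField ρ), comapPlace (inclM ρ) w = v →
      placeVal w (aboveElt (inclM ρ) (genElt hρ α β) v (c - d)) < 1) :
    genPsi v α β X c = genPsi v α β X d := by
  obtain ⟨t, ht⟩ := isUnit_aboveAdele (genElt_sq (hρ := hρ) α β) (z := d) hd.2.1
  rw [G.genPsi_eq_xi X hc (u := t) (fun w => by rw [ht]; exact G.placeVal_adele_unit hd w)
    fun w _ => ?_, genPsi, idelePsi, ← ht, extendChar_coe]
  rw [ht, placeVal, map_sub]
  by_cases hw : comapPlace (inclM ρ) w = v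
  · have e : aboveElt (inclM ρ) (genElt hρ α β) v (c - d) =
        aboveElt (inclM ρ) (genElt hρ α β) v c - aboveElt (inclM ρ) (genElt hρ α β) v d := by
      simp only [aboveElt, Prod.fst_sub, Prod.snd_sub, map_sub]
      ring
    rw [toPlace_aboveAdele c hw, toPlace_aboveAdele d hw, ← map_sub, ← e]
    exact h w hw
  · rw [toPlace_aboveAdele_out c hw, toPlace_aboveAdele_out d hw, sub_self, map_zero]
    exact zero_lt_one

/-- Unit pairs with equal residues have the same value. -/
theorem GenAt.genPsi_res (G : GenAt hρ v α β) (hq : G.form.q = 3)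
    {c d : v.adicCompletion (cubicField ρ) × v.adicCompletion (cubicField ρ)}
    (hc : G.form.UnitPt c) (hd : G.form.UnitPt d) (h1 : G.form.res c.1 = G.form.res d.1)
    (h2 : G.form.res c.2 = G.form.res d.2) : genPsi v α β X c = genPsi v α β X d :=
  G.genPsi_congr X hc hd fun _ hw => G.placeVal_elt_lt hw
    (sub_mem_box_of_res hq hc.1 hd.1 h1 h2)

/-- Scalar units with equal residues have the same value. -/
theorem GenAt.genEta_res (G : GenAt hρ v α β) (hq : G.form.q = 3)
    {a b : v.adicCompletion (cubicField ρ)} (ha : a ≠ 0) (hao : G.form.ord a = 0) (hb : b ≠ 0)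
    (hbo : G.form.ord b = 0) (h : G.form.res a = G.form.res b) :
    genEta v X a = genEta v X b := by
  rw [← genPsi_scalar (α := α) (β := β), ← genPsi_scalar (α := α) (β := β)]
  exact G.genPsi_res X hq (unitPt_scalar G ha hao) (unitPt_scalar G hb hbo) h rfl

omit X [NumberField ↥(cubicField ρ)] in
/-- The residue characteristic above is three: a unit congruent to an integer is `±1`. -/
theorem exists_sign {w : FinPlace (quarticField ρ)} (h3 : (3 : 𝓞 (quarticField ρ)) ∈ w.asIdeal)
    {u : FinAdele (quarticField ρ)} (hu : placeVal w u = 1) {n : ℤ}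
    (hn : placeVal w (u - n) < 1) :
    placeVal w (u - 1) < 1 ∨ placeVal w (u + 1) < 1 := by
  have hk : ∀ k : ℤ, placeVal w ((3 * k : ℤ) : FinAdele (quarticField ρ)) < 1 := fun k => by
    rw [placeVal, map_intCast, ← map_intCast (cmp w), torus_valued_cmp,
      ← map_intCast (algebraMap (𝓞 (quarticField ρ)) (quarticField ρ)),
      HeightOneSpectrum.valuation_lt_one_iff_mem]
    push_cast
    exact w.asIdeal.mul_mem_right _ h3
  rcases (show n % 3 = 0 ∨ n % 3 = 1 ∨ n % 3 = 2 by omega) with h | h | h
  · exfalso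
    have : placeVal w u < 1 := by
      rw [← sub_add_cancel u (n : FinAdele (quarticField ρ))]
      refine (placeVal_add_le w _ _).trans_lt (max_lt hn ?_)
      rw [show n = 3 * (n / 3) by omega]
      exact hk _
    exact this.ne hu
  · left
    rw [show u - 1 = (u - n) + ((3 * (n / 3) : ℤ) : FinAdele (quarticField ρ)) by
      rw [show (3 * (n / 3) : ℤ) = n - 1 by omega]; push_cast; ring]
    exact (placeVal_add_le w _ _).trans_lt (max_lt hn (hk _))
  · right
    rw [show u + 1 = (u - n) + ((3 * (n / 3 + 1) : ℤ) : FinAdele (quarticField ρ)) by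
      rw [show (3 * (n / 3 + 1) : ℤ) = n + 1 by omega]; push_cast; ring]
    exact (placeVal_add_le w _ _).trans_lt (max_lt hn (hk _))

omit X [NumberField ↥(cubicField ρ)] in
/-- An adele which is `1` away from `w` and a unit at `w` is a unit at every place. -/
theorem mem_integralAdele_of_units {w : FinPlace (quarticField ρ)}
    {u : FinAdele (quarticField ρ)} (hu : ∀ w', w' ≠ w → toPlace w' u = 1)
    (hw : placeVal w u = 1) : ∀ w', placeVal w' u = 1 := fun w' => by
  by_cases h : w' = w
  · rw [h, hw]
  · rw [placeVal, hu w' h, map_one]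

/-- If the residues at `w` are rational, the squares of the values at the units at `w` are one. -/
theorem xi_sq_eq_one {w : FinPlace (quarticField ρ)} (h3 : (3 : 𝓞 (quarticField ρ)) ∈ w.asIdeal)
    (hres : ∀ o : 𝓞 (quarticField ρ), ∃ n : ℤ,
      w.valuation (quarticField ρ) ((o : quarticField ρ) - n) < 1)
    {u : (FinAdele (quarticField ρ))ˣ}
    (hu : ∀ w', w' ≠ w → toPlace w' (u : FinAdele (quarticField ρ)) = 1)
    (hw : placeVal w (u : FinAdele (quarticField ρ)) = 1) : X.ξ u * X.ξ u = 1 := by
  have hall := mem_integralAdele_of_units hu hw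
  obtain ⟨o, ho⟩ := exists_integer_sub_lt w (mem_integralAdele_iff.mpr fun w' => (hall w').le)
  obtain ⟨n, hn⟩ := hres o
  have hun : placeVal w ((u : FinAdele (quarticField ρ)) - n) < 1 := by
    rw [← sub_add_sub_cancel _ (finIncl (quarticField ρ) (o : quarticField ρ))]
    refine (placeVal_add_le w _ _).trans_lt (max_lt ho ?_)
    rwa [← map_intCast (finIncl (quarticField ρ)), ← map_sub, placeVal_finIncl]
  rw [← map_mul]
  refine X.unit_trivial _ (fun w' => ?_) fun w' _ => ?_
  · rw [Units.val_mul, placeVal_mul, hall, one_mul]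
  by_cases h : w' = w
  · subst h
    rw [Units.val_mul, mul_self_sub_one, placeVal_mul]
    have hle : ∀ a : FinAdele (quarticField ρ), placeVal w' a = 1 →
        placeVal w' (a + 1) ≤ 1 ∧ placeVal w' (a - 1) ≤ 1 := fun a ha =>
      ⟨(placeVal_add_le w' _ _).trans (max_le ha.le (placeVal_one w').le), by
        rw [placeVal, map_sub]
        exact (Valuation.map_sub _ _ _).trans (max_le ha.le (placeVal_one w').le)⟩
    rcases exists_sign h3 hw hun with h' | h'
    · exact mul_lt_one_of_nonneg_of_lt_one_right (hle _ hw).1 zero_le h'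
    · exact mul_lt_one_of_nonneg_of_lt_one_left zero_le h' (hle _ hw).2
  · rw [placeVal, map_sub, Units.val_mul, map_mul, hu w' h, map_one, one_mul, sub_self, map_zero]
    exact zero_lt_one

omit [NumberField (cubicField ρ)] [NumberField (quarticField ρ)] in
/-- The fourth power of the generator of inertia at three has `psi = -1`. -/
theorem exists_inertia_neg_one (hρ : IsSupersingularRep ρ) {A : ValuationSubring Qbar}
    (hA : A.LiesOverPrime 3) :
    ∃ τ ∈ A.inertiaSubgroupIn ℚ, τ * τ ∈ (cubicField ρ).fixingSubgroup ∧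
      ∃ h : τ * τ * (τ * τ) ∈ (quarticField ρ).fixingSubgroup,
        psi hρ ⟨τ * τ * (τ * τ), h⟩ = -1 := by
  obtain ⟨τ, hτ, h8⟩ := hρ.inertia A hA
  have hdet : Matrix.GeneralLinearGroup.det (ρ (τ * τ)) = 1 := by
    rw [map_mul, map_mul]
    generalize Matrix.GeneralLinearGroup.det (ρ τ) = u
    revert u
    decide
  have hQ : ρ (τ * τ) ∈ quatGroup := hρ.decomposition A hA _
    (inertiaSubgroupIn_le_decompositionSubgroup (mul_mem hτ hτ)) hdet
  refine ⟨τ, hτ, (mem_fixingSubgroup_fixH hρ.continuous).mpr hQ, ?_⟩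
  have h4 : ρ (τ * τ * (τ * τ)) = -1 := by
    have hM := (inQuaternion_iff_mem _).mp hQ
    have hall : ∀ M ∈ quatList, M = 1 ∨ M = -1 ∨ M * M = -1 := by decide +kernel
    have hpow : ∀ k : ℕ, 0 < k → k < 8 → ρ τ ^ k ≠ 1 := fun k hk hk' e => by
      have := orderOf_dvd_of_pow_eq_one e
      rw [h8] at this
      exact absurd (Nat.le_of_dvd hk this) (not_le.mpr hk')
    rcases hall _ hM with h | h | h
    · exact absurd (show ρ τ ^ 2 = 1 by rw [sq, ← map_mul]; exact Units.ext h)
        (hpow 2 (by norm_num) (by norm_num))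
    · refine absurd (show ρ τ ^ 4 = 1 from ?_) (hpow 4 (by norm_num) (by norm_num))
      rw [show 4 = 2 + 2 from rfl, pow_add, sq, ← map_mul,
        show ρ (τ * τ) = -1 from Units.ext h]
      exact (neg_mul_neg 1 1).trans (one_mul 1)
    · rw [map_mul]; exact Units.ext h
  have hm : (-1 : GF3) ∈ cycFour := by
    rw [show (-1 : GF3) = Final.quatI ^ 2 by apply Units.ext; decide]
    exact pow_mem (Subgroup.mem_zpowers _) 2
  refine ⟨(mem_fixingSubgroup_fixH hρ.continuous).mpr (h4 ▸ hm), ?_⟩
  rw [psi_apply]
  exact (congrArg chiFour (Subtype.ext h4)).trans (chiFour_neg_one hm)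

end Fermat.Agent.LT.DihedralTheta

end
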